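/-
GR/Adic : the p-adic layer (S30, S31) on top of the geometric core of project GAL/GR.
Defs: the abstract interface `PSys` and the weak Chebotarev statement.
-/
import Mathlib
import Fermat.Prelude.Def_GaloisRep_Adic

set_option autoImplicit false

namespace Fermat.Agent.GR.Adic

/-- the absolute Galois group of `ℚ` -/
abbrev GQ : Type := AlgebraicClosure ℚ ≃ₐ[ℚ] AlgebraicClosure ℚ

/-- Weak Chebotarev (Frobenius 1896): modulo every finite level, every `g` is a power of a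
Frobenius lift at a prime outside any given finite set. -/
def WeakCheb : Prop :=
  ∀ (L : IntermediateField ℚ (AlgebraicClosure ℚ)), FiniteDimensional ℚ L →
    ∀ (T : Finset ℕ) (g : GQ),
      ∃ (ℓ : ℕ) (A : ValuationSubring (AlgebraicClosure ℚ)) (σ : GQ) (j : ℕ),
        ℓ.Prime ∧ ℓ ∉ T ∧ A.LiesOverPrime ℓ ∧ A.IsFrobeniusAt σ ℓ ∧ ∀ x ∈ L, (σ ^ j) x = g x

/-- `σ` fixes the finite level `L` pointwise. -/
def FixesLevel (L : IntermediateField ℚ (AlgebraicClosure ℚ)) (σ : GQ) : Prop :=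
  ∀ x ∈ L, σ x = x

/-- The abstract `p`-divisible Eichler--Shimura system.
* `𝕋` : the Hecke algebra, `τ ℓ` its element `T_ℓ` (junk for the other `ℓ`);
* `bad` : outside `bad` the Eichler--Shimura relation holds; `ram` : outside `ram` inertia is trivial;
* `W` : a `p`-divisible `p`-primary torsion group with finite `p`-torsion, with commuting actions
  of `𝕋` and `G_ℚ`;
* `L0` : a finite free `ℤ`-module, faithful over `𝕋`, with `L0 / p^m ↪ W[p^m]` compatibly. -/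
structure PSys (p : ℕ) (bad ram : Set ℕ) (𝕋 : Type) [CommRing 𝕋] (τ : ℕ → 𝕋) : Type 1 where
  W : Type
  [instW : AddCommGroup W]
  [instT : Module 𝕋 W]
  [instG : DistribMulAction GQ W]
  comm : ∀ (g : GQ) (t : 𝕋) (x : W), g • (t • x) = t • (g • x)
  tors : ∀ x : W, ∃ m : ℕ, (p ^ m) • x = 0
  fin : {x : W | p • x = 0}.Finite
  div : ∀ x : W, ∃ y : W, p • y = x
  smooth : ∀ x : W, ∃ L : IntermediateField ℚ (AlgebraicClosure ℚ), FiniteDimensional ℚ L ∧
    ∀ σ : GQ, FixesLevel L σ → σ • x = x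
  unram : ∀ q : ℕ, q.Prime → q ∉ ram → ∀ A : ValuationSubring (AlgebraicClosure ℚ),
    A.LiesOverPrime q → ∀ σ ∈ A.inertiaSubgroupIn ℚ, ∀ x : W, σ • x = x
  es : ∀ ℓ : ℕ, ℓ.Prime → ℓ ∉ bad → ∀ A : ValuationSubring (AlgebraicClosure ℚ),
    A.LiesOverPrime ℓ → ∀ σ : GQ, A.IsFrobeniusAt σ ℓ → ∀ x : W,
      σ • σ • x - τ ℓ • σ • x + ℓ • x = 0
  L0 : Type
  [instL0 : AddCommGroup L0]
  [instL0free : Module.Free ℤ L0]
  [instL0fin : Module.Finite ℤ L0]
  [instL0T : Module 𝕋 L0]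
  faithful : ∀ t : 𝕋, (∀ x : L0, t • x = 0) → t = 0
  κ : ℕ → L0 →+ W
  κ_ker : ∀ (m : ℕ) (x : L0), κ m x = 0 ↔ ∃ y : L0, x = (p ^ m) • y
  κ_succ : ∀ (m : ℕ) (x : L0), p • κ (m + 1) x = κ m x
  κ_T : ∀ (m : ℕ) (t : 𝕋) (x : L0), κ m (t • x) = t • κ m x

attribute [instance] PSys.instW PSys.instT PSys.instG PSys.instL0 PSys.instL0free PSys.instL0fin
  PSys.instL0T

end Fermat.Agent.GR.Adic
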