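import Mathlib

/-!
# The canonical ring homomorphism `ℤ_[p] →+* O`

for a commutative ring `O` which is `I`-adically complete, `(p : O) ∈ I`.
-/

namespace Fermat.Agent.GR.Adic

open PadicInt

variable (p : ℕ) [Fact p.Prime] {O : Type*} [CommRing O] (I : Ideal O)

/-- `ZMod (p^n) →+* O ⧸ I^n` when `p ∈ I`. -/
noncomputable def zmodToQuot (hp : (p : O) ∈ I) (n : ℕ) : ZMod (p ^ n) →+* O ⧸ I ^ n :=
  (Ideal.Quotient.lift (Ideal.span {((p ^ n : ℕ) : ℤ)}) (Int.castRingHom (O ⧸ I ^ n)) (by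
    intro a ha
    obtain ⟨c, rfl⟩ := Ideal.mem_span_singleton.mp ha
    have h1 : ((p ^ n : ℕ) : O ⧸ I ^ n) = 0 := by
      have : ((p ^ n : ℕ) : O ⧸ I ^ n) = Ideal.Quotient.mk (I ^ n) ((p : O) ^ n) := by
        push_cast; rfl
      rw [this, Ideal.Quotient.eq_zero_iff_mem]
      exact Ideal.pow_mem_pow hp n
    simp only [eq_intCast, Int.cast_mul, Int.cast_natCast, h1, zero_mul])).comp
    (Int.quotientSpanNatEquivZMod (p ^ n)).symm.toRingHom

theorem zmodToQuot_compat (hp : (p : O) ∈ I) {m n : ℕ} (hle : m ≤ n) :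
    (Ideal.Quotient.factorPow I hle).comp ((zmodToQuot p I hp n).comp (toZModPow n)) =
      (zmodToQuot p I hp m).comp (toZModPow m) := by
  rw [← zmod_cast_comp_toZModPow m n hle, ← RingHom.comp_assoc, ← RingHom.comp_assoc]
  congr 1
  exact Subsingleton.elim _ _

variable [IsAdicComplete I O]

/-- The canonical ring homomorphism `ℤ_[p] →+* O`, `O` an `I`-adically complete ring, `p ∈ I`. -/
noncomputable def zpTo (hp : (p : O) ∈ I) : ℤ_[p] →+* O :=
  IsAdicComplete.liftRingHom I (fun n => (zmodToQuot p I hp n).comp (toZModPow n))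
    (fun hle => zmodToQuot_compat p I hp hle)

theorem mk_zpTo (hp : (p : O) ∈ I) (n : ℕ) (x : ℤ_[p]) :
    Ideal.Quotient.mk (I ^ n) (zpTo p I hp x) = zmodToQuot p I hp n (toZModPow n x) := by
  exact IsAdicComplete.mk_liftRingHom I _ (fun hle => zmodToQuot_compat p I hp hle) n x

/-- `zpTo x` is congruent to the natural number `x.appr n` modulo `p ^ n`. -/
theorem zpTo_sub_appr (hp : (p : O) ∈ I) (n : ℕ) (x : ℤ_[p]) :
    (p : O) ^ n ∣ zpTo p I hp x - (x.appr n : O) := by
  obtain ⟨c, hc⟩ := Ideal.mem_span_singleton.mp (appr_spec n x)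
  have := congrArg (zpTo p I hp) hc
  rw [map_sub, map_natCast, map_mul, map_pow, map_natCast] at this
  exact ⟨_, this⟩

theorem zpTo_injective [CharZero O] (hp : (p : O) ∈ I) : Function.Injective (zpTo p I hp) := by
  rw [injective_iff_map_eq_zero]
  intro x hx
  by_contra hne
  have h := PadicInt.unitCoeff_spec hne
  rw [h, map_mul, map_pow, map_natCast] at hx
  have hu : IsUnit (zpTo p I hp (unitCoeff hne : ℤ_[p])) := (unitCoeff hne).isUnit.map _
  have h0 : (p : O) ^ x.valuation = 0 := by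
    rw [mul_comm] at hx
    exact (hu.mul_left_eq_zero).mp hx
  have hp0 : ((p ^ x.valuation : ℕ) : O) ≠ 0 :=
    Nat.cast_ne_zero.mpr (pow_ne_zero _ (Fact.out : p.Prime).ne_zero)
  exact hp0 (by push_cast; exact h0)

end Fermat.Agent.GR.Adic
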