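import Mathlib
import Fermat.Prelude.Def_GaloisRep_ComplexConjugation
import Fermat.Agent.GR.Adic.Defs
import Fermat.Agent.GR.Adic.ZpTo
import Fermat.Agent.GR.Asm.Cyclo

/-!
# GR / Adic / [Cyc] : the `p`-adic cyclotomic character with values in a complete local ring `O`
-/

set_option autoImplicit false

namespace Fermat.Agent.GR.Adic

open Fermat.Agent.GR.Asm (frobenius_spec inertia_spec mem_of_pow_eq_one mul_mem_nonunits_of_mem
  eq_one_of_sub_one_mem_nonunits)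

local notation "Qbar" => AlgebraicClosure ℚ

/-! ### Roots of unity of `p`-power order and places over `ℓ ≠ p` -/

theorem cyc_eq_one_of_pow_pow_eq_one (A : ValuationSubring Qbar) {ℓ p : ℕ} (hp : p.Prime)
    (hℓ : ℓ.Prime) (hne : ℓ ≠ p) (hA : A.LiesOverPrime ℓ) (m : ℕ) {η : Qbar}
    (hη : η ^ (p ^ m) = 1) (h : η - 1 ∈ A.nonunits) : η = 1 := by
  induction m generalizing η with
  | zero => simpa using hη
  | succ m ih =>
    have hmem : η ∈ A := mem_of_pow_eq_one A (pow_pos hp.pos _) hη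
    have h1 : η ^ p = 1 := by
      apply ih
      · rw [← pow_mul, ← pow_succ']; exact hη
      · have h2 : η ^ p - 1 = (η - 1) * ∑ i ∈ Finset.range p, η ^ i := by
          rw [mul_comm, geom_sum_mul]
        rw [h2]
        exact mul_mem_nonunits_of_mem A h (sum_mem fun i _ => pow_mem hmem i)
    exact eq_one_of_sub_one_mem_nonunits A hp hℓ hne hA h1 h

theorem cyc_eq_of_sub_mem_nonunits (A : ValuationSubring Qbar) {ℓ p : ℕ} (hp : p.Prime)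
    (hℓ : ℓ.Prime) (hne : ℓ ≠ p) (hA : A.LiesOverPrime ℓ) (m : ℕ) {a b : Qbar}
    (ha : a ^ (p ^ m) = 1) (hb : b ^ (p ^ m) = 1) (h : a - b ∈ A.nonunits) : a = b := by
  have hpos : 0 < p ^ m := pow_pos hp.pos _
  have hb0 : b ≠ 0 := by
    rintro rfl
    rw [zero_pow hpos.ne'] at hb
    exact zero_ne_one hb
  have hinv : b⁻¹ ∈ A := mem_of_pow_eq_one A hpos (by rw [inv_pow, hb, inv_one])
  have h2 : a * b⁻¹ = 1 := by
    apply cyc_eq_one_of_pow_pow_eq_one A hp hℓ hne hA m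
    · rw [mul_pow, ha, inv_pow, hb, inv_one, one_mul]
    · have h3 : a * b⁻¹ - 1 = (a - b) * b⁻¹ := by
        rw [sub_mul, mul_inv_cancel₀ hb0]
      rw [h3]
      exact mul_mem_nonunits_of_mem A h hinv
  exact (mul_inv_eq_one₀ hb0).1 h2

theorem cyc_frobenius_root (A : ValuationSubring Qbar) {ℓ p : ℕ} (hp : p.Prime)
    (hℓ : ℓ.Prime) (hne : ℓ ≠ p) (hA : A.LiesOverPrime ℓ) (σ : GQ) (hσ : A.IsFrobeniusAt σ ℓ)
    (m : ℕ) {ζ : Qbar} (hζ : ζ ^ (p ^ m) = 1) : σ ζ = ζ ^ ℓ := by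
  have hmem : ζ ∈ A := mem_of_pow_eq_one A (pow_pos hp.pos _) hζ
  apply cyc_eq_of_sub_mem_nonunits A hp hℓ hne hA m
  · rw [← map_pow, hζ, map_one]
  · rw [← pow_mul, mul_comm, pow_mul, hζ, one_pow]
  · exact (frobenius_spec A σ ℓ hσ).2 ζ hmem

theorem cyc_inertia_root (A : ValuationSubring Qbar) {ℓ p : ℕ} (hp : p.Prime)
    (hℓ : ℓ.Prime) (hne : ℓ ≠ p) (hA : A.LiesOverPrime ℓ) (σ : GQ)
    (hσ : σ ∈ A.inertiaSubgroupIn ℚ) (m : ℕ) {ζ : Qbar} (hζ : ζ ^ (p ^ m) = 1) : σ ζ = ζ := by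
  have hmem : ζ ∈ A := mem_of_pow_eq_one A (pow_pos hp.pos _) hζ
  apply cyc_eq_of_sub_mem_nonunits A hp hℓ hne hA m
  · rw [← map_pow, hζ, map_one]
  · exact hζ
  · exact (inertia_spec A σ hσ).2 ζ hmem

/-- complex conjugation inverts roots of unity. -/
theorem cyc_complexConjugation_root {ζ : Qbar} {n : ℕ} (hn : n ≠ 0) (hζ : ζ ^ n = 1) :
    complexConjugation ζ = ζ⁻¹ := by
  apply complexEmbedding.toRingHom.injective
  change complexEmbedding (complexConjugation ζ) = complexEmbedding ζ⁻¹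
  rw [complexEmbedding_complexConjugation, map_inv₀]
  have h1 : (complexEmbedding ζ) ^ n = 1 := by rw [← map_pow, hζ, map_one]
  have h2 : ‖complexEmbedding ζ‖ = 1 := Complex.norm_eq_one_of_pow_eq_one h1 hn
  exact (Complex.inv_eq_conj h2).symm

/-! ### The `ℤ_[p]`-valued character -/

variable (p : ℕ) [Fact p.Prime]

instance cyc_hasEnough (i : ℕ) : HasEnoughRootsOfUnity Qbar (p ^ i) := by
  have : NeZero ((p ^ i : ℕ) : Qbar) :=
    ⟨Nat.cast_ne_zero.mpr (pow_ne_zero _ (Fact.out : p.Prime).ne_zero)⟩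
  infer_instance

/-- the `p`-adic cyclotomic character of `G_ℚ`. -/
noncomputable def cycZp : GQ →* ℤ_[p]ˣ :=
  (cyclotomicCharacter Qbar p).comp (MulSemiringAction.toRingAut GQ Qbar)

theorem cycZp_spec (σ : GQ) (n : ℕ) {ζ : Qbar} (hζ : ζ ^ p ^ n = 1) :
    σ ζ = ζ ^ (((cycZp p σ : ℤ_[p]ˣ) : ℤ_[p]).toZModPow n).val :=
  cyclotomicCharacter.spec p (MulSemiringAction.toRingAut GQ Qbar σ) ζ hζ

theorem cyc_exists_primitiveRoot (n : ℕ) : ∃ ζ : Qbar, IsPrimitiveRoot ζ (p ^ n) :=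
  HasEnoughRootsOfUnity.exists_primitiveRoot Qbar (p ^ n)

/-- the value of the character modulo `p ^ n` is detected on one primitive root. -/
theorem cycZp_toZModPow_eq (σ : GQ) (n : ℕ) (c : ℤ) {ζ : Qbar} (hζ : IsPrimitiveRoot ζ (p ^ n))
    (h : σ ζ = ζ ^ c) : ((cycZp p σ : ℤ_[p]ˣ) : ℤ_[p]).toZModPow n = (c : ZMod (p ^ n)) := by
  have : NeZero (p ^ n) := ⟨pow_ne_zero _ (Fact.out : p.Prime).ne_zero⟩
  have h1 := cycZp_spec p σ n hζ.pow_eq_one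
  rw [h, ← zpow_natCast] at h1
  have hz : ζ ≠ 0 := hζ.ne_zero (pow_ne_zero _ (Fact.out : p.Prime).ne_zero)
  have h2 : ζ ^ (c - ((((cycZp p σ : ℤ_[p]ˣ) : ℤ_[p]).toZModPow n).val : ℤ)) = 1 := by
    rw [zpow_sub₀ hz, h1, div_self (zpow_ne_zero _ hz)]
  have h3 := (hζ.zpow_eq_one_iff_dvd _).mp h2
  have h4 := (ZMod.intCast_eq_intCast_iff_dvd_sub _ _ _).mpr h3
  rw [Int.cast_natCast, ZMod.natCast_val, ZMod.cast_id] at h4
  exact h4

theorem cycZp_eq_intCast (σ : GQ) (c : ℤ)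
    (h : ∀ (n : ℕ) (ζ : Qbar), ζ ^ p ^ n = 1 → σ ζ = ζ ^ c) :
    ((cycZp p σ : ℤ_[p]ˣ) : ℤ_[p]) = (c : ℤ_[p]) := by
  refine PadicInt.ext_of_toZModPow.mp fun n => ?_
  obtain ⟨ζ, hζ⟩ := cyc_exists_primitiveRoot p n
  rw [cycZp_toZModPow_eq p σ n c hζ (h n ζ hζ.pow_eq_one), map_intCast]

/-! ### The `O`-valued character -/

section O

open IsLocalRing

variable (O : Type*) [CommRing O] [IsLocalRing O] [IsAdicComplete (maximalIdeal O) O]
  (hpO : (p : O) ∈ maximalIdeal O)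

/-- the `p`-adic cyclotomic character with values in `O`. -/
noncomputable def cycO : GQ →* Oˣ :=
  (Units.map ((zpTo p (maximalIdeal O) hpO : ℤ_[p] →+* O) : ℤ_[p] →* O)).comp (cycZp p)

theorem cycO_coe (σ : GQ) :
    ((cycO p O hpO σ : Oˣ) : O) = zpTo p (maximalIdeal O) hpO ((cycZp p σ : ℤ_[p]ˣ) : ℤ_[p]) := rfl

theorem cycO_eq_intCast (σ : GQ) (c : ℤ)
    (h : ∀ (n : ℕ) (ζ : Qbar), ζ ^ p ^ n = 1 → σ ζ = ζ ^ c) :
    ((cycO p O hpO σ : Oˣ) : O) = (c : O) := by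
  rw [cycO_coe, cycZp_eq_intCast p σ c h, map_intCast]

theorem cycO_frobenius {ℓ : ℕ} (hℓ : ℓ.Prime) (hne : ℓ ≠ p) (A : ValuationSubring Qbar)
    (hA : A.LiesOverPrime ℓ) (σ : GQ) (hσ : A.IsFrobeniusAt σ ℓ) :
    ((cycO p O hpO σ : Oˣ) : O) = ℓ := by
  rw [cycO_eq_intCast p O hpO σ (ℓ : ℤ), Int.cast_natCast]
  intro n ζ hζ
  rw [zpow_natCast]
  exact cyc_frobenius_root A Fact.out hℓ hne hA σ hσ n hζ

theorem cycO_inertia {q : ℕ} (hq : q.Prime) (hne : q ≠ p) (A : ValuationSubring Qbar)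
    (hA : A.LiesOverPrime q) (σ : GQ) (hσ : σ ∈ A.inertiaSubgroupIn ℚ) :
    cycO p O hpO σ = 1 := by
  apply Units.ext
  rw [cycO_eq_intCast p O hpO σ 1, Int.cast_one, Units.val_one]
  intro n ζ hζ
  rw [zpow_one]
  exact cyc_inertia_root A Fact.out hq hne hA σ hσ n hζ

/-- if `σ ζ = ζ ^ c` for one primitive `p ^ m`-th root of unity then `ε σ ≡ c mod p ^ m`. -/
theorem cycO_sub_intCast_dvd (σ : GQ) (m : ℕ) (c : ℤ) {ζ : Qbar}
    (hζ : IsPrimitiveRoot ζ (p ^ m)) (h : σ ζ = ζ ^ c) :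
    (p : O) ^ m ∣ ((cycO p O hpO σ : Oˣ) : O) - (c : O) := by
  have h2 := cycZp_toZModPow_eq p σ m c hζ h
  have h3 : ((cycZp p σ : ℤ_[p]ˣ) : ℤ_[p]) - (c : ℤ_[p]) ∈
      RingHom.ker (PadicInt.toZModPow (p := p) m) := by
    rw [RingHom.mem_ker, map_sub, map_intCast, h2, sub_self]
  rw [PadicInt.ker_toZModPow, Ideal.mem_span_singleton] at h3
  obtain ⟨y, hy⟩ := h3
  refine ⟨zpTo p (maximalIdeal O) hpO y, ?_⟩
  rw [cycO_coe, ← map_intCast (zpTo p (maximalIdeal O) hpO) c, ← map_sub, hy, map_mul, map_pow,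
    map_natCast]

/-- finite level, in the strong form (divisibility by `p ^ m`). -/
theorem cycO_level (m : ℕ) : ∃ L : IntermediateField ℚ Qbar, FiniteDimensional ℚ L ∧
    ∀ σ : GQ, (∀ x ∈ L, σ x = x) → (p : O) ^ m ∣ ((cycO p O hpO σ : Oˣ) : O) - 1 := by
  obtain ⟨ζ, hζ⟩ := cyc_exists_primitiveRoot p m
  have hint : IsIntegral ℚ ζ :=
    (hζ.isIntegral (pow_pos (Fact.out : p.Prime).pos _)).tower_top
  refine ⟨IntermediateField.adjoin ℚ {ζ}, IntermediateField.adjoin.finiteDimensional hint, ?_⟩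
  intro σ hσ
  have h1 : σ ζ = ζ ^ (1 : ℤ) := by
    rw [zpow_one]
    exact hσ ζ (IntermediateField.mem_adjoin_simple_self ℚ ζ)
  have := cycO_sub_intCast_dvd p O hpO σ m 1 hζ h1
  rwa [Int.cast_one] at this

theorem cycO_complexConjugation : ((cycO p O hpO complexConjugation : Oˣ) : O) = -1 := by
  rw [cycO_eq_intCast p O hpO complexConjugation (-1), Int.cast_neg, Int.cast_one]
  intro n ζ hζ
  rw [zpow_neg_one]
  exact cyc_complexConjugation_root (pow_ne_zero _ (Fact.out : p.Prime).ne_zero) hζ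

end O

open IsLocalRing in
/-- **[Cyc]** -/
theorem exists_cyclo (O : Type) [CommRing O] [IsLocalRing O]
    [IsAdicComplete (maximalIdeal O) O] (hpO : (p : O) ∈ maximalIdeal O) :
    ∃ ε : GQ →* Oˣ,
      (∀ ℓ : ℕ, ℓ.Prime → ℓ ≠ p → ∀ A : ValuationSubring Qbar, A.LiesOverPrime ℓ →
        ∀ σ : GQ, A.IsFrobeniusAt σ ℓ → ((ε σ : Oˣ) : O) = ℓ) ∧
      (∀ q : ℕ, q.Prime → q ≠ p → ∀ A : ValuationSubring Qbar, A.LiesOverPrime q →
        ∀ σ ∈ A.inertiaSubgroupIn ℚ, ε σ = 1) ∧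
      (∀ m : ℕ, ∃ L : IntermediateField ℚ Qbar, FiniteDimensional ℚ L ∧
        ∀ σ : GQ, (∀ x ∈ L, σ x = x) → ((ε σ : Oˣ) : O) - 1 ∈ maximalIdeal O ^ m) ∧
      (∃ c : GQ, c * c = 1 ∧ ((ε c : Oˣ) : O) = -1) := by
  refine ⟨cycO p O hpO, fun ℓ hℓ hne A hA σ hσ => cycO_frobenius p O hpO hℓ hne A hA σ hσ,
    fun q hq hne A hA σ hσ => cycO_inertia p O hpO hq hne A hA σ hσ, fun m => ?_,
    complexConjugation, complexConjugation_mul_self, cycO_complexConjugation p O hpO⟩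
  obtain ⟨L, hL, h⟩ := cycO_level p O hpO m
  refine ⟨L, hL, fun σ hσ => ?_⟩
  obtain ⟨y, hy⟩ := h σ hσ
  rw [hy]
  exact Ideal.mul_mem_right _ _ (Ideal.pow_mem_pow hpO m)

end Fermat.Agent.GR.Adic
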