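import Mathlib

/-!
# Saturation lemma (Artin–Rees for `(p) ⊂ ℤ`)

`TT` a `ℤ`-submodule of `End_ℤ(L0)`, `L0` finite free: there is `c` such that every `D ∈ TT` with
`D L0 ⊆ p^(m+c) L0` lies in `p^m TT`.
-/

set_option autoImplicit false

namespace Fermat.Agent.GR.Adic

/-- Artin–Rees for a principal ideal, element form. -/
theorem exists_saturation_submodule {R M : Type*} [CommRing R] [IsNoetherianRing R]
    [AddCommGroup M] [Module R M] [Module.Finite R M] (T : Submodule R M) (a : R) :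
    ∃ c : ℕ, ∀ m : ℕ, ∀ D ∈ T, (∃ y : M, D = a ^ (m + c) • y) → ∃ D' ∈ T, D = a ^ m • D' := by
  obtain ⟨k, hk⟩ := Ideal.exists_pow_inf_eq_pow_smul (Ideal.span {a}) T
  refine ⟨k, fun m D hD ⟨y, hy⟩ => ?_⟩
  have h1 : D ∈ (Ideal.span {a}) ^ (m + k) • (⊤ : Submodule R M) ⊓ T := by
    refine ⟨?_, hD⟩
    rw [hy]
    exact Submodule.smul_mem_smul (Ideal.pow_mem_pow (Ideal.mem_span_singleton_self a) _)
      Submodule.mem_top
  rw [hk (m + k) (Nat.le_add_left k m), Nat.add_sub_cancel, Ideal.span_singleton_pow,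
    Submodule.ideal_span_singleton_smul] at h1
  obtain ⟨D', hD', rfl⟩ := (Submodule.mem_smul_pointwise_iff_exists _ _ _).mp h1
  exact ⟨D', hD'.2, rfl⟩

/-- An endomorphism of a finite free module whose values are all divisible by `a` is divisible
by `a`. -/
theorem exists_eq_smul_of_forall_apply {R L : Type*} [CommRing R] [AddCommGroup L] [Module R L]
    [Module.Free R L] (a : R) (D : Module.End R L) (h : ∀ x, ∃ y, D x = a • y) :
    ∃ D' : Module.End R L, D = a • D' := by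
  classical
  let b := Module.Free.chooseBasis R L
  choose f hf using h
  refine ⟨b.constr R fun i => f (b i), b.ext fun i => ?_⟩
  rw [LinearMap.smul_apply, Module.Basis.constr_basis, hf]

/-- **(SAT)** saturation index of a submodule of `End(L0)`. -/
theorem exists_saturation {L0 : Type*} [AddCommGroup L0] [Module.Free ℤ L0] [Module.Finite ℤ L0]
    (TT : Submodule ℤ (Module.End ℤ L0)) (p : ℕ) :
    ∃ c : ℕ, ∀ m : ℕ, ∀ D ∈ TT, (∀ x, ∃ y, D x = ((p : ℤ) ^ (m + c)) • y) →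
      ∃ D' ∈ TT, D = ((p : ℤ) ^ m) • D' := by
  obtain ⟨c, hc⟩ := exists_saturation_submodule TT (p : ℤ)
  exact ⟨c, fun m D hD h => hc m D hD (exists_eq_smul_of_forall_apply _ D h)⟩

/-- (SAT) for a subalgebra, with the conclusion inside the subalgebra. -/
theorem exists_saturation_subalgebra {L0 : Type*} [AddCommGroup L0] [Module.Free ℤ L0]
    [Module.Finite ℤ L0] (TT : Subalgebra ℤ (Module.End ℤ L0)) (p : ℕ) :
    ∃ c : ℕ, ∀ m : ℕ, ∀ D : TT, (∀ x, ∃ y, (D : Module.End ℤ L0) x = ((p : ℤ) ^ (m + c)) • y) →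
      ∃ D' : TT, D = ((p : ℤ) ^ m) • D' := by
  obtain ⟨c, hc⟩ := exists_saturation (Subalgebra.toSubmodule TT) p
  refine ⟨c, fun m D h => ?_⟩
  obtain ⟨D', hD', h'⟩ := hc m D D.2 h
  exact ⟨⟨D', hD'⟩, Subtype.ext h'⟩

end Fermat.Agent.GR.Adic
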