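import Mathlib
import Fermat.Prelude.Def_GaloisRep_Adic
import Fermat.Prelude.Def_CuspForm_HeckeGaloisRepDatum
import Fermat.Agent.S53.Burnside

/-!
# End-game algebra for S31 (trace rigidity)

* `span_range_eq_top_of_residual_absIrr` : the image of a residually absolutely irreducible
  `GaloisRepAdic T` spans `End_T V` (Burnside + Nakayama).
* `eq_one_of_trace_mul_eq` : if `tr ρ(g τ) = tr ρ(g)` for all `g` then `ρ τ = 1`.
* `isUnramifiedAt_of_trace` : the same in the shape of the conclusion of S31.
* `lucasSeq`, `pow_add_pow_eq_lucasSeq`, `trace_pow_eq_lucasSeq` : Dickson / Lucas recursion.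
-/

set_option autoImplicit false

namespace Fermat.Agent.GR.Adic

open scoped TensorProduct
open IsLocalRing Module

local notation "GQ'" => (AlgebraicClosure ℚ ≃ₐ[ℚ] AlgebraicClosure ℚ)

section Nakayama

variable {T : Type} [CommRing T] [IsLocalRing T]
variable {V : Type} [AddCommGroup V] [Module T V] [Module.Free T V] [Module.Finite T V]

/-- An endomorphism of a finite free module that dies in the residue field lies in `𝔪 • ⊤`. -/
theorem mem_maximalIdeal_smul_top_of_baseChange_eq_zero (f : Module.End T V)
    (hf : LinearMap.baseChange (ResidueField T) f = 0) :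
    f ∈ maximalIdeal T • (⊤ : Submodule T (Module.End T V)) := by
  classical
  let b := Module.Free.chooseBasis T V
  have hent : ∀ i j, LinearMap.toMatrix b b f i j ∈ maximalIdeal T := by
    intro i j
    have h := LinearMap.toMatrix_baseChange (A := ResidueField T) f b b
    rw [hf] at h
    have h2 := congrFun (congrFun h i) j
    simp only [map_zero, Matrix.zero_apply, Matrix.map_apply] at h2
    exact (residue_eq_zero_iff _).1 h2.symm
  have hsum : f = ∑ i, ∑ j, (LinearMap.toMatrix b b f i j) •
      (LinearMap.toMatrix b b).symm (Matrix.single i j (1 : T)) := by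
    apply (LinearMap.toMatrix b b).injective
    conv_lhs => rw [Matrix.matrix_eq_sum_single (LinearMap.toMatrix b b f)]
    simp only [map_sum, map_smul, LinearEquiv.apply_symm_apply]
    refine Finset.sum_congr rfl fun i _ => Finset.sum_congr rfl fun j _ => ?_
    rw [Matrix.smul_single, smul_eq_mul, mul_one]
  rw [hsum]
  exact Submodule.sum_mem _ fun i _ => Submodule.sum_mem _ fun j _ =>
    Submodule.smul_mem_smul (hent i j) Submodule.mem_top

end Nakayama

variable {T : Type} [CommRing T] [IsLocalRing T]

/-- Burnside + Nakayama: the image of a residually absolutely irreducible representation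
spans the whole endomorphism algebra. -/
theorem span_range_eq_top_of_residual_absIrr (ρ : GaloisRepAdic T)
    (h : ρ.residual.IsAbsolutelyIrreducible) :
    Submodule.span T (Set.range ρ.ρ) = (⊤ : Submodule T (Module.End T ρ.V)) := by
  classical
  have hB := Fermat.Agent.S53.span_range_eq_top ρ.residual h
  -- lifting elements of the residual span
  have hlift : ∀ z ∈ Submodule.span (ResidueField T) (Set.range ρ.residual.ρ),
      ∃ y ∈ Submodule.span T (Set.range ρ.ρ),
        LinearMap.baseChange (ResidueField T) y = z := by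
    intro z hz
    induction hz using Submodule.span_induction with
    | mem z hz =>
      obtain ⟨g, rfl⟩ := hz
      exact ⟨ρ.ρ g, Submodule.subset_span ⟨g, rfl⟩, rfl⟩
    | zero => exact ⟨0, Submodule.zero_mem _, LinearMap.baseChange_zero⟩
    | add z w _ _ hz hw =>
      obtain ⟨y, hy, rfl⟩ := hz
      obtain ⟨y', hy', rfl⟩ := hw
      exact ⟨y + y', Submodule.add_mem _ hy hy', LinearMap.baseChange_add _ _⟩
    | smul a z _ hz =>
      obtain ⟨y, hy, rfl⟩ := hz
      obtain ⟨t, rfl⟩ := residue_surjective a
      refine ⟨t • y, Submodule.smul_mem _ t hy, ?_⟩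
      rw [LinearMap.baseChange_smul]
      exact (algebraMap_smul (ResidueField T) t _).symm
  rw [eq_top_iff]
  apply Submodule.le_of_le_smul_of_le_jacobson_bot Module.Finite.fg_top
    (maximalIdeal_le_jacobson _)
  intro x _
  obtain ⟨y, hy, hxy⟩ := hlift (LinearMap.baseChange (ResidueField T) x)
    (by rw [hB]; trivial)
  have hx : x = y + (x - y) := by abel
  rw [hx]
  refine Submodule.add_mem_sup hy (mem_maximalIdeal_smul_top_of_baseChange_eq_zero _ ?_)
  rw [LinearMap.baseChange_sub, hxy]
  exact LinearMap.ext fun v => by rw [LinearMap.sub_apply, sub_self]; rfl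

/-- The trace form on `End_T V` (`V` finite free) is nondegenerate. -/
theorem eq_zero_of_forall_trace_mul_eq_zero {R V : Type*} [CommRing R] [AddCommGroup V]
    [Module R V] [Module.Free R V] [Module.Finite R V] (δ : Module.End R V)
    (h : ∀ x : Module.End R V, LinearMap.trace R V (x * δ) = 0) : δ = 0 := by
  classical
  let b := Module.Free.chooseBasis R V
  apply (LinearMap.toMatrix b b).injective
  rw [map_zero]
  refine Matrix.ext_iff_trace_mul_left.2 fun x => ?_
  have := h ((LinearMap.toMatrix b b).symm x)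
  rw [LinearMap.trace_eq_matrix_trace R b, LinearMap.toMatrix_mul,
    LinearEquiv.apply_symm_apply] at this
  rw [this, Matrix.mul_zero, Matrix.trace_zero]

/-- **Trace rigidity.** If `ρ` is residually absolutely irreducible and
`tr ρ(g τ) = tr ρ(g)` for all `g`, then `ρ τ = 1`. -/
theorem eq_one_of_trace_mul_eq (ρ : GaloisRepAdic T)
    (h : ρ.residual.IsAbsolutelyIrreducible) (τ : GQ')
    (htr : ∀ g : GQ', LinearMap.trace T ρ.V (ρ.ρ (g * τ)) = LinearMap.trace T ρ.V (ρ.ρ g)) :
    ρ.ρ τ = 1 := by
  rw [← sub_eq_zero]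
  apply eq_zero_of_forall_trace_mul_eq_zero
  intro x
  have hx : x ∈ Submodule.span T (Set.range ρ.ρ) := by
    rw [span_range_eq_top_of_residual_absIrr ρ h]; trivial
  induction hx using Submodule.span_induction with
  | mem x hx =>
    obtain ⟨g, rfl⟩ := hx
    rw [mul_sub, mul_one, map_sub, ← map_mul, htr, sub_self]
  | zero => rw [zero_mul, map_zero]
  | add x y _ _ hx hy => rw [add_mul, map_add, hx, hy, add_zero]
  | smul a x _ hx => rw [smul_mul_assoc, map_smul, hx, smul_zero]

/-- Trace rigidity in the shape of the conclusion of S31. -/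
theorem isUnramifiedAt_of_trace (ρ : GaloisRepAdic T)
    (h : ρ.residual.IsAbsolutelyIrreducible) (q : ℕ)
    (htr : ∀ P : ValuationSubring (AlgebraicClosure ℚ), P.LiesOverPrime q →
      ∀ τ ∈ P.inertiaSubgroupIn ℚ, ∀ g : GQ',
        LinearMap.trace T ρ.V (ρ.ρ (g * τ)) = LinearMap.trace T ρ.V (ρ.ρ g)) :
    ρ.IsUnramifiedAt q :=
  fun P hP τ hτ => eq_one_of_trace_mul_eq ρ h τ (htr P hP τ hτ)

/-! ### Lucas / Dickson sequences -/

/-- The Lucas (Dickson) sequence `D₀ = 2`, `D₁ = t`, `D_{n+2} = t D_{n+1} - d D_n`. -/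
def lucasSeq {A : Type*} [Ring A] (t d : A) : ℕ → A
  | 0 => 2
  | 1 => t
  | (n + 2) => t * lucasSeq t d (n + 1) - d * lucasSeq t d n

@[simp] theorem lucasSeq_zero {A : Type*} [Ring A] (t d : A) : lucasSeq t d 0 = 2 := rfl
@[simp] theorem lucasSeq_one {A : Type*} [Ring A] (t d : A) : lucasSeq t d 1 = t := rfl
theorem lucasSeq_add_two {A : Type*} [Ring A] (t d : A) (n : ℕ) :
    lucasSeq t d (n + 2) = t * lucasSeq t d (n + 1) - d * lucasSeq t d n := rfl

theorem map_lucasSeq {A B : Type*} [Ring A] [Ring B] (φ : A →+* B) (t d : A) (n : ℕ) :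
    φ (lucasSeq t d n) = lucasSeq (φ t) (φ d) n := by
  induction n using Nat.strong_induction_on with
  | _ n ih =>
    match n with
    | 0 => exact map_ofNat φ 2
    | 1 => simp
    | (m + 2) =>
      rw [lucasSeq_add_two, lucasSeq_add_two, map_sub, map_mul, map_mul, ih (m + 1) (by omega),
        ih m (by omega)]

/-- `xⁿ + yⁿ = Dₙ(x + y, x y)` for commuting `x`, `y`. -/
theorem pow_add_pow_eq_lucasSeq {A : Type*} [Ring A] {x y : A} (hxy : Commute x y) (n : ℕ) :
    x ^ n + y ^ n = lucasSeq (x + y) (x * y) n := by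
  induction n using Nat.strong_induction_on with
  | _ n ih =>
    match n with
    | 0 => simp [one_add_one_eq_two]
    | 1 => simp
    | (m + 2) =>
      rw [lucasSeq_add_two, ← ih (m + 1) (by omega), ← ih m (by omega)]
      have h1 : y * x ^ (m + 1) = x * y * x ^ m := by
        rw [pow_succ', ← mul_assoc, hxy.eq]
      have h2 : x * y ^ (m + 1) = x * y * y ^ m := by
        rw [pow_succ', ← mul_assoc]
      rw [add_mul, mul_add, mul_add, mul_add, h1, h2, pow_succ' x (m + 1), pow_succ' y (m + 1)]
      abel

/-- The version used on the geometric side: `σ` invertible with inverse `σ'`, `d` central,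
`σ + d σ' = t`; then `σʲ + dʲ σ'ʲ = Dⱼ(t, d)`. -/
theorem pow_add_smul_pow_eq_lucasSeq {R A : Type*} [CommRing R] [Ring A] [Algebra R A]
    {σ σ' : A} (h1 : σ * σ' = 1) (h2 : σ' * σ = 1) (t d : R)
    (ht : σ + d • σ' = algebraMap R A t) (j : ℕ) :
    σ ^ j + d ^ j • σ' ^ j = algebraMap R A (lucasSeq t d j) := by
  have hc : Commute σ (d • σ') := by
    rw [Commute, SemiconjBy, mul_smul_comm, smul_mul_assoc, h1, h2]
  have := pow_add_pow_eq_lucasSeq hc j
  rw [smul_pow, ht, mul_smul_comm, h1, ← Algebra.algebraMap_eq_smul_one] at this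
  rw [this, map_lucasSeq]

/-- If `M² - a M + d = 0` then `M^{n+2} = a M^{n+1} - d M^n`. -/
theorem pow_add_two_eq_of_quadratic {R A : Type*} [CommRing R] [Ring A] [Algebra R A]
    {M : A} {a d : R} (h : M * M - a • M + d • 1 = 0) (n : ℕ) :
    M ^ (n + 2) = a • M ^ (n + 1) - d • M ^ n := by
  have h' : M * M = a • M - d • 1 := by
    have := sub_eq_zero.1 (show M * M - (a • M - d • 1) = 0 by rw [← h]; abel)
    exact this
  rw [pow_add, pow_two, h', mul_sub, mul_smul_comm, mul_smul_comm, mul_one, ← pow_succ]

/-- `tr(Mⁿ) = Dₙ(a, d)` for an endomorphism of a free module of rank two with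
characteristic polynomial `X² - a X + d`. -/
theorem trace_pow_eq_lucasSeq {R V : Type*} [CommRing R] [AddCommGroup V]
    [Module R V] [Module.Free R V] [Module.Finite R V] (h2 : Module.finrank R V = 2)
    (M : Module.End R V) (a d : R)
    (hM : LinearMap.charpoly M = Polynomial.X ^ 2 - Polynomial.C a * Polynomial.X
      + Polynomial.C d) (n : ℕ) :
    LinearMap.trace R V (M ^ n) = lucasSeq a d n := by
  classical
  have hq : M * M - a • M + d • 1 = 0 := by
    have := LinearMap.aeval_self_charpoly M
    rw [hM] at this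
    simp only [map_add, map_sub, map_mul, Polynomial.aeval_X, Polynomial.aeval_C,
      Algebra.algebraMap_eq_smul_one, smul_mul_assoc, one_mul, pow_two] at this
    exact this
  have htr : LinearMap.trace R V M = a := by
    rcases subsingleton_or_nontrivial R with hR | hR
    · exact Subsingleton.elim _ _
    let b := Module.finBasisOfFinrankEq R V h2
    rw [LinearMap.trace_eq_matrix_trace R b, Matrix.trace_eq_neg_charpoly_coeff,
      LinearMap.charpoly_toMatrix, hM]
    simp [Polynomial.coeff_C]
  induction n using Nat.strong_induction_on with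
  | _ n ih =>
    match n with
    | 0 =>
      rw [pow_zero, LinearMap.trace_one, h2]; simp
    | 1 => rw [pow_one, htr]; rfl
    | (m + 2) =>
      rw [pow_add_two_eq_of_quadratic hq, map_sub, map_smul, map_smul, ih (m + 1) (by omega),
        ih m (by omega), lucasSeq_add_two, smul_eq_mul, smul_eq_mul]

end Fermat.Agent.GR.Adic
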