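/-
GR/Adic : the p-adic layer (S30, S31).  `Core M p` = the ONLY export which the p-adic layer needs
from the geometric / analytic blocks of project GAL (level `M`, all exponents `p ^ m` at once).

NO finiteness of `W[p]`, NO divisibility of `W`, NO surjectivity of `κ`, NO Weil pairing.
-/
import Mathlib
import Fermat.Prelude.Def_CuspForm_HeckeGaloisRepDatum
import Fermat.Agent.GR.Adic.Defs

set_option autoImplicit false

namespace Fermat.Agent.GR.Adic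

/-- the primes dividing `M` -/
def badSet (M : ℕ) : Set ℕ := {q | q.Prime ∧ q ∣ M}

theorem not_mem_badSet {M ℓ : ℕ} (h : ¬ ℓ ∣ M) : ℓ ∉ badSet M := fun h' => h h'.2

/-- **The geometric core** at level `M` for the prime `p`.
* `W` = all everywhere unramified Kummer classes of `p`-power exponent of the function field of
  `X₀(M)` over `ℚ̄` (`= J₀(M)[p^∞]`), with the Galois action on coefficients and the multiplicative
  Hecke operators `T ℓ` (junk for `ℓ ∣ M` or `ℓ` not prime);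
* `L0 = Hom_par(Γ₀(M), ℤ)` with the cohomological Hecke operators `T0 ℓ`;
* `κ m x` = the class of a function with multiplier system `e(x(γ) / p ^ m)`. -/
structure Core (M p : ℕ) [NeZero M] : Type 1 where
  W : Type
  [instW : AddCommGroup W]
  tors : ∀ x : W, ∃ m : ℕ, (p ^ m) • x = 0
  act : GQ →* Module.End ℤ W
  smooth : ∀ x : W, ∃ L : IntermediateField ℚ (AlgebraicClosure ℚ), FiniteDimensional ℚ L ∧
    ∀ σ : GQ, FixesLevel L σ → act σ x = x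
  T : ℕ → Module.End ℤ W
  T_act : ∀ ℓ : ℕ, ℓ.Prime → ¬ ℓ ∣ M → ∀ σ : GQ, Commute (T ℓ) (act σ)
  inertia : ∀ ℓ : ℕ, ℓ.Prime → ¬ ℓ ∣ M * p → ∀ A : ValuationSubring (AlgebraicClosure ℚ),
    A.LiesOverPrime ℓ → ∀ σ ∈ A.inertiaSubgroupIn ℚ, act σ = 1
  frob : ∀ ℓ : ℕ, ℓ.Prime → ¬ ℓ ∣ M * p → ∀ A : ValuationSubring (AlgebraicClosure ℚ),
    A.LiesOverPrime ℓ → ∀ σ : GQ, A.IsFrobeniusAt σ ℓ →
      act σ * act σ - T ℓ * act σ + (ℓ : Module.End ℤ W) = 0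
  L0 : Type
  [instL0 : AddCommGroup L0]
  [instL0free : Module.Free ℤ L0]
  [instL0fin : Module.Finite ℤ L0]
  T0 : ℕ → Module.End ℤ L0
  κ : ℕ → L0 →ₗ[ℤ] W
  κ_ker : ∀ (m : ℕ) (x : L0), κ m x = 0 ↔ ∃ y : L0, x = (p ^ m) • y
  κ_succ : ∀ (m : ℕ) (x : L0), p • κ (m + 1) x = κ m x
  κ_T : ∀ ℓ : ℕ, ℓ.Prime → ¬ ℓ ∣ M → ∀ (m : ℕ) (x : L0), κ m (T0 ℓ x) = T ℓ (κ m x)
  ι : CuspForm.heckeAlgebra M 2 (badSet M) →+* Module.End ℤ L0
  ι_inj : Function.Injective ι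
  ι_T : ∀ (ℓ : ℕ) (hℓ : ℓ.Prime) (hℓM : ¬ ℓ ∣ M),
    ι (CuspForm.heckeAlgebra.T hℓ hℓM (not_mem_badSet hℓM)) = T0 ℓ

attribute [instance] Core.instW Core.instL0 Core.instL0free Core.instL0fin

/-- **Level restriction** (package [LR]): for `N ∣ M` the Hecke algebra of level `M` away from `S'`
maps onto the one of level `N` (`S₂(Γ₀(N)) ⊆ S₂(Γ₀(M))` is stable under the `T_ℓ`, `ℓ ∤ M`). -/
def LevelRes (N M : ℕ) [NeZero N] [NeZero M] : Prop :=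
  ∀ S S' : Set ℕ, S ⊆ S' → badSet M ⊆ S' →
    ∃ r : CuspForm.heckeAlgebra M 2 S' →+* CuspForm.heckeAlgebra N 2 S,
      ∀ (ℓ : ℕ) (hℓ : ℓ.Prime) (hℓM : ¬ ℓ ∣ M) (hℓS' : ℓ ∉ S') (hℓN : ¬ ℓ ∣ N) (hℓS : ℓ ∉ S),
        r (CuspForm.heckeAlgebra.T hℓ hℓM hℓS') = CuspForm.heckeAlgebra.T hℓ hℓN hℓS

end Fermat.Agent.GR.Adic
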