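/-
GR/Adic/LevelRes : package [LR].  For `N ∣ M` the Hecke algebra of level `M` away from `S'`
(`S' ⊇` the primes dividing `M`) maps to the one of level `N` away from `S ⊆ S'`, `T_ℓ ↦ T_ℓ`.
-/
import Mathlib
import Fermat.Agent.GR.Adic.Core

set_option autoImplicit false

open IsLocalRing Polynomial TensorProduct

namespace Fermat.Agent.GR.Adic

open CongruenceSubgroup Matrix.SpecialLinearGroup

theorem lr_Gamma0_le {N M : ℕ} (hNM : N ∣ M) : Gamma0 M ≤ Gamma0 N := by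
  intro A hA
  rw [Gamma0_mem] at hA ⊢
  rw [ZMod.intCast_zmod_eq_zero_iff_dvd] at hA ⊢
  exact (Int.natCast_dvd_natCast.mpr hNM).trans hA

theorem lr_Gamma0_map_le {N M : ℕ} (hNM : N ∣ M) :
    ((Gamma0 M : Subgroup (Matrix.SpecialLinearGroup (Fin 2) ℤ)) :
        Subgroup (Matrix.GeneralLinearGroup (Fin 2) ℝ)) ≤
      ((Gamma0 N : Subgroup (Matrix.SpecialLinearGroup (Fin 2) ℤ)) :
        Subgroup (Matrix.GeneralLinearGroup (Fin 2) ℝ)) :=
  Subgroup.map_mono (lr_Gamma0_le hNM)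

/-- the inclusion `S_k(Γ₀(N)) ⊆ S_k(Γ₀(M))` for `N ∣ M`. -/
noncomputable def lrIncl {N M : ℕ} (hNM : N ∣ M) (k : ℤ) :
    CuspForm (Gamma0 N) k →ₗ[ℂ] CuspForm (Gamma0 M) k where
  toFun f :=
    { toFun := ⇑f
      slash_action_eq' := fun γ hγ =>
        SlashInvariantFormClass.slash_action_eq f γ (lr_Gamma0_map_le hNM hγ)
      holo' := CuspFormClass.holo f
      zero_at_cusps' := fun hc => CuspFormClass.zero_at_cusps f (hc.mono (lr_Gamma0_map_le hNM)) }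
  map_add' _ _ := DFunLike.coe_injective rfl
  map_smul' _ _ := DFunLike.coe_injective rfl

@[simp] theorem coe_lrIncl {N M : ℕ} (hNM : N ∣ M) (k : ℤ) (f : CuspForm (Gamma0 N) k) :
    ⇑(lrIncl hNM k f) = ⇑f := rfl

theorem lrIncl_injective {N M : ℕ} (hNM : N ∣ M) (k : ℤ) :
    Function.Injective (lrIncl hNM k) := fun f g h =>
  DFunLike.coe_injective (by rw [← coe_lrIncl hNM k f, h, coe_lrIncl])

theorem lrIncl_heckeTLin {N M : ℕ} (hNM : N ∣ M) (k : ℤ) {ℓ : ℕ} (hℓ : ℓ.Prime)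
    (hℓM : ¬ ℓ ∣ M) (hℓN : ¬ ℓ ∣ N) :
    CuspForm.heckeTLin k hℓ hℓM ∘ₗ lrIncl hNM k = lrIncl hNM k ∘ₗ CuspForm.heckeTLin k hℓ hℓN :=
  LinearMap.ext fun _ => DFunLike.coe_injective rfl

theorem lrIncl_comp_cancel {N M : ℕ} (hNM : N ∣ M) (k : ℤ)
    {t₁ t₂ : Module.End ℂ (CuspForm (Gamma0 N) k)}
    (h : lrIncl hNM k ∘ₗ t₁ = lrIncl hNM k ∘ₗ t₂) : t₁ = t₂ :=
  LinearMap.ext fun f => lrIncl_injective hNM k (LinearMap.congr_fun h f)

/-- the endomorphisms of level `M` which stabilise the forms of level `N` and act there through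
the Hecke algebra of level `N`. -/
noncomputable def lrSub {N M : ℕ} [NeZero N] (hNM : N ∣ M) (k : ℤ) (S : Set ℕ) :
    Subalgebra ℤ (Module.End ℂ (CuspForm (Gamma0 M) k)) where
  carrier := {t | ∃ t' ∈ CuspForm.heckeAlgebra N k S, t ∘ₗ lrIncl hNM k = lrIncl hNM k ∘ₗ t'}
  mul_mem' := by
    rintro a b ⟨a', ha', ha⟩ ⟨b', hb', hb⟩
    refine ⟨a' * b', mul_mem ha' hb', ?_⟩
    rw [Module.End.mul_eq_comp, Module.End.mul_eq_comp, LinearMap.comp_assoc, hb,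
      ← LinearMap.comp_assoc, ha, LinearMap.comp_assoc]
  add_mem' := by
    rintro a b ⟨a', ha', ha⟩ ⟨b', hb', hb⟩
    refine ⟨a' + b', add_mem ha' hb', ?_⟩
    rw [LinearMap.add_comp, LinearMap.comp_add, ha, hb]
  algebraMap_mem' := by
    intro n
    refine ⟨algebraMap ℤ _ n, Subalgebra.algebraMap_mem _ n, ?_⟩
    ext f
    simp

theorem heckeAlgebra_le_lrSub {N M : ℕ} [NeZero N] [NeZero M] (hNM : N ∣ M) (k : ℤ)
    {S S' : Set ℕ} (hS : S ⊆ S') (hM : badSet M ⊆ S') :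
    CuspForm.heckeAlgebra M k S' ≤ lrSub hNM k S := by
  refine Algebra.adjoin_le ?_
  rintro t (⟨ℓ, hℓ, hℓM, hℓS', rfl⟩ | ⟨q, hqM, hq, hqS', rfl⟩)
  · have hℓN : ¬ ℓ ∣ N := fun h => hℓM (h.trans hNM)
    exact ⟨CuspForm.heckeTLin k hℓ hℓN,
      CuspForm.heckeTLin_mem_heckeAlgebra hℓ hℓN (fun h => hℓS' (hS h)),
      lrIncl_heckeTLin hNM k hℓ hℓM hℓN⟩
  · exact absurd (hM ⟨hq, hqM⟩) hqS'

theorem levelRes (N M : ℕ) [NeZero N] [NeZero M] (hNM : N ∣ M) : LevelRes N M := by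
  intro S S' hS hM
  have key : ∀ t : CuspForm.heckeAlgebra M 2 S', ∃ t' : CuspForm.heckeAlgebra N 2 S,
      (t : Module.End ℂ (CuspForm (Gamma0 M) 2)) ∘ₗ lrIncl hNM 2 =
        lrIncl hNM 2 ∘ₗ (t' : Module.End ℂ (CuspForm (Gamma0 N) 2)) := by
    intro t
    obtain ⟨t', ht', h⟩ := heckeAlgebra_le_lrSub hNM 2 hS hM t.2
    exact ⟨⟨t', ht'⟩, h⟩
  choose r hr using key
  have uniq : ∀ (t : CuspForm.heckeAlgebra M 2 S') (t' : CuspForm.heckeAlgebra N 2 S),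
      (t : Module.End ℂ (CuspForm (Gamma0 M) 2)) ∘ₗ lrIncl hNM 2 =
        lrIncl hNM 2 ∘ₗ (t' : Module.End ℂ (CuspForm (Gamma0 N) 2)) → r t = t' := by
    intro t t' h
    exact Subtype.ext (lrIncl_comp_cancel hNM 2 ((hr t).symm.trans h))
  refine ⟨{ toFun := r, map_one' := ?_, map_mul' := ?_, map_zero' := ?_, map_add' := ?_ }, ?_⟩
  · exact uniq _ _ rfl
  · intro a b
    refine uniq _ _ ?_
    rw [Subalgebra.coe_mul, Subalgebra.coe_mul, Module.End.mul_eq_comp, Module.End.mul_eq_comp,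
      LinearMap.comp_assoc, hr b, ← LinearMap.comp_assoc, hr a, LinearMap.comp_assoc]
  · refine uniq _ _ ?_
    rw [Subalgebra.coe_zero, Subalgebra.coe_zero, LinearMap.zero_comp, LinearMap.comp_zero]
  · intro a b
    refine uniq _ _ ?_
    rw [Subalgebra.coe_add, Subalgebra.coe_add, LinearMap.add_comp, LinearMap.comp_add, hr a, hr b]
  · intro ℓ hℓ hℓM hℓS' hℓN hℓS
    exact uniq _ _ (lrIncl_heckeTLin hNM 2 hℓ hℓM hℓN)

end Fermat.Agent.GR.Adic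

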