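import Mathlib

/-!
# GR / Adic : the complex conjugation trick  (package [CT])

A representation `ρ` (possibly infinite dimensional) such that every `ρ g` satisfies
`X² - t(g) X + ε(g) = 0`, together with an involution `c` with `ε(c) = -1`, contains a stable line
or a stable plane on which `ρ g` has trace `t g` and determinant `ε g`.
-/

set_option autoImplicit false

open IsLocalRing Polynomial TensorProduct

namespace Fermat.Agent.GR.Adic

section

variable {E G W : Type*} [Field E] [Group G] [AddCommGroup W] [Module E W]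

/-- `x = -x` forces `x = 0` when `2 ≠ 0`. -/
theorem ctrick_eq_zero (h2 : (2 : E) ≠ 0) {T : Module.End E W} {x : W} (hp : T x = x)
    (hm : T x = -x) : x = 0 := by
  have h : (2 : E) • x = 0 := by
    rw [two_smul]
    nth_rewrite 1 [← hp]
    rw [hm]
    simp
  exact (smul_eq_zero.mp h).resolve_left h2

/-- the key identity `c g + g c = t(g) c + t(cg)`. -/
theorem ctrick_key (ρ : G →* Module.End E W) (ε : G →* Eˣ) (t : G → E)
    (hrel : ∀ g, ρ g * ρ g - t g • ρ g + (ε g : E) • 1 = 0) (c : G) (hc : c * c = 1)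
    (hεc : (ε c : E) = -1) (g : G) (u : W) :
    ρ c (ρ g u) + ρ g (ρ c u) = t g • ρ c u + t (c * g) • u := by
  have hCC : ∀ x, ρ c (ρ c x) = x := by
    intro x
    have : (ρ c * ρ c) x = x := by rw [← map_mul, hc, map_one]; rfl
    exact this
  have hXY : ∀ x, ρ g (ρ g⁻¹ x) = x := by
    intro x
    have : (ρ g * ρ g⁻¹) x = x := by rw [← map_mul, mul_inv_cancel, map_one]; rfl
    exact this
  -- the identity `X u + C X C u = t g u + t (cg) C u`
  have h3 : ∀ u : W, ρ g u + ρ c (ρ g (ρ c u)) = t g • u + t (c * g) • ρ c u := by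
    intro u
    have e1 := DFunLike.congr_fun (hrel g) (ρ g⁻¹ u)
    have e2 := DFunLike.congr_fun (hrel (c * g)) (ρ g⁻¹ u)
    have hε : ((ε (c * g) : Eˣ) : E) = -(ε g : E) := by
      rw [map_mul, Units.val_mul, hεc]; ring
    simp only [LinearMap.add_apply, LinearMap.sub_apply, Module.End.mul_apply,
      LinearMap.smul_apply, Module.End.one_apply, LinearMap.zero_apply, map_mul, hXY] at e1 e2
    rw [← map_mul, hε] at e2
    have e3 : (ρ g u - t g • u + (ε g : E) • ρ g⁻¹ u) +
        (ρ c (ρ g (ρ c u)) - t (c * g) • ρ c u + -(ε g : E) • ρ g⁻¹ u) = 0 := by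
      rw [e1, e2, add_zero]
    have e4 : ρ g u + ρ c (ρ g (ρ c u)) - (t g • u + t (c * g) • ρ c u) = 0 := by
      rw [← e3, neg_smul]
      abel
    exact sub_eq_zero.mp e4
  have h4 := congrArg (ρ c) (h3 u)
  rw [map_add, map_add, hCC, map_smul, map_smul, hCC] at h4
  exact h4

end

theorem ctrick {E G W : Type*} [Field E] (h2 : (2:E) ≠ 0) [Group G] [AddCommGroup W] [Module E W]
    [Nontrivial W] (ρ : G →* Module.End E W) (ε : G →* Eˣ) (t : G → E)
    (hrel : ∀ g, ρ g * ρ g - t g • ρ g + (ε g : E) • 1 = 0) (c : G) (hc : c * c = 1)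
    (hεc : (ε c : E) = -1) :
    (∃ (v w : W) (a b c' d : G → E), LinearIndependent E ![v, w] ∧
      ρ c v = v ∧ ρ c w = - w ∧ (∃ g, b g ≠ 0) ∧ (∃ g, c' g ≠ 0) ∧
      ∀ g, ρ g v = a g • v + c' g • w ∧ ρ g w = b g • v + d g • w ∧ a g + d g = t g ∧
        a g * d g - b g * c' g = (ε g : E)) ∨
    (∃ v : W, v ≠ 0 ∧ ∀ g, ∃ a : E, ρ g v = a • v) := by
  classical
  have hkey := ctrick_key ρ ε t hrel c hc hεc
  have hCC : ∀ x, ρ c (ρ c x) = x := by
    intro x
    have : (ρ c * ρ c) x = x := by rw [← map_mul, hc, map_one]; rfl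
    exact this
  have hmul : ∀ g h x, ρ (g * h) x = ρ g (ρ h x) := by
    intro g h x
    rw [map_mul]; rfl
  set a : G → E := fun g => (t g + t (c * g)) / 2 with ha
  set d : G → E := fun g => (t g - t (c * g)) / 2 with hd
  have h2a : ∀ g, t g + t (c * g) = 2 * a g := by
    intro g; simp only [ha]; field_simp
  have h2d : ∀ g, t g - t (c * g) = 2 * d g := by
    intro g; simp only [hd]; field_simp
  -- (F1)
  have F1 : ∀ g v, ρ c v = v → ρ c (ρ g v - a g • v) = -(ρ g v - a g • v) := by
    intro g v hv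
    have h := hkey g v
    rw [hv, ← add_smul, h2a, mul_smul, two_smul] at h
    rw [map_sub, map_smul, hv, eq_sub_of_add_eq h]
    abel
  -- (F2)
  have F2 : ∀ g w, ρ c w = -w → ρ c (ρ g w - d g • w) = ρ g w - d g • w := by
    intro g w hw
    have h := hkey g w
    have h' : t g • -w + t (c * g) • w = -((2 * d g) • w) := by
      rw [← h2d, sub_smul, smul_neg]; abel
    rw [hw, map_neg, h', mul_smul, two_smul] at h
    rw [map_sub, map_smul, hw, eq_sub_of_add_eq h]
    simp only [smul_neg]
    abel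
  -- Claim 1
  have C1 : ∀ g h v, ρ c v = v →
      ρ g (ρ h v - a h • v) - d g • (ρ h v - a h • v) = (a (g * h) - a g * a h) • v := by
    intro g h v hv
    rw [← sub_eq_zero]
    apply ctrick_eq_zero h2 (T := ρ c)
    · rw [map_sub, F2 g _ (F1 h v hv), map_smul, hv]
    · have e : ρ g (ρ h v - a h • v) - d g • (ρ h v - a h • v) - (a (g * h) - a g * a h) • v
          = (ρ (g * h) v - a (g * h) • v) - a h • (ρ g v - a g • v)
            - d g • (ρ h v - a h • v) := by
        rw [hmul, map_sub, map_smul, sub_smul, smul_sub, smul_sub, smul_smul, smul_smul,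
          mul_comm (a g) (a h)]
        abel
      rw [e, map_sub, map_sub, map_smul, map_smul, F1 _ v hv, F1 g v hv, F1 h v hv]
      simp only [smul_neg]
      abel
  -- Claim 2
  have C2 : ∀ g h w, ρ c w = -w →
      ρ g (ρ h w - d h • w) - a g • (ρ h w - d h • w) = (d (g * h) - d g * d h) • w := by
    intro g h w hw
    rw [← sub_eq_zero]
    apply ctrick_eq_zero h2 (T := ρ c)
    · have e : ρ g (ρ h w - d h • w) - a g • (ρ h w - d h • w) - (d (g * h) - d g * d h) • w
          = (ρ (g * h) w - d (g * h) • w) - d h • (ρ g w - d g • w)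
            - a g • (ρ h w - d h • w) := by
        rw [hmul, map_sub, map_smul, sub_smul, smul_sub, smul_sub, smul_smul, smul_smul,
          mul_comm (d g) (d h)]
        abel
      rw [e, map_sub, map_sub, map_smul, map_smul, F2 _ w hw, F2 g w hw, F2 h w hw]
    · rw [map_sub, F1 g _ (F2 h w hw), map_smul, hw]
      simp only [smul_neg]
      abel
  by_cases hplus : ∃ v : W, v ≠ 0 ∧ ρ c v = v
  · obtain ⟨v, hv0, hv⟩ := hplus
    by_cases hC : ∀ g, ρ g v - a g • v = 0
    · exact Or.inr ⟨v, hv0, fun g => ⟨a g, sub_eq_zero.mp (hC g)⟩⟩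
    push Not at hC
    obtain ⟨g₁, hg₁⟩ := hC
    set w : W := ρ g₁ v - a g₁ • v with hwdef
    have hw : ρ c w = -w := F1 g₁ v hv
    by_cases hB : ∀ h, ρ h w - d h • w = 0
    · exact Or.inr ⟨w, hg₁, fun h => ⟨d h, sub_eq_zero.mp (hB h)⟩⟩
    push Not at hB
    obtain ⟨h₁, hh₁⟩ := hB
    set x : E := a (h₁ * g₁) - a h₁ * a g₁ with hx
    have hBw : ∀ g, ρ g w - d g • w = (a (g * g₁) - a g * a g₁) • v := fun g => C1 g g₁ v hv
    have hx0 : x ≠ 0 := by
      intro h0
      apply hh₁
      rw [hBw h₁, ← hx, h0, zero_smul]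
    have hCv : ∀ g, ρ g v - a g • v = (x⁻¹ * (d (g * h₁) - d g * d h₁)) • w := by
      intro g
      have h1 := C2 g h₁ w hw
      rw [hBw h₁, ← hx, map_smul, smul_comm (a g) x v, ← smul_sub] at h1
      rw [mul_smul, ← h1, smul_smul, inv_mul_cancel₀ hx0, one_smul]
    left
    refine ⟨v, w, a, fun g => a (g * g₁) - a g * a g₁,
      fun g => x⁻¹ * (d (g * h₁) - d g * d h₁), d, ?_, hv, hw, ⟨h₁, hx0⟩, ⟨g₁, ?_⟩, ?_⟩
    · rw [LinearIndependent.pair_iff]
      intro α β hαβ
      have h1 := congrArg (ρ c) hαβ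
      rw [map_add, map_smul, map_smul, hv, hw, map_zero, smul_neg] at h1
      have h3 : (2 * α) • v = 0 := by
        have : (α • v + β • w) + (α • v + -(β • w)) = 0 := by rw [hαβ, h1, add_zero]
        rw [mul_smul, two_smul, ← this]
        abel
      have hα : α = 0 := by
        rcases smul_eq_zero.mp h3 with h | h
        · exact (mul_eq_zero.mp h).resolve_left h2
        · exact absurd h hv0
      refine ⟨hα, ?_⟩
      rw [hα, zero_smul, zero_add] at hαβ
      exact (smul_eq_zero.mp hαβ).resolve_right hg₁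
    · intro h0
      apply hg₁
      have := hCv g₁
      have h0' : x⁻¹ * (d (g₁ * h₁) - d g₁ * d h₁) = 0 := h0
      rw [h0', zero_smul] at this
      exact this
    · intro g
      have e1 : ρ g v = a g • v + (x⁻¹ * (d (g * h₁) - d g * d h₁)) • w := by
        rw [← hCv g]; abel
      have e2 : ρ g w = (a (g * g₁) - a g * a g₁) • v + d g • w := by
        rw [← hBw g]; abel
      have e3 : a g + d g = t g := by
        simp only [ha, hd]; field_simp; ring
      refine ⟨e1, e2, e3, ?_⟩
      set b' : E := a (g * g₁) - a g * a g₁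
      set c'' : E := x⁻¹ * (d (g * h₁) - d g * d h₁)
      have e4 := DFunLike.congr_fun (hrel g) v
      simp only [LinearMap.add_apply, LinearMap.sub_apply, Module.End.mul_apply,
        LinearMap.smul_apply, Module.End.one_apply, LinearMap.zero_apply] at e4
      rw [e1, map_add, map_smul, map_smul, e1, e2, ← e3] at e4
      have e5 : (b' * c'' - a g * d g + (ε g : E)) • v = 0 := by
        rw [← e4]
        module
      have e6 := (smul_eq_zero.mp e5).resolve_right hv0
      linear_combination -e6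
  · push Not at hplus
    obtain ⟨w, hw0⟩ := exists_ne (0 : W)
    have hw : ρ c w = -w := by
      have h1 : ρ c (w + ρ c w) = w + ρ c w := by rw [map_add, hCC]; abel
      have h3 : w + ρ c w = 0 := by
        by_contra hne
        exact hplus _ hne h1
      exact (eq_neg_of_add_eq_zero_right h3)
    refine Or.inr ⟨w, hw0, fun h => ⟨d h, ?_⟩⟩
    have h1 := F2 h w hw
    by_contra hne
    exact hplus _ (sub_ne_zero.mpr hne) h1

end Fermat.Agent.GR.Adic
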