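import Mathlib

/-!
# [Lat] lattice lemma

Over a complete DVR, a torsion free separated module of rank `2` is free of rank `2`.
-/

set_option autoImplicit false

open IsLocalRing Polynomial TensorProduct

namespace Fermat.Agent.GR.Adic

section Lattice

/-- finite powers of a precomplete ring are precomplete modules. -/
theorem isPrecomplete_pi_of_fintype {R : Type*} [CommRing R] (I : Ideal R) [hI : IsPrecomplete I R]
    (ι : Type*) [Fintype ι] : IsPrecomplete I (ι → R) := by
  classical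
  refine ⟨fun f hf => ?_⟩
  have hc : ∀ i, ∃ L : R, ∀ n, f n i ≡ L [SMOD (I ^ n • ⊤ : Submodule R R)] := by
    intro i
    apply IsPrecomplete.prec hI
    intro m n hmn
    have := (hf hmn).map (LinearMap.proj i : (ι → R) →ₗ[R] R)
    refine this.mono ?_
    rw [Submodule.map_smul'']
    exact Submodule.smul_mono le_rfl le_top
  choose L hL using hc
  refine ⟨L, fun n => ?_⟩
  rw [SModEq.sub_mem]
  have h1 : f n - L = ∑ i, (f n i - L i) • (Pi.single i 1 : ι → R) := by
    ext j
    simp [Finset.sum_apply, Pi.single_apply]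
  rw [h1]
  refine Submodule.sum_mem _ fun i _ => Submodule.smul_mem_smul ?_ trivial
  have h2 := hL i n
  rw [SModEq.sub_mem] at h2
  simpa using h2

variable {O Λ : Type*} [CommRing O] [IsDomain O] [IsDiscreteValuationRing O]
    [AddCommGroup Λ] [Module O Λ] [NoZeroSMulDivisors O Λ]

omit [NoZeroSMulDivisors O Λ] in
theorem rank_eq_two_of_rel (v w : Λ) (hvw : LinearIndependent O ![v, w])
    (hrk : ∀ x : Λ, ∃ a b c : O, a ≠ 0 ∧ a • x = b • v + c • w) : Module.rank O Λ = 2 := by
  set N : Submodule O Λ := Submodule.span O (Set.range ![v, w]) with hN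
  have h1 : Module.rank O N = 2 := by
    rw [hN, rank_span hvw]
    have h := Cardinal.mk_range_eq_of_injective hvw.injective
    simpa using h
  have h2 : Module.rank O (Λ ⧸ N) = 0 := by
    rw [rank_eq_zero_iff]
    intro x
    obtain ⟨x, rfl⟩ := N.mkQ_surjective x
    obtain ⟨a, b, c, ha, h⟩ := hrk x
    refine ⟨a, ha, ?_⟩
    rw [← map_smul, Submodule.mkQ_apply, Submodule.Quotient.mk_eq_zero, h]
    exact N.add_mem (N.smul_mem _ (Submodule.subset_span ⟨0, rfl⟩))
      (N.smul_mem _ (Submodule.subset_span ⟨1, rfl⟩))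
  have h3 := rank_quotient_add_rank_of_isDomain N
  rw [h1, h2, zero_add] at h3
  exact h3.symm

/-- a nontrivial relation can be normalised so that one coefficient is a unit. -/
theorem exists_unit_rel {ι : Type*} [Fintype ι] (x : ι → Λ) (h : ¬ LinearIndependent O x) :
    ∃ c : ι → O, ∑ i, c i • x i = 0 ∧ ∃ i, IsUnit (c i) := by
  obtain ⟨g, hg, i0, hi0⟩ := Fintype.not_linearIndependent_iff.mp h
  obtain ⟨d, hd⟩ := IsPrincipalIdealRing.principal (Ideal.span (Set.range g))
  have hd' : Ideal.span (Set.range g) = Ideal.span {d} := hd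
  have hdvd : ∀ i, d ∣ g i := fun i => by
    rw [← Ideal.mem_span_singleton, ← hd']
    exact Ideal.subset_span ⟨i, rfl⟩
  choose c hc using hdvd
  have hd0 : d ≠ 0 := by
    rintro rfl
    exact hi0 (by rw [hc i0, zero_mul])
  refine ⟨c, ?_, ?_⟩
  · have : d • ∑ i, c i • x i = 0 := by
      rw [Finset.smul_sum, ← hg]
      exact Finset.sum_congr rfl fun i _ => by rw [smul_smul, ← hc i]
    exact (smul_eq_zero.mp this).resolve_left hd0
  · by_contra hcon
    push Not at hcon
    have hle : Ideal.span (Set.range g) ≤ Ideal.span {d} * maximalIdeal O := by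
      rw [Ideal.span_le]
      rintro _ ⟨i, rfl⟩
      rw [SetLike.mem_coe, Ideal.mem_span_singleton_mul]
      exact ⟨c i, (mem_maximalIdeal _).mpr (hcon i), (hc i).symm⟩
    have hdm : d ∈ Ideal.span {d} * maximalIdeal O :=
      hle (hd' ▸ Ideal.mem_span_singleton_self d)
    obtain ⟨z, hz, hdz⟩ := Ideal.mem_span_singleton_mul.mp hdm
    have : z = 1 := mul_left_cancel₀ hd0 (by rw [hdz, mul_one])
    rw [this] at hz
    exact (mem_maximalIdeal _).mp hz isUnit_one

/-- `Λ/𝔪Λ` is generated by two elements. -/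
theorem exists_gen_mod (hrank : Module.rank O Λ = 2) :
    ∃ e₁ e₂ : Λ, ∀ x : Λ, ∃ a b : O,
      x - (a • e₁ + b • e₂) ∈ (maximalIdeal O) • (⊤ : Submodule O Λ) := by
  set M : Submodule O Λ := (maximalIdeal O) • (⊤ : Submodule O Λ) with hM
  have hmem : ∀ (r : O) (y : Λ), ¬ IsUnit r → r • y ∈ M := fun r y hr =>
    Submodule.smul_mem_smul ((mem_maximalIdeal _).mpr hr) trivial
  by_cases hA : ∀ x : Λ, x ∈ M
  · exact ⟨0, 0, fun x => ⟨0, 0, by simpa using hA x⟩⟩
  push Not at hA
  obtain ⟨e₁, he₁⟩ := hA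
  by_cases hB : ∀ x : Λ, ∃ a : O, x - a • e₁ ∈ M
  · refine ⟨e₁, 0, fun x => ?_⟩
    obtain ⟨a, ha⟩ := hB x
    exact ⟨a, 0, by simpa using ha⟩
  push Not at hB
  obtain ⟨e₂, he₂⟩ := hB
  refine ⟨e₁, e₂, fun x => ?_⟩
  have hdep : ¬ LinearIndependent O ![e₁, e₂, x] := by
    intro hli
    have := hli.cardinal_lift_le_rank
    rw [hrank] at this
    simp only [Cardinal.mk_fin, Cardinal.lift_natCast, Cardinal.lift_ofNat] at this
    norm_cast at this
  obtain ⟨c, hc', hu⟩ := exists_unit_rel (O := O) _ hdep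
  have hc : c 0 • e₁ + c 1 • e₂ + c 2 • x = 0 := by
    simpa [Fin.sum_univ_three] using hc'
  by_cases h2 : IsUnit (c 2)
  · obtain ⟨u, hu2⟩ := h2
    refine ⟨-(↑u⁻¹ * c 0), -(↑u⁻¹ * c 1), ?_⟩
    have : x - (-(↑u⁻¹ * c 0) • e₁ + -(↑u⁻¹ * c 1) • e₂) = 0 := by
      have h3 : (↑u⁻¹ : O) • (c 0 • e₁ + c 1 • e₂ + c 2 • x) = 0 := by rw [hc, smul_zero]
      rw [← hu2, smul_add, smul_add, smul_smul, smul_smul, smul_smul, Units.inv_mul,
        one_smul] at h3
      rw [neg_smul, neg_smul, ← h3]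
      abel
    rw [this]
    exact M.zero_mem
  · exfalso
    by_cases h1 : IsUnit (c 1)
    · obtain ⟨u, hu1⟩ := h1
      apply he₂ (-(↑u⁻¹ * c 0))
      have h3 : (↑u⁻¹ : O) • (c 0 • e₁ + c 1 • e₂ + c 2 • x) = 0 := by rw [hc, smul_zero]
      rw [← hu1, smul_add, smul_add, smul_smul, smul_smul, Units.inv_mul, one_smul] at h3
      have h4 : e₂ - -(↑u⁻¹ * c 0) • e₁ = -((↑u⁻¹ : O) • (c 2 • x)) := by
        rw [neg_smul, eq_neg_iff_add_eq_zero, ← h3]
        abel
      rw [h4]
      exact M.neg_mem (M.smul_mem _ (hmem _ _ h2))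
    · have h0 : IsUnit (c 0) := by
        obtain ⟨i, hi⟩ := hu
        fin_cases i
        · exact hi
        · exact absurd hi h1
        · exact absurd hi h2
      obtain ⟨u, hu0⟩ := h0
      apply he₁
      have h3 : (↑u⁻¹ : O) • (c 0 • e₁ + c 1 • e₂ + c 2 • x) = 0 := by rw [hc, smul_zero]
      rw [← hu0, smul_add, smul_add, smul_smul, Units.inv_mul, one_smul] at h3
      have h4 : e₁ = -((↑u⁻¹ : O) • (c 1 • e₂) + (↑u⁻¹ : O) • (c 2 • x)) := by
        rw [eq_neg_iff_add_eq_zero, ← h3]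
        abel
      rw [h4]
      exact M.neg_mem (M.add_mem (M.smul_mem _ (hmem _ _ h1)) (M.smul_mem _ (hmem _ _ h2)))

end Lattice

/-- [Lat] over a complete DVR, a torsion free separated module in which any three elements are
linearly dependent and which contains two independent elements is free of rank 2. -/
theorem exists_basis_two {O Λ : Type*} [CommRing O] [IsDomain O] [IsDiscreteValuationRing O]
    [IsAdicComplete (maximalIdeal O) O] [AddCommGroup Λ] [Module O Λ] [NoZeroSMulDivisors O Λ]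
    (hsep : ∀ x : Λ, (∀ n : ℕ, x ∈ (maximalIdeal O ^ n) • (⊤ : Submodule O Λ)) → x = 0)
    (v w : Λ) (hvw : LinearIndependent O ![v, w])
    (hrk : ∀ x : Λ, ∃ a b c : O, a ≠ 0 ∧ a • x = b • v + c • w) :
    Nonempty (Module.Basis (Fin 2) O Λ) := by
  have hrank : Module.rank O Λ = 2 := rank_eq_two_of_rel v w hvw hrk
  obtain ⟨e₁, e₂, he⟩ := exists_gen_mod (O := O) (Λ := Λ) hrank
  have : IsHausdorff (maximalIdeal O) Λ :=
    ⟨fun x hx => hsep x fun n => SModEq.zero.mp (hx n)⟩
  have : IsPrecomplete (maximalIdeal O) (Fin 2 → O) :=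
    isPrecomplete_pi_of_fintype (maximalIdeal O) (Fin 2)
  set f : (Fin 2 → O) →ₗ[O] Λ := Fintype.linearCombination O ![e₁, e₂] with hf
  have hsurj : Function.Surjective f := by
    apply surjective_of_mkQ_comp_surjective (I := maximalIdeal O)
    intro y
    obtain ⟨x, rfl⟩ := Submodule.mkQ_surjective _ y
    obtain ⟨a, b, hab⟩ := he x
    refine ⟨![a, b], ?_⟩
    rw [LinearMap.comp_apply, Submodule.mkQ_apply, Submodule.mkQ_apply, eq_comm,
      Submodule.Quotient.eq]
    simpa [hf, Fintype.linearCombination_apply, Fin.sum_univ_two] using hab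
  have : Module.Finite O Λ := Module.Finite.of_surjective f hsurj
  have : Module.Free O Λ := Module.free_of_finite_type_torsion_free'
  have hfr : Module.finrank O Λ = 2 := Module.finrank_eq_of_rank_eq hrank
  exact ⟨Module.finBasisOfFinrankEq O Λ hfr⟩

end Fermat.Agent.GR.Adic
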