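/-
[AdicRep] (S30): a torsion free, separated `O[G]`-module with a quadratic relation and a
"complex conjugation" gives a two dimensional representation over `O`, rigid and continuous.
Uses `ctrick` ([CT]) and `exists_basis_two` ([Lat]).
-/
import Mathlib
import Fermat.Agent.GR.Adic.CTrick
import Fermat.Agent.GR.Adic.Lattice

set_option autoImplicit false

open IsLocalRing Polynomial TensorProduct

namespace Fermat.Agent.GR.Adic

/-- membership in `𝔪 ^ n • ⊤` in terms of a uniformizer. -/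
theorem adicRepAux.mem_pow_smul_top {O N : Type*} [CommRing O] [IsDomain O]
    [IsDiscreteValuationRing O] [AddCommGroup N] [Module O N] {π : O} (hπ : Irreducible π)
    (n : ℕ) (x : N) :
    x ∈ (maximalIdeal O ^ n) • (⊤ : Submodule O N) ↔ ∃ y : N, x = π ^ n • y := by
  rw [hπ.maximalIdeal_eq, Ideal.span_singleton_pow, Submodule.ideal_span_singleton_smul,
    Submodule.mem_smul_pointwise_iff_exists]
  constructor
  · rintro ⟨y, -, rfl⟩
    exact ⟨y, rfl⟩
  · rintro ⟨y, rfl⟩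
    exact ⟨y, Submodule.mem_top, rfl⟩

theorem adicRepAux.mem_pow {O : Type*} [CommRing O] [IsDomain O]
    [IsDiscreteValuationRing O] {π : O} (hπ : Irreducible π) (n : ℕ) (x : O) :
    x ∈ maximalIdeal O ^ n ↔ ∃ y : O, x = π ^ n * y := by
  rw [hπ.maximalIdeal_eq, Ideal.span_singleton_pow, Ideal.mem_span_singleton]
  rfl

/-- From a matrix representation to the conclusion of `adicRep`. -/
theorem adicRepAux.of_matrix {O G : Type*} [CommRing O] [IsDomain O] [IsDiscreteValuationRing O]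
    [Group G] (ε : G →* Oˣ) (t : G → O) (𝒰 : Set (Set G))
    (M : G →* Matrix (Fin 2) (Fin 2) O)
    (htr : ∀ g, (M g).trace = t g) (hdet : ∀ g, (M g).det = (ε g : O))
    (hrig : ∀ τ, ε τ = 1 → (∀ g, t (g * τ) = t g) → M τ = 1)
    (hcont : ∀ n : ℕ, ∃ U ∈ 𝒰, ∀ g ∈ U, ∀ i j, (M g - 1) i j ∈ maximalIdeal O ^ n) :
    ∃ ρ' : G →* Module.End O (Fin 2 → O),
      (∀ g, LinearMap.charpoly (ρ' g) = X ^ 2 - C (t g) * X + C (ε g : O)) ∧
      (∀ τ, ε τ = 1 → (∀ g, t (g * τ) = t g) → ρ' τ = 1) ∧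
      (∀ n : ℕ, ∃ U ∈ 𝒰, ∀ g ∈ U, ∀ v : Fin 2 → O,
        ρ' g v - v ∈ (maximalIdeal O ^ n) • (⊤ : Submodule O (Fin 2 → O))) := by
  obtain ⟨π, hπ⟩ := IsDiscreteValuationRing.exists_irreducible O
  refine ⟨((Matrix.toLinAlgEquiv' : Matrix (Fin 2) (Fin 2) O ≃ₐ[O] _) : _ →* _).comp M,
    ?_, ?_, ?_⟩
  · intro g
    have : (((Matrix.toLinAlgEquiv' : Matrix (Fin 2) (Fin 2) O ≃ₐ[O] _) : _ →* _).comp M) g
        = Matrix.toLin' (M g) := rfl
    rw [this, Matrix.charpoly_toLin', Matrix.charpoly_fin_two, htr, hdet]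
  · intro τ h1 h2
    have : (((Matrix.toLinAlgEquiv' : Matrix (Fin 2) (Fin 2) O ≃ₐ[O] _) : _ →* _).comp M) τ
        = Matrix.toLin' (M τ) := rfl
    rw [this, hrig τ h1 h2, Matrix.toLin'_one]
    rfl
  · intro n
    obtain ⟨U, hU, h⟩ := hcont n
    refine ⟨U, hU, fun g hg v => ?_⟩
    have : (((Matrix.toLinAlgEquiv' : Matrix (Fin 2) (Fin 2) O ≃ₐ[O] _) : _ →* _).comp M) g
        = Matrix.toLin' (M g) := rfl
    rw [this, adicRepAux.mem_pow_smul_top hπ]
    have h' : ∀ i j, ∃ y : O, (M g - 1) i j = π ^ n * y := fun i j =>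
      (adicRepAux.mem_pow hπ n _).1 (h g hg i j)
    choose y hy using h'
    refine ⟨fun i => y i 0 * v 0 + y i 1 * v 1, ?_⟩
    have e : Matrix.toLin' (M g) v - v = Matrix.toLin' (M g - 1) v := by
      rw [map_sub, Matrix.toLin'_one]; rfl
    rw [e]
    ext i
    simp only [Matrix.toLin'_apply, Matrix.mulVec, dotProduct, Fin.sum_univ_two, hy, Pi.smul_apply,
      smul_eq_mul]
    ring

/-- divide by the uniformizer until primitive. -/
theorem adicRepAux.exists_primitive {O T : Type*} [CommRing O] [IsDomain O]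
    [IsDiscreteValuationRing O] [AddCommGroup T] [Module O T] {π : O} (hπ : Irreducible π)
    (hsep : ∀ x : T, (∀ n : ℕ, x ∈ (maximalIdeal O ^ n) • (⊤ : Submodule O T)) → x = 0)
    (x : T) (hx : x ≠ 0) :
    ∃ (n : ℕ) (x0 : T), x = π ^ n • x0 ∧ ∀ y : T, x0 ≠ π • y := by
  classical
  have h1 : ∃ n : ℕ, ¬ ∃ y : T, x = π ^ n • y := by
    by_contra hcon
    apply hx
    apply hsep
    intro n
    rw [adicRepAux.mem_pow_smul_top hπ]
    by_contra h
    exact hcon ⟨n, h⟩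
  have hmin := fun m => Nat.find_min h1 (m := m)
  have hspec := Nat.find_spec h1
  rcases hn : Nat.find h1 with _ | k
  · rw [hn] at hspec
    exact absurd ⟨x, by simp⟩ hspec
  · have := hmin k (by omega)
    rw [not_not] at this
    obtain ⟨x0, hx0⟩ := this
    refine ⟨k, x0, hx0, fun y hy => ?_⟩
    rw [hn] at hspec
    apply hspec
    refine ⟨y, ?_⟩
    rw [hx0, hy, smul_smul, pow_succ]

/-- divisibility of coefficients of a primitive vector. -/
theorem adicRepAux.prim_dvd {O T : Type*} [CommRing O] [IsDomain O]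
    [IsDiscreteValuationRing O] [AddCommGroup T] [Module O T] [NoZeroSMulDivisors O T]
    {π : O} (hπ : Irreducible π) {x0 : T} (hx0 : ∀ y : T, x0 ≠ π • y) (n : ℕ) :
    ∀ (a : O) (y : T), a • x0 = π ^ n • y → π ^ n ∣ a := by
  induction n with
  | zero => intro a y _; simp
  | succ n ih =>
    intro a y h
    obtain ⟨a', rfl⟩ := ih a (π • y) (by rw [h, smul_smul, pow_succ])
    have h1 : π ^ n • (a' • x0 - π • y) = 0 := by
      rw [smul_sub, smul_smul, smul_smul, h, ← pow_succ, sub_self]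
    have h2 : a' • x0 = π • y := by
      rcases smul_eq_zero.1 h1 with h | h
      · exact absurd h (pow_ne_zero _ hπ.ne_zero)
      · exact sub_eq_zero.1 h
    have h3 : π ∣ a' := by
      by_contra hnd
      have hu : IsUnit a' := by
        by_contra hnu
        have : a' ∈ maximalIdeal O := (mem_maximalIdeal a').2 hnu
        rw [hπ.maximalIdeal_eq, Ideal.mem_span_singleton] at this
        exact hnd this
      obtain ⟨u, rfl⟩ := hu
      apply hx0 ((↑u⁻¹ : O) • y)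
      rw [smul_smul, mul_comm, ← smul_smul, ← h2, smul_smul, Units.inv_mul, one_smul]
    obtain ⟨b, rfl⟩ := h3
    exact ⟨b, by rw [pow_succ, mul_assoc]⟩

theorem adicRepAux.prim_scalar {O T : Type*} [CommRing O] [IsDomain O]
    [IsDiscreteValuationRing O] [AddCommGroup T] [Module O T] [NoZeroSMulDivisors O T]
    {π : O} (hπ : Irreducible π) {x0 : T} (hx0 : ∀ y : T, x0 ≠ π • y)
    (p q : O) (hq : q ≠ 0) (y : T) (h : q • y = p • x0) : ∃ r : O, y = r • x0 := by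
  obtain ⟨k, hk⟩ := IsDiscreteValuationRing.associated_pow_irreducible hq hπ
  obtain ⟨u, hu⟩ := hk.symm
  -- hu : π ^ k * u = q
  have h1 : p • x0 = π ^ k • ((u : O) • y) := by rw [smul_smul, hu, h]
  obtain ⟨p', rfl⟩ := adicRepAux.prim_dvd hπ hx0 k p _ h1
  have h2 : π ^ k • (p' • x0 - (u : O) • y) = 0 := by
    rw [smul_sub, smul_smul, h1, sub_self]
  have h3 : p' • x0 = (u : O) • y := by
    rcases smul_eq_zero.1 h2 with h | h
    · exact absurd h (pow_ne_zero _ hπ.ne_zero)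
    · exact sub_eq_zero.1 h
  refine ⟨(↑u⁻¹ : O) * p', ?_⟩
  rw [← smul_smul, h3, smul_smul, Units.inv_mul, one_smul]

/-- The LINE case. -/
theorem adicRepAux.line {O G T : Type*} [CommRing O] [IsDomain O] [IsDiscreteValuationRing O]
    [Group G]
    [AddCommGroup T] [Module O T] [NoZeroSMulDivisors O T]
    (hsep : ∀ x : T, (∀ n : ℕ, x ∈ (maximalIdeal O ^ n) • (⊤ : Submodule O T)) → x = 0)
    (ρ : G →* Module.End O T) (ε : G →* Oˣ) (t : G → O)
    (hrel : ∀ g, ρ g * ρ g - t g • ρ g + (ε g : O) • 1 = 0)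
    (𝒰 : Set (Set G)) (h𝒰 : ∀ U ∈ 𝒰, ∀ V ∈ 𝒰, ∃ X ∈ 𝒰, X ⊆ U ∩ V)
    (hsm : ∀ (x : T) (n : ℕ), ∃ U ∈ 𝒰, ∀ g ∈ U,
      ρ g x - x ∈ (maximalIdeal O ^ n) • (⊤ : Submodule O T))
    (hε : ∀ n : ℕ, ∃ U ∈ 𝒰, ∀ g ∈ U, (ε g : O) - 1 ∈ maximalIdeal O ^ n)
    (x : T) (hx : x ≠ 0) (hline : ∀ g, ∃ p q : O, q ≠ 0 ∧ q • ρ g x = p • x) :
    ∃ ρ' : G →* Module.End O (Fin 2 → O),
      (∀ g, LinearMap.charpoly (ρ' g) = X ^ 2 - C (t g) * X + C (ε g : O)) ∧
      (∀ τ, ε τ = 1 → (∀ g, t (g * τ) = t g) → ρ' τ = 1) ∧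
      (∀ n : ℕ, ∃ U ∈ 𝒰, ∀ g ∈ U, ∀ v : Fin 2 → O,
        ρ' g v - v ∈ (maximalIdeal O ^ n) • (⊤ : Submodule O (Fin 2 → O))) := by
  obtain ⟨π, hπ⟩ := IsDiscreteValuationRing.exists_irreducible O
  obtain ⟨k, x0, hxx0, hx0⟩ := adicRepAux.exists_primitive hπ hsep x hx
  have hx00 : x0 ≠ 0 := fun h => hx0 0 (by rw [h, smul_zero])
  have hcancel : ∀ r r' : O, r • x0 = r' • x0 → r = r' := by
    intro r r' h
    have : (r - r') • x0 = 0 := by rw [sub_smul, h, sub_self]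
    rcases smul_eq_zero.1 this with h | h
    · exact sub_eq_zero.1 h
    · exact absurd h hx00
  have h1 : ∀ g, ∃ r : O, ρ g x0 = r • x0 := by
    intro g
    obtain ⟨p, q, hq, hpq⟩ := hline g
    refine adicRepAux.prim_scalar hπ hx0 p q hq _ ?_
    have : π ^ k • (q • ρ g x0 - p • x0) = 0 := by
      rw [smul_sub, smul_comm, ← map_smul, ← hxx0, hpq, smul_comm, ← hxx0, sub_self]
    rcases smul_eq_zero.1 this with h | h
    · exact absurd h (pow_ne_zero _ hπ.ne_zero)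
    · exact sub_eq_zero.1 h
  choose ψ hψ using h1
  let ψm : G →* O :=
    { toFun := ψ
      map_one' := by
        apply hcancel
        rw [← hψ, map_one, one_smul]; rfl
      map_mul' := by
        intro g h
        apply hcancel
        rw [← hψ, map_mul, Module.End.mul_apply, hψ h, map_smul, hψ g, smul_smul, mul_comm] }
  let ψu : G →* Oˣ := ψm.toHomUnits
  have hψu : ∀ g, ((ψu g : Oˣ) : O) = ψ g := fun g => rfl
  let χ : G →* Oˣ := ε / ψu
  have hχ : ∀ g, ((χ g : Oˣ) : O) * ψ g = (ε g : O) := by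
    intro g
    rw [← hψu, ← Units.val_mul]
    simp [χ]
  have hquad : ∀ g, ψ g * ψ g - t g * ψ g + (ε g : O) = 0 := by
    intro g
    have := congrArg (fun f : Module.End O T => f x0) (hrel g)
    simp only [LinearMap.add_apply, LinearMap.sub_apply, Module.End.mul_apply,
      LinearMap.smul_apply, Module.End.one_apply, LinearMap.zero_apply, hψ, map_smul,
      smul_smul] at this
    apply hcancel
    rw [zero_smul, ← this, add_smul, sub_smul]
  have htr : ∀ g, ψ g + (χ g : O) = t g := by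
    intro g
    have hne : ψ g ≠ 0 := by rw [← hψu]; exact (ψu g).ne_zero
    apply mul_right_cancel₀ hne
    linear_combination hquad g + hχ g
  let M : G →* Matrix (Fin 2) (Fin 2) O :=
    { toFun := fun g => !![ψ g, 0; 0, (χ g : O)]
      map_one' := by
        have : ψ 1 = 1 := ψm.map_one
        ext i j
        fin_cases i <;> fin_cases j <;> simp [this]
      map_mul' := by
        intro g h
        have : ψ (g * h) = ψ g * ψ h := ψm.map_mul g h
        ext i j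
        fin_cases i <;> fin_cases j <;> simp [this, Matrix.mul_apply, Fin.sum_univ_two] }
  have hM : ∀ g, M g = !![ψ g, 0; 0, (χ g : O)] := fun g => rfl
  refine adicRepAux.of_matrix ε t 𝒰 M ?_ ?_ ?_ ?_
  · intro g
    rw [hM, Matrix.trace_fin_two_of, htr]
  · intro g
    rw [hM, Matrix.det_fin_two_of, ← hχ g]
    ring
  · intro τ hτ ht
    have e1 : ψ 1 = 1 := ψm.map_one
    have e2 : t 1 = 2 := by
      rw [← htr, e1, map_one, Units.val_one]; norm_num
    have e3 : t τ = 2 := by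
      rw [← e2, ← ht 1, one_mul]
    have e4 := hquad τ
    rw [e3, hτ, Units.val_one] at e4
    have e5 : (ψ τ - 1) ^ 2 = 0 := by linear_combination e4
    have e6 : ψ τ = 1 := sub_eq_zero.1 (pow_eq_zero_iff (two_ne_zero) |>.1 e5)
    have e7 : (χ τ : O) = 1 := by
      have := hχ τ
      rwa [e6, hτ, mul_one] at this
    rw [hM, e6, e7]
    ext i j
    fin_cases i <;> fin_cases j <;> simp
  · intro n
    obtain ⟨U1, hU1, h1⟩ := hsm x0 n
    obtain ⟨U2, hU2, h2⟩ := hε n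
    obtain ⟨X, hX, hXU⟩ := h𝒰 U1 hU1 U2 hU2
    refine ⟨X, hX, fun g hg => ?_⟩
    have a1 : ψ g - 1 ∈ maximalIdeal O ^ n := by
      have := h1 g (hXU hg).1
      rw [adicRepAux.mem_pow_smul_top hπ] at this
      obtain ⟨y, hy⟩ := this
      rw [adicRepAux.mem_pow hπ]
      exact adicRepAux.prim_dvd hπ hx0 n _ y (by rw [sub_smul, one_smul, ← hψ, hy])
    have a2 : (χ g : O) - 1 ∈ maximalIdeal O ^ n := by
      have e : (χ g : O) - 1 = (↑(ψu g)⁻¹ : O) * (((ε g : O) - 1) - (ψ g - 1)) := by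
        have e1 : (↑(ψu g)⁻¹ : O) * ψ g = 1 := by rw [← hψu, Units.inv_mul]
        linear_combination (-(χ g : O) + 1) * e1 + (↑(ψu g)⁻¹ : O) * hχ g
      rw [e]
      exact Ideal.mul_mem_left _ _ (sub_mem (h2 g (hXU hg).2) a1)
    intro i j
    rw [hM]
    fin_cases i <;> fin_cases j <;> simp [a1, a2]

/-- The PLANE case. -/
theorem adicRepAux.plane {O E G T V : Type*} [CommRing O] [IsDomain O] [IsDiscreteValuationRing O]
    [IsAdicComplete (maximalIdeal O) O] [Field E] [Algebra O E] [IsFractionRing O E]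
    (h2 : (2 : O) ≠ 0) [Group G]
    [AddCommGroup T] [Module O T] [NoZeroSMulDivisors O T]
    [AddCommGroup V] [Module O V] [Module E V] [IsScalarTower O E V]
    (hsep : ∀ x : T, (∀ n : ℕ, x ∈ (maximalIdeal O ^ n) • (⊤ : Submodule O T)) → x = 0)
    (ρ : G →* Module.End O T) (ε : G →* Oˣ) (t : G → O)
    (𝒰 : Set (Set G)) (h𝒰 : ∀ U ∈ 𝒰, ∀ V ∈ 𝒰, ∃ X ∈ 𝒰, X ⊆ U ∩ V)
    (hsm : ∀ (x : T) (n : ℕ), ∃ U ∈ 𝒰, ∀ g ∈ U,
      ρ g x - x ∈ (maximalIdeal O ^ n) • (⊤ : Submodule O T))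
    (ι : T →ₗ[O] V) (hι : Function.Injective ι)
    (hsurj : ∀ y : V, ∃ (s : O) (x : T), s ≠ 0 ∧ s • y = ι x)
    (ρE : G →* Module.End E V) (hρE : ∀ g x, ρE g (ι x) = ι (ρ g x))
    (c : G) (v w : V) (a b c' d : G → E) (hli : LinearIndependent E ![v, w])
    (hcv : ρE c v = v) (hcw : ρE c w = - w) (hb : ∃ g, b g ≠ 0) (hc' : ∃ g, c' g ≠ 0)
    (hg : ∀ g, ρE g v = a g • v + c' g • w ∧ ρE g w = b g • v + d g • w ∧
      a g + d g = algebraMap O E (t g) ∧ a g * d g - b g * c' g = algebraMap O E (ε g : O)) :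
    ∃ ρ' : G →* Module.End O (Fin 2 → O),
      (∀ g, LinearMap.charpoly (ρ' g) = X ^ 2 - C (t g) * X + C (ε g : O)) ∧
      (∀ τ, ε τ = 1 → (∀ g, t (g * τ) = t g) → ρ' τ = 1) ∧
      (∀ n : ℕ, ∃ U ∈ 𝒰, ∀ g ∈ U, ∀ v : Fin 2 → O,
        ρ' g v - v ∈ (maximalIdeal O ^ n) • (⊤ : Submodule O (Fin 2 → O))) := by
  classical
  obtain ⟨π, hπ⟩ := IsDiscreteValuationRing.exists_irreducible O
  set φ := algebraMap O E with hφ
  have hφinj : Function.Injective φ := IsFractionRing.injective O E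
  have hφ0 : ∀ s : O, s ≠ 0 → φ s ≠ 0 := fun s hs h => hs (hφinj (by rw [h, map_zero]))
  have hco : ∀ α β α' β' : E, α • v + β • w = α' • v + β' • w → α = α' ∧ β = β' := by
    intro α β α' β' h
    have := (LinearIndependent.pair_iff.1 hli) (α - α') (β - β') (by
      have h' : α • v + β • w - (α' • v + β' • w) = 0 := sub_eq_zero.2 h
      rw [← h']; module)
    exact ⟨sub_eq_zero.1 this.1, sub_eq_zero.1 this.2⟩
  have hιs : ∀ (s : O) (x : T), ι (s • x) = φ s • ι x := by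
    intro s x; rw [map_smul, algebraMap_smul]
  have hact : ∀ g (α β : E), ρE g (α • v + β • w)
      = (a g * α + b g * β) • v + (c' g * α + d g * β) • w := by
    intro g α β
    rw [map_add, map_smul, map_smul, (hg g).1, (hg g).2.1]
    module
  let Λ : Submodule O T := ((Submodule.span E {v, w}).restrictScalars O).comap ι
  have hΛ : ∀ x : T, x ∈ Λ ↔ ∃ α β : E, ι x = α • v + β • w := by
    intro x
    show ι x ∈ Submodule.span E {v, w} ↔ _
    rw [Submodule.mem_span_pair]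
    constructor <;> rintro ⟨α, β, h⟩ <;> exact ⟨α, β, h.symm⟩
  have hstab : ∀ g, ∀ x ∈ Λ, ρ g x ∈ Λ := by
    intro g x hx
    obtain ⟨α, β, h⟩ := (hΛ x).1 hx
    exact (hΛ _).2 ⟨_, _, by rw [← hρE, h, hact]⟩
  let ρΛ : G →* Module.End O Λ :=
    { toFun := fun g => (ρ g).restrict (hstab g)
      map_one' := by ext x; simp
      map_mul' := by intro g h; ext x; simp }
  have hρΛ : ∀ g (x : Λ), ((ρΛ g x : Λ) : T) = ρ g x := fun g x => rfl
  have hsat : ∀ (s : O) (x : T), s ≠ 0 → s • x ∈ Λ → x ∈ Λ := by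
    intro s x hs hx
    obtain ⟨α, β, h⟩ := (hΛ _).1 hx
    refine (hΛ _).2 ⟨(φ s)⁻¹ * α, (φ s)⁻¹ * β, ?_⟩
    rw [hιs] at h
    rw [← smul_smul, ← smul_smul, ← smul_add, ← h, smul_smul, inv_mul_cancel₀ (hφ0 s hs),
      one_smul]
  have hsepΛ : ∀ x : Λ, (∀ n : ℕ, x ∈ (maximalIdeal O ^ n) • (⊤ : Submodule O Λ)) → x = 0 := by
    intro x hx
    apply Subtype.ext
    apply hsep
    intro n
    obtain ⟨y, hy⟩ := (adicRepAux.mem_pow_smul_top hπ n x).1 (hx n)
    exact (adicRepAux.mem_pow_smul_top hπ n _).2 ⟨y, by rw [hy]; rfl⟩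
  obtain ⟨sv, xv, hsv, hxv⟩ := hsurj v
  obtain ⟨sw, xw, hsw, hxw⟩ := hsurj w
  rw [← algebraMap_smul E, ← hφ] at hxv hxw
  have hxvΛ : xv ∈ Λ := (hΛ _).2 ⟨φ sv, 0, by rw [← hxv, zero_smul, add_zero]⟩
  have hxwΛ : xw ∈ Λ := (hΛ _).2 ⟨0, φ sw, by rw [← hxw, zero_smul, zero_add]⟩
  have hliΛ : LinearIndependent O ![(⟨xv, hxvΛ⟩ : Λ), ⟨xw, hxwΛ⟩] := by
    rw [LinearIndependent.pair_iff]
    intro r s h
    have h' : r • xv + s • xw = 0 := congrArg Subtype.val h
    have h'' := congrArg ι h'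
    rw [map_add, hιs, hιs, ← hxv, ← hxw, map_zero, smul_smul, smul_smul] at h''
    have := hco _ _ 0 0 (by rw [h'', zero_smul, zero_smul, add_zero])
    constructor
    · rcases mul_eq_zero.1 this.1 with h | h
      · exact hφinj (by rw [h, map_zero])
      · exact absurd h (hφ0 _ hsv)
    · rcases mul_eq_zero.1 this.2 with h | h
      · exact hφinj (by rw [h, map_zero])
      · exact absurd h (hφ0 _ hsw)
  have hrk : ∀ x : Λ, ∃ a b c : O, a ≠ 0 ∧
      a • x = b • (⟨xv, hxvΛ⟩ : Λ) + c • (⟨xw, hxwΛ⟩ : Λ) := by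
    intro x
    obtain ⟨α, β, h⟩ := (hΛ _).1 x.2
    obtain ⟨p1, q1, hq1, rfl⟩ := IsFractionRing.div_surjective (A := O) α
    obtain ⟨p2, q2, hq2, rfl⟩ := IsFractionRing.div_surjective (A := O) β
    rw [← hφ] at h
    have hq1' : q1 ≠ 0 := nonZeroDivisors.ne_zero hq1
    have hq2' : q2 ≠ 0 := nonZeroDivisors.ne_zero hq2
    refine ⟨q1 * q2 * sv * sw, p1 * q2 * sw, p2 * q1 * sv,
      mul_ne_zero (mul_ne_zero (mul_ne_zero hq1' hq2') hsv) hsw, ?_⟩
    apply Subtype.ext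
    apply hι
    show ι ((q1 * q2 * sv * sw) • (x : T)) = ι ((p1 * q2 * sw) • xv + (p2 * q1 * sv) • xw)
    rw [map_add, hιs, hιs, hιs, h, ← hxv, ← hxw]
    simp only [map_mul, smul_add, smul_smul]
    have e1 : φ q1 ≠ 0 := hφ0 _ hq1'
    have e2 : φ q2 ≠ 0 := hφ0 _ hq2'
    congr 2
    · field_simp
    · field_simp
  have : NoZeroSMulDivisors O Λ :=
    Function.Injective.noZeroSMulDivisors Subtype.val Subtype.val_injective rfl (fun _ _ => rfl)
  obtain ⟨B⟩ := exists_basis_two hsepΛ _ _ hliΛ hrk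
  let M : G →* Matrix (Fin 2) (Fin 2) O :=
    ((LinearMap.toMatrixAlgEquiv B : Module.End O Λ ≃ₐ[O] _) : _ →* _).comp ρΛ
  have hM : ∀ g i j, M g i j = B.repr (ρΛ g (B j)) i := fun g i j =>
    LinearMap.toMatrixAlgEquiv_apply B (ρΛ g) i j
  have hexp : ∀ x : Λ, (x : T) = B.repr x 0 • (B 0 : T) + B.repr x 1 • (B 1 : T) := by
    intro x
    have := congrArg Subtype.val (B.sum_repr x)
    rw [Fin.sum_univ_two] at this
    exact this.symm
  have hMB : ∀ g j, ρ g (B j : T) = M g 0 j • (B 0 : T) + M g 1 j • (B 1 : T) := by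
    intro g j
    rw [hM, hM, ← hexp, hρΛ]
  have hpq : ∀ j, ∃ α β : E, ι (B j : T) = α • v + β • w := fun j => (hΛ _).1 (B j).2
  choose p q hpq using hpq
  have hAP : ∀ g j, a g * p j + b g * q j = p 0 * φ (M g 0 j) + p 1 * φ (M g 1 j) ∧
      c' g * p j + d g * q j = q 0 * φ (M g 0 j) + q 1 * φ (M g 1 j) := by
    intro g j
    apply hco
    rw [← hact, ← hpq, hρE, hMB, map_add, hιs, hιs, hpq, hpq]
    module
  have hΔ : p 0 * q 1 - p 1 * q 0 ≠ 0 := by
    intro hΔ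
    have e1 := hexp ⟨xv, hxvΛ⟩
    have e2 := hexp ⟨xw, hxwΛ⟩
    generalize B.repr ⟨xv, hxvΛ⟩ 0 = r0 at e1
    generalize B.repr ⟨xv, hxvΛ⟩ 1 = r1 at e1
    generalize B.repr ⟨xw, hxwΛ⟩ 0 = r0' at e2
    generalize B.repr ⟨xw, hxwΛ⟩ 1 = r1' at e2
    have f1 := hco (φ sv) 0 (φ r0 * p 0 + φ r1 * p 1) (φ r0 * q 0 + φ r1 * q 1) (by
      rw [zero_smul, add_zero, hxv]
      show ι xv = _
      rw [show xv = r0 • (B 0 : T) + r1 • (B 1 : T) from e1, map_add, hιs, hιs, hpq, hpq]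
      module)
    have f2 := hco 0 (φ sw) (φ r0' * p 0 + φ r1' * p 1) (φ r0' * q 0 + φ r1' * q 1) (by
      rw [zero_smul, zero_add, hxw]
      show ι xw = _
      rw [show xw = r0' • (B 0 : T) + r1' • (B 1 : T) from e2, map_add, hιs, hιs, hpq, hpq]
      module)
    have f3 : φ sv * φ sw = 0 := by
      have : φ sv * φ sw = (φ r0 * φ r1' - φ r1 * φ r0') * (p 0 * q 1 - p 1 * q 0) := by
        linear_combination f1.1 * φ sw + (φ r0 * p 0 + φ r1 * p 1) * f2.2
          - f1.2 * (φ r0' * p 0 + φ r1' * p 1) - 0 * f2.1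
      rw [this, hΔ, mul_zero]
    rcases mul_eq_zero.1 f3 with h | h
    · exact hφ0 _ hsv h
    · exact hφ0 _ hsw h
  -- multiplicativity of the coefficient functions
  have hmul : ∀ g h, a (g * h) = a g * a h + b g * c' h ∧ c' (g * h) = c' g * a h + d g * c' h ∧
      b (g * h) = a g * b h + b g * d h ∧ d (g * h) = c' g * b h + d g * d h := by
    intro g h
    have e1 := hco (a (g * h)) (c' (g * h)) (a g * a h + b g * c' h) (c' g * a h + d g * c' h) (by
      rw [← (hg (g * h)).1, map_mul, Module.End.mul_apply, (hg h).1, hact])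
    have e2 := hco (b (g * h)) (d (g * h)) (a g * b h + b g * d h) (c' g * b h + d g * d h) (by
      rw [← (hg (g * h)).2.1, map_mul, Module.End.mul_apply, (hg h).2.1, hact])
    exact ⟨e1.1, e1.2, e2.1, e2.2⟩
  have hone : a 1 = 1 ∧ c' 1 = 0 ∧ b 1 = 0 ∧ d 1 = 1 := by
    have e1 := hco (a 1) (c' 1) 1 0 (by
      rw [← (hg 1).1, map_one, Module.End.one_apply, one_smul, zero_smul, add_zero])
    have e2 := hco (b 1) (d 1) 0 1 (by
      rw [← (hg 1).2.1, map_one, Module.End.one_apply, one_smul, zero_smul, zero_add])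
    exact ⟨e1.1, e1.2, e2.1, e2.2⟩
  have hcc : a c = 1 ∧ c' c = 0 ∧ b c = 0 ∧ d c = -1 := by
    have e1 := hco (a c) (c' c) 1 0 (by
      rw [← (hg c).1, hcv, one_smul, zero_smul, add_zero])
    have e2 := hco (b c) (d c) 0 (-1) (by
      rw [← (hg c).2.1, hcw, neg_smul, one_smul, zero_smul, zero_add])
    exact ⟨e1.1, e1.2, e2.1, e2.2⟩
  have h2E : (2 : E) ≠ 0 := by
    have := hφ0 2 h2
    rwa [map_ofNat] at this
  refine adicRepAux.of_matrix ε t 𝒰 M ?_ ?_ ?_ ?_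
  · intro g
    apply hφinj
    rw [Matrix.trace_fin_two, map_add, ← (hg g).2.2.1]
    apply mul_left_cancel₀ hΔ
    linear_combination (-q 1) * (hAP g 0).1 + p 1 * (hAP g 0).2 + q 0 * (hAP g 1).1
      - p 0 * (hAP g 1).2
  · intro g
    apply hφinj
    rw [Matrix.det_fin_two, map_sub, map_mul, map_mul, ← (hg g).2.2.2]
    apply mul_left_cancel₀ hΔ
    linear_combination (-(c' g * p 1 + d g * q 1)) * (hAP g 0).1
      - (p 0 * φ (M g 0 0) + p 1 * φ (M g 1 0)) * (hAP g 1).2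
      + (c' g * p 0 + d g * q 0) * (hAP g 1).1
      + (p 0 * φ (M g 0 1) + p 1 * φ (M g 1 1)) * (hAP g 0).2
  · intro τ _ ht
    have key : ∀ g, a g * (a τ - 1) + b g * c' τ + c' g * b τ + d g * (d τ - 1) = 0 := by
      intro g
      have e1 := (hg (g * τ)).2.2.1
      rw [ht g, ← (hg g).2.2.1, (hmul g τ).1, (hmul g τ).2.2.2] at e1
      linear_combination e1
    have k1 := key 1
    have kc := key c
    rw [hone.1, hone.2.1, hone.2.2.1, hone.2.2.2] at k1
    rw [hcc.1, hcc.2.1, hcc.2.2.1, hcc.2.2.2] at kc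
    have ha : a τ = 1 := by
      have : 2 * (a τ - 1) = 0 := by linear_combination k1 + kc
      rcases mul_eq_zero.1 this with h | h
      · exact absurd h h2E
      · exact sub_eq_zero.1 h
    have hd : d τ = 1 := by
      have : 2 * (d τ - 1) = 0 := by linear_combination k1 - kc
      rcases mul_eq_zero.1 this with h | h
      · exact absurd h h2E
      · exact sub_eq_zero.1 h
    have key2 : ∀ g, b g * c' τ = 0 ∧ c' g * b τ = 0 := by
      intro g
      have e1 := key g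
      have e2 := key (c * g)
      rw [(hmul c g).1, (hmul c g).2.1, (hmul c g).2.2.1, (hmul c g).2.2.2,
        hcc.1, hcc.2.1, hcc.2.2.1, hcc.2.2.2, ha, hd] at e2
      rw [ha, hd] at e1
      constructor
      · have : 2 * (b g * c' τ) = 0 := by linear_combination e1 + e2
        rcases mul_eq_zero.1 this with h | h
        · exact absurd h h2E
        · exact h
      · have : 2 * (c' g * b τ) = 0 := by linear_combination e1 - e2
        rcases mul_eq_zero.1 this with h | h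
        · exact absurd h h2E
        · exact h
    have hcτ : c' τ = 0 := by
      obtain ⟨g, hg'⟩ := hb
      rcases mul_eq_zero.1 (key2 g).1 with h | h
      · exact absurd h hg'
      · exact h
    have hbτ : b τ = 0 := by
      obtain ⟨g, hg'⟩ := hc'
      rcases mul_eq_zero.1 (key2 g).2 with h | h
      · exact absurd h hg'
      · exact h
    have hfix : ρΛ τ = 1 := by
      ext x
      apply hι
      obtain ⟨α, β, h⟩ := (hΛ _).1 x.2
      rw [hρΛ, ← hρE, h, hact, ha, hd, hcτ, hbτ]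
      simp [h]
    show (LinearMap.toMatrixAlgEquiv B) (ρΛ τ) = 1
    rw [hfix, map_one]
  · intro n
    obtain ⟨U0, hU0, h0⟩ := hsm (B 0 : T) n
    obtain ⟨U1, hU1, h1⟩ := hsm (B 1 : T) n
    obtain ⟨X, hX, hXU⟩ := h𝒰 U0 hU0 U1 hU1
    refine ⟨X, hX, fun g hgX => ?_⟩
    have hj : ∀ j, ρ g (B j : T) - (B j : T) ∈ (maximalIdeal O ^ n) • (⊤ : Submodule O T) := by
      intro j
      fin_cases j
      · exact h0 g (hXU hgX).1
      · exact h1 g (hXU hgX).2
    intro i j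
    obtain ⟨y, hy⟩ := (adicRepAux.mem_pow_smul_top hπ n _).1 (hj j)
    have hyΛ : y ∈ Λ := by
      apply hsat (π ^ n) y (pow_ne_zero _ hπ.ne_zero)
      rw [← hy]
      exact Λ.sub_mem (hstab g _ (B j).2) (B j).2
    have e : ρΛ g (B j) - B j = π ^ n • (⟨y, hyΛ⟩ : Λ) := Subtype.ext hy
    rw [adicRepAux.mem_pow hπ]
    refine ⟨B.repr ⟨y, hyΛ⟩ i, ?_⟩
    have e' := congrArg (fun z => B.repr z i) e
    simp only [map_sub, map_smul, Finsupp.sub_apply, Finsupp.smul_apply, smul_eq_mul,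
      Module.Basis.repr_self] at e'
    rw [← e', Matrix.sub_apply, hM, Matrix.one_apply, Finsupp.single_apply]
    simp only [eq_comm]

/-- `adicRep` with an arbitrary model of the fraction field. -/
theorem adicRepAux.aux {O G T : Type*} (E : Type*) [CommRing O] [IsDomain O]
    [IsDiscreteValuationRing O]
    [IsAdicComplete (maximalIdeal O) O] [Field E] [Algebra O E] [IsFractionRing O E] (h2 : (2 : O) ≠ 0) [Group G]
    [AddCommGroup T] [Module O T] [NoZeroSMulDivisors O T] [Nontrivial T]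
    (hsep : ∀ x : T, (∀ n : ℕ, x ∈ (maximalIdeal O ^ n) • (⊤ : Submodule O T)) → x = 0)
    (ρ : G →* Module.End O T) (ε : G →* Oˣ) (t : G → O)
    (hrel : ∀ g, ρ g * ρ g - t g • ρ g + (ε g : O) • 1 = 0)
    (c : G) (hc : c * c = 1) (hεc : (ε c : O) = -1)
    (𝒰 : Set (Set G)) (h𝒰 : ∀ U ∈ 𝒰, ∀ V ∈ 𝒰, ∃ X ∈ 𝒰, X ⊆ U ∩ V)
    (hsm : ∀ (x : T) (n : ℕ), ∃ U ∈ 𝒰, ∀ g ∈ U,
      ρ g x - x ∈ (maximalIdeal O ^ n) • (⊤ : Submodule O T))
    (hε : ∀ n : ℕ, ∃ U ∈ 𝒰, ∀ g ∈ U, (ε g : O) - 1 ∈ maximalIdeal O ^ n) :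
    ∃ ρ' : G →* Module.End O (Fin 2 → O),
      (∀ g, LinearMap.charpoly (ρ' g) = X ^ 2 - C (t g) * X + C (ε g : O)) ∧
      (∀ τ, ε τ = 1 → (∀ g, t (g * τ) = t g) → ρ' τ = 1) ∧
      (∀ n : ℕ, ∃ U ∈ 𝒰, ∀ g ∈ U, ∀ v : Fin 2 → O,
        ρ' g v - v ∈ (maximalIdeal O ^ n) • (⊤ : Submodule O (Fin 2 → O))) := by
  let V := E ⊗[O] T
  let ι : T →ₗ[O] V := TensorProduct.mk O E T 1
  have hloc : IsLocalizedModule (nonZeroDivisors O) ι :=
    IsLocalization.tensorProduct_isLocalizedModule _ _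
  have hφinj : Function.Injective (algebraMap O E) := IsFractionRing.injective O E
  have hφ0 : ∀ s : O, s ≠ 0 → algebraMap O E s ≠ 0 :=
    fun s hs h => hs (hφinj (by rw [h, map_zero]))
  have hι : Function.Injective ι := by
    intro x y h
    obtain ⟨s, hs⟩ := (IsLocalizedModule.eq_iff_exists (nonZeroDivisors O) ι).1 h
    have hs' : (s : O) • (x - y) = 0 := by
      rw [smul_sub, sub_eq_zero]; exact hs
    rcases smul_eq_zero.1 hs' with h | h
    · exact absurd h (nonZeroDivisors.ne_zero s.2)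
    · exact sub_eq_zero.1 h
  have hsurj : ∀ y : V, ∃ (s : O) (x : T), s ≠ 0 ∧ s • y = ι x := by
    intro y
    obtain ⟨⟨x, s⟩, h⟩ := IsLocalizedModule.surj (nonZeroDivisors O) ι y
    exact ⟨s, x, nonZeroDivisors.ne_zero s.2, h⟩
  let ρE : G →* Module.End E V := (Module.End.baseChangeHom O E T : _ →* _).comp ρ
  have hρE : ∀ g x, ρE g (ι x) = ι (ρ g x) := fun g x => LinearMap.baseChange_tmul _ _ _
  let εE : G →* Eˣ := (Units.map (algebraMap O E : O →* E)).comp ε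
  have hεE : ∀ g, ((εE g : Eˣ) : E) = algebraMap O E (ε g : O) := fun g => rfl
  have hιs : ∀ (s : O) (x : T), ι (s • x) = algebraMap O E s • ι x := by
    intro s x; rw [map_smul, algebraMap_smul]
  have hrelE : ∀ g, ρE g * ρE g - algebraMap O E (t g) • ρE g + (εE g : E) • 1 = 0 := by
    intro g
    ext x
    have := congrArg (fun f : Module.End O T => ι (f x)) (hrel g)
    simp only [LinearMap.add_apply, LinearMap.sub_apply, Module.End.mul_apply,
      LinearMap.smul_apply, Module.End.one_apply, LinearMap.zero_apply, map_add, map_sub,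
      hιs, map_zero, ← hρE] at this
    exact this
  have : Nontrivial V := hι.nontrivial
  have h2E : (2 : E) ≠ 0 := by
    have := hφ0 2 h2
    rwa [map_ofNat] at this
  rcases ctrick h2E ρE εE (fun g => algebraMap O E (t g)) hrelE c hc
    (by rw [hεE, hεc, map_neg, map_one]) with
    ⟨v, w, a, b, c', d, hli, hcv, hcw, hb, hc', hg⟩ | ⟨v, hv, hline⟩
  · exact adicRepAux.plane (E := E) (V := V) h2 hsep ρ ε t 𝒰 h𝒰 hsm ι hι hsurj ρE hρE c v w a b c' d
      hli hcv hcw hb hc' hg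
  · obtain ⟨s, x, hs, hsx⟩ := hsurj v
    rw [← algebraMap_smul E] at hsx
    refine adicRepAux.line hsep ρ ε t hrel 𝒰 h𝒰 hsm hε x ?_ ?_
    · rintro rfl
      rw [map_zero] at hsx
      rcases smul_eq_zero.1 hsx with h | h
      · exact hφ0 s hs h
      · exact hv h
    · intro g
      obtain ⟨α, hα⟩ := hline g
      obtain ⟨p, q, hq, rfl⟩ := IsFractionRing.div_surjective (A := O) α
      have hq' : q ≠ 0 := nonZeroDivisors.ne_zero hq
      refine ⟨p, q, hq', hι ?_⟩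
      rw [hιs, hιs, ← hρE, ← hsx, map_smul, hα, smul_smul, smul_smul, smul_smul]
      congr 1
      have := hφ0 q hq'
      field_simp

theorem adicRep {O G T : Type*} [CommRing O] [IsDomain O] [IsDiscreteValuationRing O]
    [IsAdicComplete (maximalIdeal O) O] (h2 : (2 : O) ≠ 0) [Group G]
    [AddCommGroup T] [Module O T] [NoZeroSMulDivisors O T] [Nontrivial T]
    (hsep : ∀ x : T, (∀ n : ℕ, x ∈ (maximalIdeal O ^ n) • (⊤ : Submodule O T)) → x = 0)
    (ρ : G →* Module.End O T) (ε : G →* Oˣ) (t : G → O)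
    (hrel : ∀ g, ρ g * ρ g - t g • ρ g + (ε g : O) • 1 = 0)
    (c : G) (hc : c * c = 1) (hεc : (ε c : O) = -1)
    (𝒰 : Set (Set G)) (h𝒰0 : 𝒰.Nonempty) (h𝒰 : ∀ U ∈ 𝒰, ∀ V ∈ 𝒰, ∃ X ∈ 𝒰, X ⊆ U ∩ V)
    (hsm : ∀ (x : T) (n : ℕ), ∃ U ∈ 𝒰, ∀ g ∈ U,
      ρ g x - x ∈ (maximalIdeal O ^ n) • (⊤ : Submodule O T))
    (hε : ∀ n : ℕ, ∃ U ∈ 𝒰, ∀ g ∈ U, (ε g : O) - 1 ∈ maximalIdeal O ^ n) :
    ∃ ρ' : G →* Module.End O (Fin 2 → O),
      (∀ g, LinearMap.charpoly (ρ' g) = X ^ 2 - C (t g) * X + C (ε g : O)) ∧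
      (∀ τ, ε τ = 1 → (∀ g, t (g * τ) = t g) → ρ' τ = 1) ∧
      (∀ n : ℕ, ∃ U ∈ 𝒰, ∀ g ∈ U, ∀ v : Fin 2 → O,
        ρ' g v - v ∈ (maximalIdeal O ^ n) • (⊤ : Submodule O (Fin 2 → O))) :=
  adicRepAux.aux (FractionRing O) h2 hsep ρ ε t hrel c hc hεc 𝒰 h𝒰 hsm hε

end Fermat.Agent.GR.Adic
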