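/-
GR / Adic layer (S30, S31), package [RelT]:
on a torsion free, separated `O[G_ℚ]`-module which is smooth modulo every `𝔪^n` and satisfies the
Eichler–Shimura relation at almost all Frobenius elements, `g + ε(g) g⁻¹` is a scalar for every `g`.
-/
import Mathlib
import Fermat.Agent.GR.Adic.Defs

set_option autoImplicit false
set_option linter.unusedSectionVars false

open IsLocalRing Polynomial

namespace Fermat.Agent.GR.Adic

/-! ## Dickson polynomials -/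

section Dickson

variable {R : Type*} [Ring R]

/-- `φ^j + φ'^j = D_j(φ + φ', l)` if `φ φ' = φ' φ = l`. -/
theorem rel_dickson (φ φ' : R) (l : ℤ) (h1 : φ * φ' = (l : R)) (h2 : φ' * φ = (l : R)) (j : ℕ) :
    aeval (φ + φ') (dickson 1 l j) = φ ^ j + φ' ^ j := by
  induction j using Nat.twoStepInduction with
  | zero =>
    simp only [dickson_zero, pow_zero]
    norm_num
    exact map_ofNat (aeval (φ + φ')) 2
  | one => simp
  | more n ih0 ih1 =>
    rw [dickson_add_two, map_sub, map_mul, map_mul, aeval_X, aeval_C, ih0, ih1]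
    have e1 : φ * φ' ^ (n + 1) = (l : R) * φ' ^ n := by rw [pow_succ', ← mul_assoc, h1]
    have e2 : φ' * φ ^ (n + 1) = (l : R) * φ ^ n := by rw [pow_succ', ← mul_assoc, h2]
    have e3 : algebraMap ℤ R l = (l : R) := rfl
    rw [e3, add_mul, mul_add, mul_add, e1, e2, ← pow_succ', ← pow_succ', mul_add]
    abel

end Dickson

/-! ## representations: powers of an element satisfying a quadratic relation -/

section Rep

variable {O G T : Type*} [CommRing O] [Group G] [AddCommGroup T] [Module O T]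
  (ρ : G →* Module.End O T)

theorem relT_mul_inv (σ : G) : ρ σ * ρ σ⁻¹ = 1 := by
  rw [← map_mul, mul_inv_cancel, map_one]

theorem relT_inv_mul (σ : G) : ρ σ⁻¹ * ρ σ = 1 := by
  rw [← map_mul, inv_mul_cancel, map_one]

/-- `σ² - a σ + ℓ = 0` means `σ + ℓ σ⁻¹ = a`. -/
theorem relT_add_eq {σ : G} {a e : O} (h : ρ σ * ρ σ - a • ρ σ + e • 1 = 0) :
    ρ σ + e • ρ σ⁻¹ = a • 1 := by
  have h' := congrArg (· * ρ σ⁻¹) h
  simp only [add_mul, sub_mul, zero_mul, mul_assoc, relT_mul_inv, mul_one, smul_mul_assoc,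
    one_mul] at h'
  rw [← sub_eq_zero, ← h']
  abel

/-- conversely. -/
theorem relT_of_add_eq {σ : G} {a e : O} (h : ρ σ + e • ρ σ⁻¹ = a • 1) :
    ρ σ * ρ σ - a • ρ σ + e • 1 = 0 := by
  have h' := congrArg (· * ρ σ) h
  simp only [add_mul, smul_mul_assoc, relT_inv_mul, one_mul] at h'
  rw [← h']
  abel

/-- powers: `σ^j + ℓ^j σ^{-j} = D_j(a, ℓ)`. -/
theorem relT_pow {σ : G} {a : O} {ℓ : ℕ} (h : ρ σ * ρ σ - a • ρ σ + (ℓ : O) • 1 = 0) (j : ℕ) :
    ρ (σ ^ j) + ((ℓ : O) ^ j) • ρ (σ ^ j)⁻¹ = (aeval a (dickson 1 (ℓ : ℤ) j)) • 1 := by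
  have h0 := relT_add_eq ρ h
  have h1 : ρ σ * ((ℓ : O) • ρ σ⁻¹) = ((ℓ : ℤ) : Module.End O T) := by
    rw [mul_smul_comm, relT_mul_inv, Int.cast_natCast, Nat.cast_smul_eq_nsmul, nsmul_one]
  have h2 : ((ℓ : O) • ρ σ⁻¹) * ρ σ = ((ℓ : ℤ) : Module.End O T) := by
    rw [smul_mul_assoc, relT_inv_mul, Int.cast_natCast, Nat.cast_smul_eq_nsmul, nsmul_one]
  have h3 := rel_dickson _ _ _ h1 h2 j
  rw [h0, ← Algebra.algebraMap_eq_smul_one, aeval_algebraMap_apply,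
    Algebra.algebraMap_eq_smul_one] at h3
  rw [h3, _root_.smul_pow, ← map_pow, ← map_pow, inv_pow]

end Rep

/-! ## modules over a discrete valuation ring -/

section DVR

variable {O T : Type*} [CommRing O] [IsDomain O] [IsDiscreteValuationRing O]
  [AddCommGroup T] [Module O T]

theorem relT_mem_iff {ϖ : O} (hϖ : Irreducible ϖ) (n : ℕ) (x : T) :
    x ∈ (maximalIdeal O ^ n) • (⊤ : Submodule O T) ↔ ∃ z : T, ϖ ^ n • z = x := by
  rw [hϖ.maximalIdeal_eq, Ideal.span_singleton_pow, Submodule.ideal_span_singleton_smul,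
    Submodule.mem_smul_pointwise_iff_exists]
  simp

theorem relT_map_mem (f : Module.End O T) {n : ℕ} {x : T}
    (hx : x ∈ (maximalIdeal O ^ n) • (⊤ : Submodule O T)) :
    f x ∈ (maximalIdeal O ^ n) • (⊤ : Submodule O T) := by
  have h1 : f x ∈ ((maximalIdeal O ^ n) • (⊤ : Submodule O T)).map f := ⟨x, hx, rfl⟩
  rw [Submodule.map_smul''] at h1
  exact Submodule.smul_mono le_rfl le_top h1

theorem relT_mono {m n : ℕ} (h : m ≤ n) :
    (maximalIdeal O ^ n) • (⊤ : Submodule O T) ≤ (maximalIdeal O ^ m) • (⊤ : Submodule O T) :=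
  Submodule.smul_mono_left (Ideal.pow_le_pow_right h)

/-- if `x₀ ∉ 𝔪^c T` and `s x₀ ∈ 𝔪^(k+c) T` then `s ∈ 𝔪^k`. -/
theorem relT_key [NoZeroSMulDivisors O T] {x₀ : T} {c k : ℕ}
    (hx₀ : x₀ ∉ (maximalIdeal O ^ c) • (⊤ : Submodule O T)) {s : O}
    (hs : s • x₀ ∈ (maximalIdeal O ^ (k + c)) • (⊤ : Submodule O T)) : s ∈ maximalIdeal O ^ k := by
  obtain ⟨ϖ, hϖ⟩ := IsDiscreteValuationRing.exists_irreducible O
  by_cases hs0 : s = 0
  · rw [hs0]; exact Ideal.zero_mem _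
  obtain ⟨v, u, rfl⟩ := IsDiscreteValuationRing.eq_unit_mul_pow_irreducible hs0 hϖ
  by_cases hv : k ≤ v
  · rw [hϖ.maximalIdeal_eq, Ideal.span_singleton_pow, Ideal.mem_span_singleton]
    exact Dvd.dvd.mul_left (pow_dvd_pow _ hv) _
  exfalso
  apply hx₀
  push Not at hv
  obtain ⟨z, hz⟩ := (relT_mem_iff hϖ _ _).1 hs
  obtain ⟨d, hd⟩ : ∃ d, k + c = v + (c + d) := ⟨k - v, by omega⟩
  rw [hd, pow_add, mul_smul, mul_comm, mul_smul] at hz
  have h1 : ϖ ^ (c + d) • z = (u : O) • x₀ :=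
    smul_right_injective T (pow_ne_zero v hϖ.ne_zero) hz
  rw [relT_mem_iff hϖ]
  refine ⟨ϖ ^ d • ((↑u⁻¹ : O) • z), ?_⟩
  rw [smul_smul, ← pow_add, smul_comm, h1, smul_smul, Units.inv_mul, one_smul]

end DVR

/-! ## approximation by powers of Frobenius elements -/

section Approx

variable {O G T : Type*} [CommRing O] [IsDomain O] [IsDiscreteValuationRing O] [Group G]
  [AddCommGroup T] [Module O T] (ρ : G →* Module.End O T) (ε : G →* Oˣ)

theorem relT_approx_one (g σ : G) (j ℓ : ℕ) (a : O)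
    (hES : ρ σ * ρ σ - a • ρ σ + (ℓ : O) • 1 = 0) (hεσ : (ε σ : O) = ℓ) (n : ℕ) (x : T)
    (h1 : ρ (g⁻¹ * σ ^ j) x - x ∈ (maximalIdeal O ^ n) • (⊤ : Submodule O T))
    (h2 : ρ (g⁻¹ * σ ^ j)⁻¹ (ρ g⁻¹ x) - ρ g⁻¹ x ∈ (maximalIdeal O ^ n) • (⊤ : Submodule O T))
    (h3 : (ε (g⁻¹ * σ ^ j) : O) - 1 ∈ maximalIdeal O ^ n) :
    (ρ g + (ε g : O) • ρ g⁻¹) x - (aeval a (dickson 1 (ℓ : ℤ) j)) • x ∈
      (maximalIdeal O ^ n) • (⊤ : Submodule O T) := by
  obtain ⟨h, hh⟩ : ∃ h, h = g⁻¹ * σ ^ j := ⟨_, rfl⟩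
  rw [← hh] at h1 h2 h3
  have e1 : σ ^ j = g * h := by rw [hh]; group
  have e2 : (σ ^ j)⁻¹ = h⁻¹ * g⁻¹ := by rw [e1]; group
  have e3 : (ℓ : O) ^ j = (ε g : O) * (ε h : O) := by
    rw [← hεσ, ← Units.val_pow_eq_pow_val, ← map_pow, e1, map_mul, Units.val_mul]
  have e4 : (aeval a (dickson 1 (ℓ : ℤ) j)) • x =
      ρ g (ρ h x) + ((ε g : O) * (ε h : O)) • ρ h⁻¹ (ρ g⁻¹ x) := by
    have := congrArg (fun f : Module.End O T => f x) (relT_pow ρ hES j)
    simp only [LinearMap.add_apply, LinearMap.smul_apply, Module.End.one_apply] at this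
    rw [← this, e2, e1, e3, map_mul, map_mul]
    rfl
  have e5 : (ρ g + (ε g : O) • ρ g⁻¹) x - (aeval a (dickson 1 (ℓ : ℤ) j)) • x =
      -(ρ g (ρ h x - x)) - ((ε g : O) * (ε h : O)) • (ρ h⁻¹ (ρ g⁻¹ x) - ρ g⁻¹ x) -
        ((ε g : O) * ((ε h : O) - 1)) • ρ g⁻¹ x := by
    rw [e4, LinearMap.add_apply, LinearMap.smul_apply, map_sub, smul_sub, mul_sub, sub_smul,
      mul_one]
    abel
  rw [e5]
  refine Submodule.sub_mem _ (Submodule.sub_mem _ (Submodule.neg_mem _ (relT_map_mem _ h1))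
    (Submodule.smul_mem _ _ h2)) ?_
  exact Submodule.smul_mem_smul (Ideal.mul_mem_left _ _ h3) trivial

end Approx

section Main

variable {O T : Type*} [CommRing O] [IsDomain O] [IsDiscreteValuationRing O]
    [AddCommGroup T] [Module O T]

theorem relT_fixes_inv {L : IntermediateField ℚ (AlgebraicClosure ℚ)} {σ : GQ}
    (h : FixesLevel L σ) : FixesLevel L σ⁻¹ := by
  intro x hx
  have := h x hx
  calc σ⁻¹ x = σ⁻¹ (σ x) := by rw [this]
    _ = x := σ.symm_apply_apply x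

theorem relT_fixes_mono {L L' : IntermediateField ℚ (AlgebraicClosure ℚ)} (hL : L ≤ L') {σ : GQ}
    (h : FixesLevel L' σ) : FixesLevel L σ := fun x hx => h x (hL hx)

/-- simultaneous approximation for two vectors. -/
theorem relT_approx (ρ : GQ →* Module.End O T) (ε : GQ →* Oˣ)
    (hsm : ∀ (x : T) (n : ℕ), ∃ L : IntermediateField ℚ (AlgebraicClosure ℚ),
      FiniteDimensional ℚ L ∧ ∀ σ : GQ, FixesLevel L σ →
        ρ σ x - x ∈ (maximalIdeal O ^ n) • (⊤ : Submodule O T))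
    (hε : ∀ n : ℕ, ∃ L : IntermediateField ℚ (AlgebraicClosure ℚ),
      FiniteDimensional ℚ L ∧ ∀ σ : GQ, FixesLevel L σ → (ε σ : O) - 1 ∈ maximalIdeal O ^ n)
    (hcheb : WeakCheb) (B : Finset ℕ) (a : ℕ → O)
    (hes : ∀ ℓ : ℕ, ℓ.Prime → ℓ ∉ B → ∀ A : ValuationSubring (AlgebraicClosure ℚ),
      A.LiesOverPrime ℓ → ∀ σ : GQ, A.IsFrobeniusAt σ ℓ →
        (ε σ : O) = ℓ ∧ ρ σ * ρ σ - a ℓ • ρ σ + (ℓ : O) • 1 = 0)
    (g : GQ) (n : ℕ) (x y : T) :
    ∃ s : O,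
      (ρ g + (ε g : O) • ρ g⁻¹) x - s • x ∈ (maximalIdeal O ^ n) • (⊤ : Submodule O T) ∧
      (ρ g + (ε g : O) • ρ g⁻¹) y - s • y ∈ (maximalIdeal O ^ n) • (⊤ : Submodule O T) := by
  obtain ⟨L₁, f₁, h₁⟩ := hsm x n
  obtain ⟨L₂, f₂, h₂⟩ := hsm (ρ g⁻¹ x) n
  obtain ⟨L₃, f₃, h₃⟩ := hsm y n
  obtain ⟨L₄, f₄, h₄⟩ := hsm (ρ g⁻¹ y) n
  obtain ⟨L₅, f₅, h₅⟩ := hε n
  set L := L₁ ⊔ L₂ ⊔ L₃ ⊔ L₄ ⊔ L₅ with hL
  have fL : FiniteDimensional ℚ L := by
    have := IntermediateField.finiteDimensional_sup L₁ L₂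
    have := IntermediateField.finiteDimensional_sup (L₁ ⊔ L₂) L₃
    have := IntermediateField.finiteDimensional_sup (L₁ ⊔ L₂ ⊔ L₃) L₄
    exact IntermediateField.finiteDimensional_sup (L₁ ⊔ L₂ ⊔ L₃ ⊔ L₄) L₅
  have l₁ : L₁ ≤ L := le_sup_left.trans (le_sup_left.trans (le_sup_left.trans le_sup_left))
  have l₂ : L₂ ≤ L := le_sup_right.trans (le_sup_left.trans (le_sup_left.trans le_sup_left))
  have l₃ : L₃ ≤ L := le_sup_right.trans (le_sup_left.trans le_sup_left)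
  have l₄ : L₄ ≤ L := le_sup_right.trans le_sup_left
  have l₅ : L₅ ≤ L := le_sup_right
  obtain ⟨ℓ, A, σ, j, hℓ, hℓB, hA, hσ, hj⟩ := hcheb L fL B g
  obtain ⟨hεσ, hES⟩ := hes ℓ hℓ hℓB A hA σ hσ
  have hfix : FixesLevel L (g⁻¹ * σ ^ j) := by
    intro z hz
    show g⁻¹ ((σ ^ j) z) = z
    rw [hj z hz]
    exact g.symm_apply_apply z
  refine ⟨aeval (a ℓ) (dickson 1 (ℓ : ℤ) j), ?_, ?_⟩
  · exact relT_approx_one ρ ε g σ j ℓ (a ℓ) hES hεσ n x (h₁ _ (relT_fixes_mono l₁ hfix))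
      (h₂ _ (relT_fixes_inv (relT_fixes_mono l₂ hfix))) (h₅ _ (relT_fixes_mono l₅ hfix))
  · exact relT_approx_one ρ ε g σ j ℓ (a ℓ) hES hεσ n y (h₃ _ (relT_fixes_mono l₃ hfix))
      (h₄ _ (relT_fixes_inv (relT_fixes_mono l₄ hfix))) (h₅ _ (relT_fixes_mono l₅ hfix))

end Main

/-- **[RelT]** -/
theorem exists_trace_fn {O T : Type*} [CommRing O] [IsDomain O] [IsDiscreteValuationRing O]
    [IsAdicComplete (maximalIdeal O) O]
    [AddCommGroup T] [Module O T] [NoZeroSMulDivisors O T] [Nontrivial T]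
    (hsep : ∀ x : T, (∀ n : ℕ, x ∈ (maximalIdeal O ^ n) • (⊤ : Submodule O T)) → x = 0)
    (ρ : GQ →* Module.End O T) (ε : GQ →* Oˣ)
    (hsm : ∀ (x : T) (n : ℕ), ∃ L : IntermediateField ℚ (AlgebraicClosure ℚ),
      FiniteDimensional ℚ L ∧ ∀ σ : GQ, FixesLevel L σ →
        ρ σ x - x ∈ (maximalIdeal O ^ n) • (⊤ : Submodule O T))
    (hε : ∀ n : ℕ, ∃ L : IntermediateField ℚ (AlgebraicClosure ℚ),
      FiniteDimensional ℚ L ∧ ∀ σ : GQ, FixesLevel L σ → (ε σ : O) - 1 ∈ maximalIdeal O ^ n)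
    (hcheb : WeakCheb) (B : Finset ℕ) (a : ℕ → O)
    (hes : ∀ ℓ : ℕ, ℓ.Prime → ℓ ∉ B → ∀ A : ValuationSubring (AlgebraicClosure ℚ),
      A.LiesOverPrime ℓ → ∀ σ : GQ, A.IsFrobeniusAt σ ℓ →
        (ε σ : O) = ℓ ∧ ρ σ * ρ σ - a ℓ • ρ σ + (ℓ : O) • 1 = 0) :
    ∃ t : GQ → O, ∀ g, ρ g * ρ g - t g • ρ g + (ε g : O) • 1 = 0 := by
  have key : ∀ g, ∃ t : O, ρ g + (ε g : O) • ρ g⁻¹ = t • 1 := by
    intro g
    obtain ⟨X, hX⟩ : ∃ X : Module.End O T, X = ρ g + (ε g : O) • ρ g⁻¹ := ⟨_, rfl⟩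
    obtain ⟨x₀, hx₀⟩ := exists_ne (0 : T)
    obtain ⟨c, hc⟩ : ∃ c, x₀ ∉ (maximalIdeal O ^ c) • (⊤ : Submodule O T) := by
      by_contra h
      push Not at h
      exact hx₀ (hsep x₀ h)
    have happ := fun (n : ℕ) (y : T) => relT_approx ρ ε hsm hε hcheb B a hes g n x₀ y
    simp only [← hX] at happ
    choose s hs1 hs2 using happ
    -- comparison of two approximations
    have hcmp : ∀ (m n : ℕ) (y z : T), m ≤ n → s (m + c) y - s (n + c) z ∈ maximalIdeal O ^ m := by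
      intro m n y z hmn
      apply relT_key hc
      have e : (s (m + c) y - s (n + c) z) • x₀ =
          (X x₀ - s (n + c) z • x₀) - (X x₀ - s (m + c) y • x₀) := by
        rw [sub_smul]; abel
      rw [e]
      exact Submodule.sub_mem _ (relT_mono (by omega) (hs1 (n + c) z)) (hs1 (m + c) y)
    obtain ⟨t, ht⟩ := IsPrecomplete.prec (I := maximalIdeal O) (M := O) inferInstance
      (f := fun n => s (n + c) x₀) (by
        intro m n hmn
        rw [SModEq.sub_mem, smul_eq_mul, Ideal.mul_top]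
        exact hcmp m n x₀ x₀ hmn)
    refine ⟨t, ?_⟩
    rw [← hX]
    refine LinearMap.ext fun y => ?_
    rw [LinearMap.smul_apply, Module.End.one_apply, ← sub_eq_zero]
    apply hsep
    intro n
    have h1 : s (n + c) y - t ∈ maximalIdeal O ^ n := by
      have h2 := ht n
      rw [SModEq.sub_mem, smul_eq_mul, Ideal.mul_top] at h2
      have e : s (n + c) y - t = (s (n + c) y - s (n + c) x₀) + (s (n + c) x₀ - t) := by ring
      rw [e]
      exact Ideal.add_mem _ (hcmp n n y x₀ le_rfl) h2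
    have e : X y - t • y = (X y - s (n + c) y • y) + (s (n + c) y - t) • y := by
      rw [sub_smul]; abel
    rw [e]
    exact Submodule.add_mem _ (relT_mono (by omega) (hs2 (n + c) y))
      (Submodule.smul_mem_smul h1 trivial)
  choose t ht using key
  exact ⟨t, fun g => relT_of_add_eq ρ (ht g)⟩

/-- uniqueness of the trace scalar -/
theorem trace_fn_unique {O G T : Type*} [CommRing O] [Group G]
    [AddCommGroup T] [Module O T] [NoZeroSMulDivisors O T] [Nontrivial T]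
    (ρ : G →* Module.End O T) (g : G) (e t t' : O)
    (h : ρ g * ρ g - t • ρ g + e • 1 = 0) (h' : ρ g * ρ g - t' • ρ g + e • 1 = 0) : t = t' := by
  have h1 := relT_add_eq ρ h
  have h2 := relT_add_eq ρ h'
  obtain ⟨x, hx⟩ := exists_ne (0 : T)
  have h3 : t • x = t' • x := by
    have := congrArg (fun f : Module.End O T => f x) (h1.symm.trans h2)
    simpa using this
  rw [← sub_eq_zero, ← sub_smul] at h3
  rcases NoZeroSMulDivisors.eq_zero_or_eq_zero_of_smul_eq_zero h3 with h4 | h4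
  · exact sub_eq_zero.1 h4
  · exact absurd h4 hx

end Fermat.Agent.GR.Adic
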