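import Mathlib
import Fermat.Agent.GR.Adic.Core
import Fermat.Agent.GAL.HK.Eigen

/-!
# GR/Adic [Tate] : from `Core M p` and an eigensystem to a torsion free `O[G_ℚ]`-module

`Mo := O ⊗[ℤ] W`, `X ⊆ Mo` the eigenspace, `T := {w : ℕ → X | w 0 = 0, p • w (m+1) = w m}`.
-/

set_option autoImplicit false

open IsLocalRing Polynomial TensorProduct

namespace Fermat.Agent.GR.Adic

/-! ## facts on discrete valuation rings -/

section DVR

variable {O : Type*} [CommRing O] [IsDomain O] [IsDiscreteValuationRing O]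

theorem exists_dvd_pow_of_ne_zero {q c : O} (hq : q ∈ maximalIdeal O) (hc : c ≠ 0) :
    ∃ k : ℕ, c ∣ q ^ k := by
  obtain ⟨ϖ, hϖ⟩ := IsDiscreteValuationRing.exists_irreducible O
  have hne : Ideal.span {c} ≠ ⊥ := by
    rwa [ne_eq, Ideal.span_singleton_eq_bot]
  obtain ⟨n, hn⟩ := IsDiscreteValuationRing.ideal_eq_span_pow_irreducible hne hϖ
  refine ⟨n, ?_⟩
  rw [hϖ.maximalIdeal_eq, Ideal.mem_span_singleton] at hq
  rw [← Ideal.mem_span_singleton, hn, Ideal.mem_span_singleton]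
  exact pow_dvd_pow_of_dvd hq n

theorem exists_maximalIdeal_pow_le_span {c : O} (hc : c ≠ 0) :
    ∃ n : ℕ, maximalIdeal O ^ n ≤ Ideal.span {c} := by
  obtain ⟨ϖ, hϖ⟩ := IsDiscreteValuationRing.exists_irreducible O
  have hne : Ideal.span {c} ≠ ⊥ := by
    rwa [ne_eq, Ideal.span_singleton_eq_bot]
  obtain ⟨n, hn⟩ := IsDiscreteValuationRing.ideal_eq_span_pow_irreducible hne hϖ
  refine ⟨n, ?_⟩
  rw [hn, hϖ.maximalIdeal_eq, Ideal.span_singleton_pow]

theorem eq_zero_of_forall_pow_dvd {q c : O} (hq : q ∈ maximalIdeal O) (h : ∀ m : ℕ, q ^ m ∣ c) :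
    c = 0 := by
  have h1 : c ∈ ⨅ i : ℕ, maximalIdeal O ^ i := by
    rw [Ideal.mem_iInf]
    intro i
    exact Ideal.mem_of_dvd _ (h i) (Ideal.pow_mem_pow hq i)
  rw [Ideal.iInf_pow_eq_bot_of_isLocalRing _ (Ideal.IsPrime.ne_top inferInstance)] at h1
  exact h1

end DVR

/-! ## the abstract Tate module -/

section TateSub

variable {O Mo : Type*} [CommRing O] [AddCommGroup Mo] [Module O Mo]

/-- compatible systems `w 0 = 0`, `q • w (m+1) = w m` in the submodule `X`. -/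
def tateSub (q : O) (X : Submodule O Mo) : Submodule O (ℕ → Mo) where
  carrier := {w | w 0 = 0 ∧ (∀ m, q • w (m + 1) = w m) ∧ ∀ m, w m ∈ X}
  zero_mem' := ⟨rfl, fun _ => smul_zero _, fun _ => X.zero_mem⟩
  add_mem' := fun {v w} hv hw => ⟨by simp [hv.1, hw.1],
    fun m => by simp only [Pi.add_apply, smul_add, hv.2.1 m, hw.2.1 m],
    fun m => X.add_mem (hv.2.2 m) (hw.2.2 m)⟩
  smul_mem' := fun c w hw => ⟨by simp [hw.1],
    fun m => by simp only [Pi.smul_apply, smul_comm q c, hw.2.1 m],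
    fun m => X.smul_mem c (hw.2.2 m)⟩

variable {q : O} {X : Submodule O Mo}

theorem mem_tateSub {w : ℕ → Mo} :
    w ∈ tateSub q X ↔ w 0 = 0 ∧ (∀ m, q • w (m + 1) = w m) ∧ ∀ m, w m ∈ X := Iff.rfl

theorem tateSub_pow_smul {w : ℕ → Mo} (hw : w ∈ tateSub q X) (k m : ℕ) :
    q ^ k • w (m + k) = w m := by
  induction k with
  | zero => simp
  | succ k ih => rw [pow_succ, mul_smul, ← add_assoc, hw.2.1, ih]

theorem tateSub_pow_smul_self {w : ℕ → Mo} (hw : w ∈ tateSub q X) (k : ℕ) :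
    q ^ k • w k = 0 := by
  have := tateSub_pow_smul hw k 0
  rwa [zero_add, hw.1] at this

theorem tateSub_shift_mem {w : ℕ → Mo} (hw : w ∈ tateSub q X) {n : ℕ} (hn : w n = 0) :
    (fun m => w (m + n)) ∈ tateSub q X :=
  ⟨by simpa using hn, fun m => by
    have := hw.2.1 (m + n)
    rwa [show m + n + 1 = m + 1 + n by ring] at this, fun m => hw.2.2 _⟩

theorem tateSub_eq_zero_of_pow_smul {w : ℕ → Mo} (hw : w ∈ tateSub q X) {k : ℕ}
    (h : q ^ k • w = 0) : w = 0 := by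
  funext m
  rw [← tateSub_pow_smul hw k m]
  exact congrFun h (m + k)

/-- an element of the Tate module whose `n`-th component vanishes is divisible by `q ^ n`. -/
theorem tateSub_exists_eq_pow_smul (w : tateSub q X) {n : ℕ} (hn : (w : ℕ → Mo) n = 0) :
    ∃ v : tateSub q X, w = q ^ n • v := by
  refine ⟨⟨_, tateSub_shift_mem w.2 hn⟩, ?_⟩
  ext m
  exact (tateSub_pow_smul w.2 n m).symm

/-- the endomorphism of the Tate module induced by an endomorphism preserving `X`. -/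
def tateMap (q : O) (X : Submodule O Mo) (f : Module.End O Mo) (hf : ∀ z ∈ X, f z ∈ X) :
    Module.End O (tateSub q X) :=
  (LinearMap.compLeft f ℕ).restrict (p := tateSub q X) (q := tateSub q X) fun w hw =>
    ⟨by simp [hw.1], fun m => by
      simp only [LinearMap.compLeft_apply, Function.comp_apply]
      rw [← map_smul, hw.2.1], fun m => hf _ (hw.2.2 m)⟩

@[simp]
theorem tateMap_apply (f : Module.End O Mo) (hf : ∀ z ∈ X, f z ∈ X) (w : tateSub q X) (m : ℕ) :
    (tateMap q X f hf w : ℕ → Mo) m = f ((w : ℕ → Mo) m) := rfl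

end TateSub

section TateDVR

variable {O Mo : Type*} [CommRing O] [IsDomain O] [IsDiscreteValuationRing O]
  [AddCommGroup Mo] [Module O Mo] {q : O} {X : Submodule O Mo}

theorem tateSub_noZeroSMulDivisors (hq : q ∈ maximalIdeal O) :
    NoZeroSMulDivisors O (tateSub q X) := by
  refine ⟨fun {c w} h => ?_⟩
  by_cases hc : c = 0
  · exact Or.inl hc
  · right
    obtain ⟨k, d, hd⟩ := exists_dvd_pow_of_ne_zero hq hc
    apply Subtype.ext
    apply tateSub_eq_zero_of_pow_smul w.2 (k := k)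
    have : c • (w : ℕ → Mo) = 0 := congrArg Subtype.val h
    rw [hd, mul_comm, mul_smul, this, smul_zero]

theorem tateSub_sep (hq0 : q ≠ 0) (x : tateSub q X)
    (h : ∀ n : ℕ, x ∈ (maximalIdeal O ^ n) • (⊤ : Submodule O (tateSub q X))) : x = 0 := by
  apply Subtype.ext
  funext j
  obtain ⟨n, hn⟩ := exists_maximalIdeal_pow_le_span (pow_ne_zero j hq0)
  have h1 : x ∈ Ideal.span {q ^ j} • (⊤ : Submodule O (tateSub q X)) :=
    Submodule.smul_mono_left hn (h n)
  rw [Submodule.ideal_span_singleton_smul] at h1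
  obtain ⟨y, -, rfl⟩ := (Submodule.mem_smul_pointwise_iff_exists _ _ _).mp h1
  exact tateSub_pow_smul_self y.2 j

theorem tateSub_mem_pow_smul_top (hq : q ∈ maximalIdeal O) (w : tateSub q X) {n : ℕ}
    (hn : (w : ℕ → Mo) n = 0) :
    w ∈ (maximalIdeal O ^ n) • (⊤ : Submodule O (tateSub q X)) := by
  obtain ⟨v, rfl⟩ := tateSub_exists_eq_pow_smul w hn
  exact Submodule.smul_mem_smul (Ideal.pow_mem_pow hq n) Submodule.mem_top

end TateDVR

/-! ## an integral eigenvector -/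

section Eigen

variable {O Λ : Type*} [CommRing O] [IsDomain O] [AddCommGroup Λ]
  (E : Type*) [Field E] [Algebra O E] [IsFractionRing O E]

/-- the natural map `O ⊗ Λ → Frac O ⊗ Λ`. -/
noncomputable def toFrac (O Λ E : Type*) [CommRing O] [AddCommGroup Λ] [Field E]
    [Algebra O E] : O ⊗[ℤ] Λ →ₗ[O] E ⊗[ℤ] Λ :=
  TensorProduct.AlgebraTensorModule.map (Algebra.linearMap O E) LinearMap.id

omit [IsDomain O] [IsFractionRing O E] in
@[simp]
theorem toFrac_tmul (a : O) (x : Λ) :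
    toFrac O Λ E (a ⊗ₜ[ℤ] x) = algebraMap O E a ⊗ₜ[ℤ] x := rfl

omit [IsDomain O] [IsFractionRing O E] in
theorem toFrac_baseChange (f : Module.End ℤ Λ) (z : O ⊗[ℤ] Λ) :
    toFrac O Λ E (f.baseChange O z) = f.baseChange E (toFrac O Λ E z) := by
  induction z using TensorProduct.induction_on with
  | zero => simp
  | tmul a x => simp
  | add a b ha hb => simp only [map_add, ha, hb]

omit [IsDomain O] in
theorem toFrac_injective [Module.Free ℤ Λ] : Function.Injective (toFrac O Λ E) := by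
  have h := Module.Flat.rTensor_preserves_injective_linearMap (M := Λ)
    ((Algebra.linearMap O E).restrictScalars ℤ) (IsFractionRing.injective O E)
  intro a b hab
  apply h
  have key : ∀ z : O ⊗[ℤ] Λ, LinearMap.rTensor Λ
      ((Algebra.linearMap O E).restrictScalars ℤ) z = toFrac O Λ E z := by
    intro z
    induction z using TensorProduct.induction_on with
    | zero => simp
    | tmul a x => simp
    | add a b ha hb => simp only [map_add, ha, hb]
  rw [key, key, hab]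

theorem exists_toFrac_eq_smul (v : E ⊗[ℤ] Λ) :
    ∃ (d : O) (e : O ⊗[ℤ] Λ), d ≠ 0 ∧ toFrac O Λ E e = d • v := by
  induction v using TensorProduct.induction_on with
  | zero => exact ⟨1, 0, one_ne_zero, by simp⟩
  | tmul x y =>
    obtain ⟨n, d, hd, rfl⟩ := IsFractionRing.div_surjective (A := O) x
    have hd0 : d ≠ 0 := nonZeroDivisors.ne_zero hd
    refine ⟨d, n ⊗ₜ y, hd0, ?_⟩
    rw [toFrac_tmul, TensorProduct.smul_tmul', Algebra.smul_def,
      mul_div_cancel₀ _ ((map_ne_zero_iff _ (IsFractionRing.injective O E)).mpr hd0)]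
  | add a b ha hb =>
    obtain ⟨d₁, e₁, h₁, h₁'⟩ := ha
    obtain ⟨d₂, e₂, h₂, h₂'⟩ := hb
    refine ⟨d₁ * d₂, d₂ • e₁ + d₁ • e₂, mul_ne_zero h₁ h₂, ?_⟩
    rw [map_add, map_smul, map_smul, h₁', h₂', smul_add, mul_smul, mul_smul, smul_comm d₂ d₁]

include E in
theorem exists_eigenvector_integral_aux {𝕋 : Type*} [CommRing 𝕋] [Module.Free ℤ Λ]
    [Module.Finite ℤ Λ]
    (act : 𝕋 →+* Module.End ℤ Λ) (hact : Function.Injective act) (χ : 𝕋 →+* O) :
    ∃ e : O ⊗[ℤ] Λ, e ≠ 0 ∧ ∀ t : 𝕋, (act t).baseChange O e = χ t • e := by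
  obtain ⟨v, hv0, hv⟩ := Fermat.Agent.GAL.HK.exists_eigenvector act hact
    ((algebraMap O E).comp χ)
  obtain ⟨d, e, hd, he⟩ := exists_toFrac_eq_smul (O := O) E v
  refine ⟨e, ?_, fun t => ?_⟩
  · rintro rfl
    rw [map_zero, ← algebraMap_smul E d v] at he
    rcases smul_eq_zero.mp he.symm with h | h
    · exact hd ((map_eq_zero_iff _ (IsFractionRing.injective O E)).mp h)
    · exact hv0 h
  · apply toFrac_injective E
    rw [toFrac_baseChange, map_smul, he, ← algebraMap_smul E d v, map_smul, hv,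
      ← algebraMap_smul E (χ t), smul_comm]
    rfl

/-- the eigensystem `χ` occurs in `O ⊗ Λ`. -/
theorem exists_eigenvector_integral {𝕋 : Type*} [CommRing 𝕋] [Module.Free ℤ Λ] [Module.Finite ℤ Λ]
    (act : 𝕋 →+* Module.End ℤ Λ) (hact : Function.Injective act) (χ : 𝕋 →+* O) :
    ∃ e : O ⊗[ℤ] Λ, e ≠ 0 ∧ ∀ t : 𝕋, (act t).baseChange O e = χ t • e :=
  exists_eigenvector_integral_aux (FractionRing O) act hact χ

end Eigen

/-! ## nonvanishing -/

section Nonvanishing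

theorem exists_eq_smul_of_baseChange_eq_zero {O L W : Type*} [CommRing O] [Module.Flat ℤ O]
    [AddCommGroup L] [AddCommGroup W] (κ : L →ₗ[ℤ] W) (n : ℕ)
    (hker : ∀ x : L, κ x = 0 ↔ ∃ y : L, x = n • y) (e : O ⊗[ℤ] L)
    (h : κ.baseChange O e = 0) : ∃ e' : O ⊗[ℤ] L, e = (n : O) • e' := by
  have hex : Function.Exact ((n : ℤ) • (LinearMap.id : L →ₗ[ℤ] L)) κ := by
    intro x
    rw [hker x]
    constructor
    · rintro ⟨y, rfl⟩
      exact ⟨y, by simp⟩
    · rintro ⟨y, rfl⟩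
      exact ⟨y, by simp⟩
  have hex' := Module.Flat.lTensor_exact O hex
  rw [LinearMap.baseChange_eq_ltensor] at h
  obtain ⟨e', rfl⟩ := (hex' e).mp h
  refine ⟨e', ?_⟩
  rw [LinearMap.lTensor_smul, LinearMap.lTensor_id, LinearMap.smul_apply, LinearMap.id_apply,
    natCast_zsmul]
  exact (Nat.cast_smul_eq_nsmul O n e').symm

theorem eq_zero_of_forall_exists_pow_smul {O N : Type*} [CommRing O] [IsDomain O]
    [IsDiscreteValuationRing O] [AddCommGroup N] [Module O N] [Module.Free O N] {q : O}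
    (hq : q ∈ maximalIdeal O) (e : N) (h : ∀ m : ℕ, ∃ e' : N, e = q ^ m • e') : e = 0 := by
  let b := Module.Free.chooseBasis O N
  apply b.repr.injective
  rw [map_zero]
  ext i
  apply eq_zero_of_forall_pow_dvd hq
  intro m
  obtain ⟨e', rfl⟩ := h m
  exact ⟨b.repr e' i, by simp⟩

end Nonvanishing

/-! ## the output structure -/

/-- The output of [Tate]. -/
structure TMod (O : Type) [CommRing O] [IsLocalRing O] (a : ℕ → O) (bad : ℕ) (S : Set ℕ) : Type 1 where
  T : Type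
  [instT : AddCommGroup T]
  [instM : Module O T]
  [instTF : NoZeroSMulDivisors O T]
  [instNT : Nontrivial T]
  sep : ∀ x : T, (∀ n : ℕ, x ∈ (maximalIdeal O ^ n) • (⊤ : Submodule O T)) → x = 0
  ρ : GQ →* Module.End O T
  smooth : ∀ (x : T) (n : ℕ), ∃ L : IntermediateField ℚ (AlgebraicClosure ℚ),
      FiniteDimensional ℚ L ∧ ∀ σ : GQ, FixesLevel L σ →
        ρ σ x - x ∈ (maximalIdeal O ^ n) • (⊤ : Submodule O T)
  inertia : ∀ ℓ : ℕ, ℓ.Prime → ¬ ℓ ∣ bad → ∀ A : ValuationSubring (AlgebraicClosure ℚ),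
    A.LiesOverPrime ℓ → ∀ σ ∈ A.inertiaSubgroupIn ℚ, ρ σ = 1
  frob : ∀ ℓ : ℕ, ℓ.Prime → ¬ ℓ ∣ bad → ℓ ∉ S → ∀ A : ValuationSubring (AlgebraicClosure ℚ),
    A.LiesOverPrime ℓ → ∀ σ : GQ, A.IsFrobeniusAt σ ℓ →
      ρ σ * ρ σ - a ℓ • ρ σ + (ℓ : O) • 1 = 0

attribute [instance] TMod.instT TMod.instM TMod.instTF TMod.instNT

/-! ## assembly -/

section Assembly

variable {M p : ℕ} [NeZero M] (C : Core M p) (O : Type) [CommRing O]

/-- the Galois action on `O ⊗ W`. -/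
noncomputable def actO : GQ →* Module.End O (O ⊗[ℤ] C.W) where
  toFun σ := (C.act σ).baseChange O
  map_one' := by rw [map_one, LinearMap.baseChange_one]
  map_mul' σ τ := by rw [map_mul, LinearMap.baseChange_mul]

theorem actO_apply (σ : GQ) (z : O ⊗[ℤ] C.W) : actO C O σ z = (C.act σ).baseChange O z := rfl

/-- the eigenspace of the eigensystem `a` in `O ⊗ W`. -/
def eigenSub (S : Set ℕ) (a : ℕ → O) : Submodule O (O ⊗[ℤ] C.W) where
  carrier := {z | ∀ ℓ : ℕ, ℓ.Prime → ¬ ℓ ∣ M → ℓ ∉ S → (C.T ℓ).baseChange O z = a ℓ • z}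
  zero_mem' := fun ℓ _ _ _ => by rw [map_zero, smul_zero]
  add_mem' := fun {x y} hx hy ℓ h1 h2 h3 => by rw [map_add, hx ℓ h1 h2 h3, hy ℓ h1 h2 h3, smul_add]
  smul_mem' := fun c x hx ℓ h1 h2 h3 => by rw [map_smul, hx ℓ h1 h2 h3, smul_comm]

variable {O}

theorem actO_mem_eigenSub (S : Set ℕ) (a : ℕ → O) (σ : GQ) {z : O ⊗[ℤ] C.W}
    (hz : z ∈ eigenSub C O S a) : actO C O σ z ∈ eigenSub C O S a := by
  intro ℓ h1 h2 h3
  have hcomm : (C.T ℓ).baseChange O * (C.act σ).baseChange O =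
      (C.act σ).baseChange O * (C.T ℓ).baseChange O := by
    rw [← LinearMap.baseChange_mul, ← LinearMap.baseChange_mul, (C.T_act ℓ h1 h2 σ).eq]
  have := LinearMap.congr_fun hcomm z
  rw [Module.End.mul_apply, Module.End.mul_apply, hz ℓ h1 h2 h3, map_smul] at this
  exact this

theorem actO_smooth (z : O ⊗[ℤ] C.W) :
    ∃ L : IntermediateField ℚ (AlgebraicClosure ℚ), FiniteDimensional ℚ L ∧
      ∀ σ : GQ, FixesLevel L σ → actO C O σ z = z := by
  induction z using TensorProduct.induction_on with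
  | zero => exact ⟨⊥, inferInstance, fun σ _ => map_zero _⟩
  | tmul c x =>
    obtain ⟨L, hL, h⟩ := C.smooth x
    refine ⟨L, hL, fun σ hσ => ?_⟩
    rw [actO_apply, LinearMap.baseChange_tmul, h σ hσ]
  | add x y hx hy =>
    obtain ⟨L, hL, h⟩ := hx
    obtain ⟨L', hL', h'⟩ := hy
    refine ⟨L ⊔ L', IntermediateField.finiteDimensional_sup L L', fun σ hσ => ?_⟩
    rw [map_add, h σ fun u hu => hσ u ((le_sup_left : L ≤ L ⊔ L') hu),
      h' σ fun u hu => hσ u ((le_sup_right : L' ≤ L ⊔ L') hu)]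

/-- the Galois action on the Tate module. -/
noncomputable def tateRho (S : Set ℕ) (a : ℕ → O) :
    GQ →* Module.End O (tateSub (p : O) (eigenSub C O S a)) where
  toFun σ := tateMap _ _ (actO C O σ) fun _ hz => actO_mem_eigenSub C S a σ hz
  map_one' := by
    ext w m
    simp
  map_mul' σ τ := by
    ext w m
    simp

@[simp]
theorem tateRho_apply (S : Set ℕ) (a : ℕ → O) (σ : GQ)
    (w : tateSub (p : O) (eigenSub C O S a)) (m : ℕ) :
    (tateRho C S a σ w : ℕ → O ⊗[ℤ] C.W) m = actO C O σ ((w : ℕ → O ⊗[ℤ] C.W) m) := rfl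

theorem baseChange_κ_zero (e : O ⊗[ℤ] C.L0) : (C.κ 0).baseChange O e = 0 := by
  have : C.κ 0 = 0 := by
    ext x
    exact (C.κ_ker 0 x).mpr ⟨x, by simp⟩
  rw [this, LinearMap.baseChange_zero, LinearMap.zero_apply]

theorem baseChange_κ_succ (m : ℕ) (e : O ⊗[ℤ] C.L0) :
    (p : O) • (C.κ (m + 1)).baseChange O e = (C.κ m).baseChange O e := by
  have : C.κ m = (p : ℤ) • C.κ (m + 1) := by
    ext x
    rw [LinearMap.smul_apply, natCast_zsmul, C.κ_succ]
  rw [this, LinearMap.baseChange_smul, LinearMap.smul_apply, natCast_zsmul,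
    Nat.cast_smul_eq_nsmul]

theorem baseChange_κ_T (ℓ : ℕ) (h1 : ℓ.Prime) (h2 : ¬ ℓ ∣ M) (m : ℕ) (e : O ⊗[ℤ] C.L0) :
    (C.T ℓ).baseChange O ((C.κ m).baseChange O e) =
      (C.κ m).baseChange O ((C.T0 ℓ).baseChange O e) := by
  have : (C.T ℓ) ∘ₗ (C.κ m) = (C.κ m) ∘ₗ (C.T0 ℓ) := by
    ext x
    exact (C.κ_T ℓ h1 h2 m x).symm
  have h := congrArg (fun f => LinearMap.baseChange O f e) this
  simpa only [LinearMap.baseChange_comp, LinearMap.comp_apply] using h

end Assembly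

/-- [Tate] -/
theorem exists_tmod {M p : ℕ} [NeZero M] [Fact p.Prime] (C : Core M p)
    (O : Type) [CommRing O] [IsDomain O] [IsDiscreteValuationRing O] [CharZero O]
    (hpO : (p : O) ∈ maximalIdeal O) (S : Set ℕ) (hS : badSet M ⊆ S)
    (χ : CuspForm.heckeAlgebra M 2 S →+* O) (a : ℕ → O)
    (ha : ∀ (ℓ : ℕ) (hℓ : ℓ.Prime) (hℓM : ¬ ℓ ∣ M) (hℓS : ℓ ∉ S),
      a ℓ = χ (CuspForm.heckeAlgebra.T hℓ hℓM hℓS)) :
    Nonempty (TMod O a (M * p) S) := by
  have hp0 : (p : O) ≠ 0 := Nat.cast_ne_zero.mpr (Fact.out : p.Prime).ne_zero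
  have hTF := tateSub_noZeroSMulDivisors (X := eigenSub C O S a) hpO
  -- nontriviality
  have hNT : Nontrivial (tateSub (p : O) (eigenSub C O S a)) := by
    let act : CuspForm.heckeAlgebra M 2 S →+* Module.End ℤ C.L0 :=
      C.ι.comp (Subalgebra.inclusion (CuspForm.heckeAlgebra_mono hS)).toRingHom
    have hact : Function.Injective act :=
      C.ι_inj.comp (Subalgebra.inclusion_injective (CuspForm.heckeAlgebra_mono hS))
    obtain ⟨e, he0, he⟩ := exists_eigenvector_integral act hact χ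
    have heT : ∀ ℓ : ℕ, ℓ.Prime → ¬ ℓ ∣ M → ℓ ∉ S → (C.T0 ℓ).baseChange O e = a ℓ • e := by
      intro ℓ h1 h2 h3
      rw [ha ℓ h1 h2 h3, ← he, ← C.ι_T ℓ h1 h2]
      rfl
    let w : tateSub (p : O) (eigenSub C O S a) :=
      ⟨fun m => (C.κ m).baseChange O e, baseChange_κ_zero C e, fun m => baseChange_κ_succ C m e,
        fun m ℓ h1 h2 h3 => by rw [baseChange_κ_T C ℓ h1 h2, heT ℓ h1 h2 h3, map_smul]⟩
    refine ⟨w, 0, fun hw => he0 ?_⟩
    apply eq_zero_of_forall_exists_pow_smul hpO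
    intro m
    have hm : (C.κ m).baseChange O e = 0 := congrFun (congrArg Subtype.val hw) m
    obtain ⟨e', he'⟩ := exists_eq_smul_of_baseChange_eq_zero (C.κ m) (p ^ m) (C.κ_ker m) e hm
    exact ⟨e', by rw [he']; push_cast; rfl⟩
  refine ⟨{
    T := tateSub (p : O) (eigenSub C O S a)
    sep := tateSub_sep hp0
    ρ := tateRho C S a
    smooth := ?_
    inertia := ?_
    frob := ?_ }⟩
  · intro x n
    obtain ⟨L, hL, h⟩ := actO_smooth C ((x : ℕ → O ⊗[ℤ] C.W) n)
    refine ⟨L, hL, fun σ hσ => tateSub_mem_pow_smul_top hpO _ ?_⟩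
    show actO C O σ ((x : ℕ → O ⊗[ℤ] C.W) n) - (x : ℕ → O ⊗[ℤ] C.W) n = 0
    rw [h σ hσ, sub_self]
  · intro ℓ h1 h2 A hA σ hσ
    ext w m
    rw [tateRho_apply, actO_apply, C.inertia ℓ h1 h2 A hA σ hσ, LinearMap.baseChange_one]
    rfl
  · intro ℓ h1 h2 h3 A hA σ hσ
    have h2' : ¬ ℓ ∣ M := fun h => h2 (Dvd.dvd.mul_right h p)
    ext w m
    have hrel := congrArg (Module.End.baseChangeHom ℤ O C.W) (C.frob ℓ h1 h2 A hA σ hσ)
    simp only [map_add, map_sub, map_mul, map_natCast, map_zero] at hrel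
    have hrel' := LinearMap.congr_fun hrel ((w : ℕ → O ⊗[ℤ] C.W) m)
    have hX := actO_mem_eigenSub C S a σ (w.2.2.2 m) ℓ h1 h2' h3
    show actO C O σ (actO C O σ ((w : ℕ → O ⊗[ℤ] C.W) m)) -
      a ℓ • actO C O σ ((w : ℕ → O ⊗[ℤ] C.W) m) + (ℓ : O) • (w : ℕ → O ⊗[ℤ] C.W) m = 0
    rw [← hX, Nat.cast_smul_eq_nsmul]
    simp only [LinearMap.add_apply, LinearMap.sub_apply, Module.End.mul_apply,
      Module.End.natCast_apply, LinearMap.zero_apply] at hrel'
    exact hrel'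

end Fermat.Agent.GR.Adic
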