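import Mathlib
import Fermat.Agent.GR.Adic.Core
import Fermat.Agent.GR.Adic.Tate
import Fermat.Agent.GR.Adic.RelT
import Fermat.Agent.GR.Adic.Cyclo
import Fermat.Agent.GR.Adic.LevelRes
import Fermat.Agent.GR.Adic.AdicRep

/-!
# S30 : assembly of the `p`-adic layer
-/

set_option autoImplicit false

open IsLocalRing Polynomial

namespace Fermat.Agent.GR.Adic

local notation "Qbar'" => AlgebraicClosure ℚ

section aux

variable {R : Type*} [CommRing R] {T T' : Type*} [AddCommGroup T] [Module R T]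
  [AddCommGroup T'] [Module R T']

theorem map_mem_smul_top (I : Ideal R) (f : T →ₗ[R] T') {x : T}
    (hx : x ∈ I • (⊤ : Submodule R T)) : f x ∈ I • (⊤ : Submodule R T') := by
  induction hx using Submodule.smul_induction_on' with
  | smul a ha w _ =>
    rw [map_smul]
    exact Submodule.smul_mem_smul ha Submodule.mem_top
  | add x _ y _ hx hy =>
    rw [map_add]
    exact Submodule.add_mem _ hx hy

theorem prod_mem_smul_top (I : Ideal R) {x : T} {y : T'}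
    (hx : x ∈ I • (⊤ : Submodule R T)) (hy : y ∈ I • (⊤ : Submodule R T')) :
    ((x, y) : T × T') ∈ I • (⊤ : Submodule R (T × T')) := by
  have h1 := map_mem_smul_top I (LinearMap.inl R T T') hx
  have h2 := map_mem_smul_top I (LinearMap.inr R T T') hy
  have := Submodule.add_mem _ h1 h2
  simpa using this

end aux

/-- the product of two representations -/
noncomputable def prodRep {R G : Type*} [CommRing R] [Group G] {T T' : Type*} [AddCommGroup T]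
    [Module R T] [AddCommGroup T'] [Module R T'] (ρ : G →* Module.End R T)
    (ρ' : G →* Module.End R T') : G →* Module.End R (T × T') where
  toFun g := LinearMap.prodMap (ρ g) (ρ' g)
  map_one' := by rw [map_one, map_one]; exact LinearMap.prodMap_one
  map_mul' g h := by rw [map_mul, map_mul]; exact (LinearMap.prodMap_mul _ _ _ _).symm

theorem fixesLevel_of_le {L L' : IntermediateField ℚ Qbar'} (h : L ≤ L') {σ : GQ}
    (hσ : FixesLevel L' σ) : FixesLevel L σ := fun x hx => hσ x (h hx)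


section two

variable {O : Type} [CommRing O]

/-- restriction of a relation on a product to the first factor -/
theorem rel_fst {G : Type*} [Group G] {T T' : Type*} [AddCommGroup T]
    [Module O T] [AddCommGroup T'] [Module O T'] (ρ : G →* Module.End O T)
    (ρ' : G →* Module.End O T') (g : G) (t e : O)
    (h : prodRep ρ ρ' g * prodRep ρ ρ' g - t • prodRep ρ ρ' g + e • 1 = 0) :
    ρ g * ρ g - t • ρ g + e • 1 = 0 := by
  ext x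
  have := congrArg (fun f : Module.End O (T × T') => (f (x, 0)).1) h
  simpa [prodRep] using this

theorem rel_snd {G : Type*} [Group G] {T T' : Type*} [AddCommGroup T]
    [Module O T] [AddCommGroup T'] [Module O T'] (ρ : G →* Module.End O T)
    (ρ' : G →* Module.End O T') (g : G) (t e : O)
    (h : prodRep ρ ρ' g * prodRep ρ ρ' g - t • prodRep ρ ρ' g + e • 1 = 0) :
    ρ' g * ρ' g - t • ρ' g + e • 1 = 0 := by
  ext x
  have := congrArg (fun f : Module.End O (T × T') => (f (0, x)).2) h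
  simpa [prodRep] using this

theorem rel_prod {G : Type*} [Group G] {T T' : Type*} [AddCommGroup T]
    [Module O T] [AddCommGroup T'] [Module O T'] (ρ : G →* Module.End O T)
    (ρ' : G →* Module.End O T') (g : G) (t e : O)
    (h : ρ g * ρ g - t • ρ g + e • 1 = 0) (h' : ρ' g * ρ' g - t • ρ' g + e • 1 = 0) :
    prodRep ρ ρ' g * prodRep ρ ρ' g - t • prodRep ρ ρ' g + e • 1 = 0 := by
  ext x
  · have := congrArg (fun f : Module.End O T => f x) h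
    simpa [prodRep] using this
  · simp [prodRep]
  · simp [prodRep]
  · have := congrArg (fun f : Module.End O T' => f x) h'
    simpa [prodRep] using this

variable [IsDomain O] [IsDiscreteValuationRing O] [IsAdicComplete (maximalIdeal O) O]

theorem exists_rep_of_two_tmod (h2 : (2 : O) ≠ 0) (hcheb : WeakCheb) (p : ℕ)
    (ε : GQ →* Oˣ)
    (hεF : ∀ ℓ : ℕ, ℓ.Prime → ℓ ≠ p → ∀ A : ValuationSubring Qbar', A.LiesOverPrime ℓ →
        ∀ σ : GQ, A.IsFrobeniusAt σ ℓ → (ε σ : O) = ℓ)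
    (hεI : ∀ q : ℕ, q.Prime → q ≠ p → ∀ A : ValuationSubring Qbar', A.LiesOverPrime q →
        ∀ σ ∈ A.inertiaSubgroupIn ℚ, ε σ = 1)
    (hεc : ∀ m : ℕ, ∃ L : IntermediateField ℚ Qbar', FiniteDimensional ℚ L ∧
        ∀ σ : GQ, (∀ x ∈ L, σ x = x) → (ε σ : O) - 1 ∈ maximalIdeal O ^ m)
    (c : GQ) (hc : c * c = 1) (hcε : (ε c : O) = -1)
    (a : ℕ → O) {bad₁ bad₂ : ℕ} {S₁ S₂ : Set ℕ} (X₁ : TMod O a bad₁ S₁) (X₂ : TMod O a bad₂ S₂)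
    (B : Finset ℕ)
    (hB : ∀ ℓ : ℕ, ℓ.Prime → ℓ ∉ B → ℓ ≠ p ∧ ¬ ℓ ∣ bad₁ ∧ ℓ ∉ S₁ ∧ ¬ ℓ ∣ bad₂ ∧ ℓ ∉ S₂) :
    ∃ ρ : GaloisRepAdic O,
      (∀ ℓ : ℕ, ℓ.Prime → ℓ ≠ p → ((¬ ℓ ∣ bad₁ ∧ ℓ ∉ S₁) ∨ (¬ ℓ ∣ bad₂ ∧ ℓ ∉ S₂)) →
        ∀ A : ValuationSubring Qbar', A.LiesOverPrime ℓ → ∀ σ : GQ, A.IsFrobeniusAt σ ℓ →
          LinearMap.charpoly (ρ.ρ σ) = X ^ 2 - C (a ℓ) * X + C ((ℓ : O))) ∧
      (∀ q : ℕ, q.Prime → q ≠ p → (¬ q ∣ bad₁ ∨ ¬ q ∣ bad₂) → ρ.IsUnramifiedAt q) := by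
  classical
  haveI : NoZeroSMulDivisors O (X₁.T × X₂.T) := ⟨by
    intro r x h
    by_cases hr : r = 0
    · exact Or.inl hr
    · refine Or.inr (Prod.ext ?_ ?_)
      · exact (smul_eq_zero.1 (congrArg Prod.fst h)).resolve_left hr
      · exact (smul_eq_zero.1 (congrArg Prod.snd h)).resolve_left hr⟩
  set ρ := prodRep X₁.ρ X₂.ρ with hρ
  have hsep : ∀ x : X₁.T × X₂.T,
      (∀ n : ℕ, x ∈ (maximalIdeal O ^ n) • (⊤ : Submodule O (X₁.T × X₂.T))) → x = 0 := by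
    intro x hx
    refine Prod.ext ?_ ?_
    · exact X₁.sep _ fun n => map_mem_smul_top _ (LinearMap.fst O X₁.T X₂.T) (hx n)
    · exact X₂.sep _ fun n => map_mem_smul_top _ (LinearMap.snd O X₁.T X₂.T) (hx n)
  have hsm : ∀ (x : X₁.T × X₂.T) (n : ℕ), ∃ L : IntermediateField ℚ Qbar',
      FiniteDimensional ℚ L ∧ ∀ σ : GQ, FixesLevel L σ →
        ρ σ x - x ∈ (maximalIdeal O ^ n) • (⊤ : Submodule O (X₁.T × X₂.T)) := by
    intro x n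
    obtain ⟨L₁, hL₁, h₁⟩ := X₁.smooth x.1 n
    obtain ⟨L₂, hL₂, h₂⟩ := X₂.smooth x.2 n
    refine ⟨L₁ ⊔ L₂, IntermediateField.finiteDimensional_sup L₁ L₂, fun σ hσ => ?_⟩
    exact prod_mem_smul_top _ (h₁ σ (fixesLevel_of_le le_sup_left hσ))
      (h₂ σ (fixesLevel_of_le le_sup_right hσ))
  obtain ⟨t, ht⟩ := exists_trace_fn hsep ρ ε hsm hεc hcheb B a (by
    intro ℓ hℓ hℓB A hA σ hσ
    obtain ⟨h1, h2, h3, h4, h5⟩ := hB ℓ hℓ hℓB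
    exact ⟨hεF ℓ hℓ h1 A hA σ hσ,
      rel_prod _ _ _ _ _ (X₁.frob ℓ hℓ h2 h3 A hA σ hσ) (X₂.frob ℓ hℓ h4 h5 A hA σ hσ)⟩)
  let 𝒰 : Set (Set GQ) := {U | ∃ L : IntermediateField ℚ Qbar', FiniteDimensional ℚ L ∧
    U = {σ | FixesLevel L σ}}
  obtain ⟨ρ', hchar, hrig, hcont⟩ := adicRep h2 hsep ρ ε t ht c hc hcε 𝒰
    ⟨_, ⊥, inferInstance, rfl⟩
    (by
      rintro _ ⟨L, hL, rfl⟩ _ ⟨L', hL', rfl⟩
      refine ⟨_, ⟨L ⊔ L', IntermediateField.finiteDimensional_sup L L', rfl⟩, ?_⟩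
      intro σ hσ
      exact ⟨fixesLevel_of_le le_sup_left hσ, fixesLevel_of_le le_sup_right hσ⟩)
    (by
      intro x n
      obtain ⟨L, hL, h⟩ := hsm x n
      exact ⟨_, ⟨L, hL, rfl⟩, fun g hg => h g hg⟩)
    (by
      intro n
      obtain ⟨L, hL, h⟩ := hεc n
      exact ⟨_, ⟨L, hL, rfl⟩, fun g hg => h g hg⟩)
  refine ⟨{ V := Fin 2 → O
            finrank_eq := by simp
            ρ := ρ'
            isAdicContinuous := ?_ }, ?_, ?_⟩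
  · intro n
    obtain ⟨_, ⟨L, hL, rfl⟩, h⟩ := hcont n
    exact ⟨L, hL, fun σ hσ v => h σ hσ v⟩
  · intro ℓ hℓ hℓp hor A hA σ hσ
    have hε : (ε σ : O) = ℓ := hεF ℓ hℓ hℓp A hA σ hσ
    have hta : t σ = a ℓ := by
      have hσrel := ht σ
      rw [hε] at hσrel
      rcases hor with ⟨h1, h2⟩ | ⟨h1, h2⟩
      · exact trace_fn_unique X₁.ρ σ _ _ _ (rel_fst _ _ _ _ _ hσrel) (X₁.frob ℓ hℓ h1 h2 A hA σ hσ)
      · exact trace_fn_unique X₂.ρ σ _ _ _ (rel_snd _ _ _ _ _ hσrel) (X₂.frob ℓ hℓ h1 h2 A hA σ hσ)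
    show LinearMap.charpoly (ρ' σ) = _
    rw [hchar σ, hta, hε]
  · intro q hq hqp hor P hP τ hτ
    show ρ' τ = 1
    have hε1 : ε τ = 1 := hεI q hq hqp P hP τ hτ
    refine hrig τ hε1 fun g => ?_
    have h1 := ht (g * τ)
    have h2 := ht g
    rw [map_mul ε, hε1, mul_one] at h1
    rcases hor with h | h
    · have hτ1 : X₁.ρ τ = 1 := X₁.inertia q hq h P hP τ hτ
      have h1' := rel_fst _ _ _ _ _ h1
      rw [map_mul, hτ1, mul_one] at h1'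
      exact trace_fn_unique X₁.ρ g _ _ _ h1' (rel_fst _ _ _ _ _ h2)
    · have hτ1 : X₂.ρ τ = 1 := X₂.inertia q hq h P hP τ hτ
      have h1' := rel_snd _ _ _ _ _ h1
      rw [map_mul, hτ1, mul_one] at h1'
      exact trace_fn_unique X₂.ρ g _ _ _ h1' (rel_snd _ _ _ _ _ h2)

end two

/-- the export of the geometric blocks -/
def CoreStatement : Prop :=
  ∀ (M p : ℕ) [NeZero M], p.Prime → (4 ∣ M ∨ 9 ∣ M) → Nonempty (Core M p)

theorem S30_of_core (hcheb : WeakCheb) (hcore : CoreStatement) :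
    ∀ (p : ℕ) [Fact p.Prime] (N : ℕ) [NeZero N] (S : Finset ℕ)
      (_hpS : p ∈ S) (_hNS : ∀ q : ℕ, q.Prime → q ∣ N → q ∈ S)
      (𝒪' : Type) [CommRing 𝒪'] [IsDomain 𝒪'] [IsDiscreteValuationRing 𝒪']
      [IsAdicComplete (IsLocalRing.maximalIdeal 𝒪') 𝒪'] [Finite (IsLocalRing.ResidueField 𝒪')]
      [CharZero 𝒪'] (_hp𝒪' : (p : 𝒪') ∈ IsLocalRing.maximalIdeal 𝒪')
      (χ : CuspForm.heckeAlgebra N 2 (↑S : Set ℕ) →+* 𝒪'),
      ∃ (𝒪'' : Type) (_ : CommRing 𝒪'') (_ : IsDomain 𝒪'') (_ : IsDiscreteValuationRing 𝒪'')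
        (_ : IsAdicComplete (IsLocalRing.maximalIdeal 𝒪'') 𝒪'')
        (_ : Finite (IsLocalRing.ResidueField 𝒪'')) (_ : CharZero 𝒪'')
        (_ : Algebra 𝒪' 𝒪'') (_ : Module.Finite 𝒪' 𝒪'') (_ : IsLocalHom (algebraMap 𝒪' 𝒪'')),
      Function.Injective (algebraMap 𝒪' 𝒪'') ∧
      ∃ ρ : GaloisRepAdic 𝒪'',
        (∀ (ℓ : ℕ) (hℓ : ℓ.Prime) (hℓN : ¬ ℓ ∣ N) (hℓS : ℓ ∉ (↑S : Set ℕ)),
          ∀ A : ValuationSubring (AlgebraicClosure ℚ), A.LiesOverPrime ℓ →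
            ∀ σ : AlgebraicClosure ℚ ≃ₐ[ℚ] AlgebraicClosure ℚ, A.IsFrobeniusAt σ ℓ →
              LinearMap.charpoly (ρ.ρ σ) =
                X ^ 2 - C (algebraMap 𝒪' 𝒪'' (χ (CuspForm.heckeAlgebra.T hℓ hℓN hℓS))) * X
                  + C ((ℓ : 𝒪''))) ∧
        (∀ q : ℕ, q.Prime → ¬ q ∣ N → q ≠ p → ρ.IsUnramifiedAt q) := by
  classical
  intro p _ N _ S hpS hNS O _ _ _ _ _ _ hpO χ
  have hp : p.Prime := Fact.out
  have hN0 : N ≠ 0 := NeZero.ne N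
  refine ⟨O, inferInstance, inferInstance, inferInstance, inferInstance, inferInstance,
    inferInstance, Algebra.id O, Module.Finite.self O, ⟨fun a ha => ha⟩, Function.injective_id, ?_⟩
  -- the eigenvalues
  let a : ℕ → O := fun ℓ =>
    if h : ℓ.Prime ∧ ¬ ℓ ∣ N ∧ ℓ ∉ (↑S : Set ℕ) then χ (CuspForm.heckeAlgebra.T h.1 h.2.1 h.2.2)
    else 0
  have ha : ∀ (ℓ : ℕ) (hℓ : ℓ.Prime) (hℓN : ¬ ℓ ∣ N) (hℓS : ℓ ∉ (↑S : Set ℕ)),
      a ℓ = χ (CuspForm.heckeAlgebra.T hℓ hℓN hℓS) := by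
    intro ℓ hℓ hℓN hℓS
    simp only [a]
    rw [dif_pos ⟨hℓ, hℓN, hℓS⟩]
  -- the module of an auxiliary level
  have key : ∀ k : ℕ, k ≠ 0 → (4 ∣ k * N ∨ 9 ∣ k * N) →
      Nonempty (TMod O a (k * N * p) ((↑S : Set ℕ) ∪ badSet (k * N))) := by
    intro k hk hadm
    haveI : NeZero (k * N) := ⟨mul_ne_zero hk hN0⟩
    obtain ⟨C⟩ := hcore (k * N) p hp hadm
    obtain ⟨r, hr⟩ := levelRes N (k * N) (Dvd.intro_left k rfl) (↑S : Set ℕ)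
      ((↑S : Set ℕ) ∪ badSet (k * N)) Set.subset_union_left Set.subset_union_right
    refine exists_tmod C O hpO _ Set.subset_union_right (χ.comp r) a ?_
    intro ℓ hℓ hℓM hℓS
    have hℓN : ¬ ℓ ∣ N := fun h => hℓM (Dvd.dvd.mul_left h k)
    have hℓS' : ℓ ∉ (↑S : Set ℕ) := fun h => hℓS (Or.inl h)
    rw [RingHom.comp_apply, hr ℓ hℓ hℓM hℓS hℓN hℓS', ha ℓ hℓ hℓN hℓS']
  obtain ⟨X₁⟩ := key 4 (by norm_num) (Or.inl (Dvd.intro _ rfl))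
  obtain ⟨X₂⟩ := key 9 (by norm_num) (Or.inr (Dvd.intro _ rfl))
  obtain ⟨ε, hεF, hεI, hεc, c, hc, hcε⟩ := exists_cyclo p O hpO
  -- divisibility bookkeeping
  have hdvd : ∀ (k ℓ : ℕ), ℓ.Prime → ¬ ℓ ∣ k → ¬ ℓ ∣ N → ℓ ≠ p → ¬ ℓ ∣ k * N * p := by
    intro k ℓ hℓ hk hN hℓp h
    rcases (Nat.Prime.dvd_mul hℓ).1 h with h | h
    · rcases (Nat.Prime.dvd_mul hℓ).1 h with h | h
      · exact hk h
      · exact hN h
    · exact hℓp ((Nat.prime_dvd_prime_iff_eq hℓ hp).1 h)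
  have hbs : ∀ (k ℓ : ℕ), ℓ.Prime → ¬ ℓ ∣ k → ¬ ℓ ∣ N → ℓ ∉ (↑S : Set ℕ) →
      ℓ ∉ (↑S : Set ℕ) ∪ badSet (k * N) := by
    intro k ℓ hℓ hk hN hS h
    rcases h with h | h
    · exact hS h
    · rcases (Nat.Prime.dvd_mul hℓ).1 h.2 with h | h
      · exact hk h
      · exact hN h
  have h4 : ∀ ℓ : ℕ, ℓ.Prime → ℓ ≠ 2 → ¬ ℓ ∣ 4 := by
    intro ℓ hℓ h2 h
    have : ℓ ∣ 2 := hℓ.dvd_of_dvd_pow (show ℓ ∣ 2 ^ 2 by simpa using h)
    exact h2 ((Nat.prime_dvd_prime_iff_eq hℓ Nat.prime_two).1 this)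
  have h9 : ∀ ℓ : ℕ, ℓ.Prime → ℓ ≠ 3 → ¬ ℓ ∣ 9 := by
    intro ℓ hℓ h3 h
    have : ℓ ∣ 3 := hℓ.dvd_of_dvd_pow (show ℓ ∣ 3 ^ 2 by simpa using h)
    exact h3 ((Nat.prime_dvd_prime_iff_eq hℓ Nat.prime_three).1 this)
  obtain ⟨ρ, hρF, hρI⟩ := exists_rep_of_two_tmod (two_ne_zero) hcheb p ε hεF hεI hεc c hc hcε a
    X₁ X₂ (S ∪ {2, 3}) (by
      intro ℓ hℓ hℓB
      simp only [Finset.mem_union, Finset.mem_insert, Finset.mem_singleton, not_or] at hℓB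
      obtain ⟨hS, h2, h3⟩ := hℓB
      have hN : ¬ ℓ ∣ N := fun h => hS (hNS ℓ hℓ h)
      have hℓp : ℓ ≠ p := fun h => hS (h ▸ hpS)
      have hS' : ℓ ∉ (↑S : Set ℕ) := hS
      exact ⟨hℓp, hdvd 4 ℓ hℓ (h4 ℓ hℓ h2) hN hℓp, hbs 4 ℓ hℓ (h4 ℓ hℓ h2) hN hS',
        hdvd 9 ℓ hℓ (h9 ℓ hℓ h3) hN hℓp, hbs 9 ℓ hℓ (h9 ℓ hℓ h3) hN hS'⟩)
  refine ⟨ρ, ?_, ?_⟩
  · intro ℓ hℓ hℓN hℓS A hA σ hσ
    have hℓp : ℓ ≠ p := fun h => hℓS (h ▸ hpS)
    have := hρF ℓ hℓ hℓp (by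
      by_cases h2 : ℓ = 2
      · right
        have h3 : ℓ ≠ 3 := by omega
        exact ⟨hdvd 9 ℓ hℓ (h9 ℓ hℓ h3) hℓN hℓp, hbs 9 ℓ hℓ (h9 ℓ hℓ h3) hℓN hℓS⟩
      · left
        exact ⟨hdvd 4 ℓ hℓ (h4 ℓ hℓ h2) hℓN hℓp, hbs 4 ℓ hℓ (h4 ℓ hℓ h2) hℓN hℓS⟩) A hA σ hσ
    rw [this, ha ℓ hℓ hℓN hℓS]
    rfl
  · intro q hq hqN hqp
    refine hρI q hq hqp ?_
    by_cases h2 : q = 2
    · right
      have h3 : q ≠ 3 := by omega
      exact hdvd 9 q hq (h9 q hq h3) hqN hqp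
    · left
      exact hdvd 4 q hq (h4 q hq h2) hqN hqp

end Fermat.Agent.GR.Adic
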