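import Mathlib
import Fermat.Prelude.Def_CuspForm_HeckeGaloisRepDatum
import Fermat.Agent.GR.Adic.TraceRigid
import Fermat.Agent.GR.Asm.Residual

/-!
# S31, formal part

`HeckeCongruence N S p q` is the only geometric input: modulo every `p ^ n`, the Hecke operator
`D_j(T_ℓ, ℓ)` attached to a power `σ ^ j` of a Frobenius only depends on the restriction of
`σ ^ j` to a suitable number field, *up to inertia at `q`*.

`S31_of_heckeCongruence` : weak Chebotarev + `HeckeCongruence` imply the statement of S31.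
-/

set_option autoImplicit false

namespace Fermat.Agent.GR.Adic

open IsLocalRing Module

local notation "Qbar'" => AlgebraicClosure ℚ
local notation "GQ'" => (AlgebraicClosure ℚ ≃ₐ[ℚ] AlgebraicClosure ℚ)

/-- The geometric input of S31.  `B` is an auxiliary finite set of excluded primes. -/
def HeckeCongruence (N : ℕ) [NeZero N] (S : Finset ℕ) (p q : ℕ) (B : Finset ℕ) : Prop :=
  ∀ n : ℕ, ∃ L : IntermediateField ℚ Qbar', FiniteDimensional ℚ L ∧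
    ∀ (ℓ : ℕ) (hℓ : ℓ.Prime) (hℓN : ¬ ℓ ∣ N) (hℓS : ℓ ∉ (↑S : Set ℕ))
      (ℓ' : ℕ) (hℓ' : ℓ'.Prime) (hℓ'N : ¬ ℓ' ∣ N) (hℓ'S : ℓ' ∉ (↑S : Set ℕ))
      (A A' P : ValuationSubring Qbar') (σ σ' g τ : GQ') (j j' : ℕ),
      ℓ ∉ B → ℓ' ∉ B → A.LiesOverPrime ℓ → A.IsFrobeniusAt σ ℓ →
      A'.LiesOverPrime ℓ' → A'.IsFrobeniusAt σ' ℓ' →
      P.LiesOverPrime q → τ ∈ P.inertiaSubgroupIn ℚ →
      (∀ x ∈ L, (σ ^ j) x = g x) → (∀ x ∈ L, (σ' ^ j') x = (g * τ) x) →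
      lucasSeq (CuspForm.heckeAlgebra.T hℓ' hℓ'N hℓ'S : CuspForm.heckeAlgebra N 2 (↑S : Set ℕ))
          (ℓ' : CuspForm.heckeAlgebra N 2 (↑S : Set ℕ)) j'
        - lucasSeq (CuspForm.heckeAlgebra.T hℓ hℓN hℓS : CuspForm.heckeAlgebra N 2 (↑S : Set ℕ))
          (ℓ : CuspForm.heckeAlgebra N 2 (↑S : Set ℕ)) j
        ∈ Ideal.span {((p : CuspForm.heckeAlgebra N 2 (↑S : Set ℕ))) ^ n}

section aux

variable {R V : Type*} [CommRing R] [AddCommGroup V] [Module R V]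

theorem repr_mem_of_mem_smul_top {ι : Type*} (b : Basis ι R V) (I : Ideal R) {x : V}
    (hx : x ∈ I • (⊤ : Submodule R V)) (i : ι) : b.repr x i ∈ I := by
  induction hx using Submodule.smul_induction_on' with
  | smul a ha w _ =>
    rw [map_smul, Finsupp.smul_apply, smul_eq_mul]
    exact I.mul_mem_right _ ha
  | add x _ y _ hx hy =>
    rw [map_add, Finsupp.add_apply]
    exact I.add_mem hx hy

theorem trace_mem_of_forall_mem_smul_top [Module.Free R V] [Module.Finite R V] (I : Ideal R)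
    (f : Module.End R V) (hf : ∀ v, f v ∈ I • (⊤ : Submodule R V)) :
    LinearMap.trace R V f ∈ I := by
  classical
  let b := Module.Free.chooseBasis R V
  rw [LinearMap.trace_eq_matrix_trace R b, Matrix.trace]
  refine I.sum_mem fun i _ => ?_
  rw [Matrix.diag_apply, LinearMap.toMatrix_apply]
  exact repr_mem_of_mem_smul_top b I (hf _) i

end aux

variable {T : Type} [CommRing T] [IsLocalRing T]

/-- Adic continuity of the trace. -/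
theorem exists_level_trace_sub_mem (ρ : GaloisRepAdic T) (n : ℕ) :
    ∃ L : IntermediateField ℚ Qbar', FiniteDimensional ℚ L ∧
      ∀ a b : GQ', (∀ x ∈ L, a x = b x) →
        LinearMap.trace T ρ.V (ρ.ρ a) - LinearMap.trace T ρ.V (ρ.ρ b) ∈ maximalIdeal T ^ n := by
  obtain ⟨L, hL, h⟩ := ρ.isAdicContinuous n
  refine ⟨L, hL, fun a b hab => ?_⟩
  have hc : ∀ x ∈ L, (b⁻¹ * a) x = x := by
    intro x hx
    rw [AlgEquiv.mul_apply, hab x hx]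
    exact b.symm_apply_apply x
  have ha : ρ.ρ a = ρ.ρ b * ρ.ρ (b⁻¹ * a) := by
    rw [← map_mul, mul_inv_cancel_left]
  have h1 : LinearMap.trace T ρ.V (ρ.ρ a) - LinearMap.trace T ρ.V (ρ.ρ b)
      = LinearMap.trace T ρ.V ((ρ.ρ (b⁻¹ * a) - 1) * ρ.ρ b) := by
    rw [sub_mul, one_mul, map_sub, LinearMap.trace_mul_comm, ← ha]
  rw [h1]
  apply trace_mem_of_forall_mem_smul_top
  intro v
  exact h _ hc (ρ.ρ b v)

theorem eq_of_forall_sub_mem_pow [IsAdicComplete (maximalIdeal T) T] {x y : T}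
    (h : ∀ n : ℕ, x - y ∈ maximalIdeal T ^ n) : x = y := by
  rw [← sub_eq_zero]
  apply IsHausdorff.haus (I := maximalIdeal T) inferInstance
  intro n
  rw [SModEq.zero, smul_eq_mul, Ideal.mul_top]
  exact h n

section main

variable {p : ℕ} {N : ℕ} [NeZero N] {S : Finset ℕ}
  {𝒪 : Type} [CommRing 𝒪] [IsDomain 𝒪] [IsDiscreteValuationRing 𝒪]
  [IsAdicComplete (IsLocalRing.maximalIdeal 𝒪) 𝒪]
  {θ : CuspForm.heckeAlgebra N 2 (↑S : Set ℕ) →+* IsLocalRing.ResidueField 𝒪}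
  {T : Type} [CommRing T] [IsLocalRing T] [IsNoetherianRing T]
  [IsAdicComplete (IsLocalRing.maximalIdeal T) T] [Algebra 𝒪 T] [IsLocalHom (algebraMap 𝒪 T)]
  [Module.Finite 𝒪 T] [Module.Free 𝒪 T]

/-- The trace of a power of a Frobenius is the image of a Lucas polynomial in `T_ℓ`. -/
theorem trace_frob_pow (H : CuspForm.HeckeGaloisRepDatum N (↑S : Set ℕ) 𝒪 θ T)
    {ℓ : ℕ} (hℓ : ℓ.Prime) (hℓN : ¬ ℓ ∣ N) (hℓS : ℓ ∉ (↑S : Set ℕ))
    (A : ValuationSubring Qbar') (hA : A.LiesOverPrime ℓ) (σ : GQ') (hσ : A.IsFrobeniusAt σ ℓ)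
    (j : ℕ) :
    LinearMap.trace T H.ρ.V (H.ρ.ρ (σ ^ j)) =
      H.π (lucasSeq (CuspForm.heckeAlgebra.T hℓ hℓN hℓS : CuspForm.heckeAlgebra N 2 (↑S : Set ℕ))
        (ℓ : CuspForm.heckeAlgebra N 2 (↑S : Set ℕ)) j) := by
  rw [map_pow, trace_pow_eq_lucasSeq H.ρ.finrank_eq _ _ _ (H.charpoly_frob ℓ hℓ hℓN hℓS A hA σ hσ),
    map_lucasSeq, map_natCast]

/-- **S31 from weak Chebotarev and the Hecke congruence.** -/
theorem S31_of_heckeCongruence (hcheb : Fermat.Agent.GR.Asm.WeakChebotarev)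
    (hp𝒪 : (p : 𝒪) ∈ IsLocalRing.maximalIdeal 𝒪)
    (H : CuspForm.HeckeGaloisRepDatum N (↑S : Set ℕ) 𝒪 θ T)
    (q : ℕ) (B : Finset ℕ) (hGI : HeckeCongruence N S p q B) :
    H.ρ.IsUnramifiedAt q := by
  have hpT : (p : T) ∈ maximalIdeal T := by
    have h1 : (p : T) = algebraMap 𝒪 T (p : 𝒪) := (map_natCast _ _).symm
    rw [h1]
    exact map_nonunit (algebraMap 𝒪 T) _ hp𝒪
  apply isUnramifiedAt_of_trace H.ρ H.residual_absIrr q
  intro P hP τ hτ g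
  apply eq_of_forall_sub_mem_pow
  intro n
  obtain ⟨L₁, hL₁, h₁⟩ := exists_level_trace_sub_mem H.ρ n
  obtain ⟨L₂, hL₂, h₂⟩ := hGI n
  have hL : FiniteDimensional ℚ (L₁ ⊔ L₂ : IntermediateField ℚ Qbar') :=
    IntermediateField.finiteDimensional_sup L₁ L₂
  have hbad : ∀ ℓ : ℕ, ℓ.Prime → ℓ ∉ S ∪ N.primeFactors ∪ B →
      ¬ ℓ ∣ N ∧ ℓ ∉ (↑S : Set ℕ) ∧ ℓ ∉ B := by
    intro ℓ hℓ hmem
    rw [Finset.mem_union, Finset.mem_union, not_or, not_or] at hmem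
    refine ⟨fun hd => hmem.1.2 (Nat.mem_primeFactors.2 ⟨hℓ, hd, NeZero.ne N⟩), ?_, hmem.2⟩
    simpa using hmem.1.1
  obtain ⟨ℓ, A, σ, j, hℓ, hℓT, hA, hσ, hσg⟩ := hcheb _ hL (S ∪ N.primeFactors ∪ B) g
  obtain ⟨ℓ', A', σ', j', hℓ', hℓ'T, hA', hσ', hσg'⟩ :=
    hcheb _ hL (S ∪ N.primeFactors ∪ B) (g * τ)
  obtain ⟨hℓN, hℓS, hℓB⟩ := hbad ℓ hℓ hℓT
  obtain ⟨hℓ'N, hℓ'S, hℓ'B⟩ := hbad ℓ' hℓ' hℓ'T
  have hle₁ : L₁ ≤ L₁ ⊔ L₂ := le_sup_left
  have hle₂ : L₂ ≤ L₁ ⊔ L₂ := le_sup_right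
  have e1 := h₁ (g * τ) (σ' ^ j') (fun x hx => (hσg' x (hle₁ hx)).symm)
  have e2 := h₁ (σ ^ j) g (fun x hx => hσg x (hle₁ hx))
  have e3 := h₂ ℓ hℓ hℓN hℓS ℓ' hℓ' hℓ'N hℓ'S A A' P σ σ' g τ j j' hℓB hℓ'B hA hσ hA' hσ'
    hP hτ (fun x hx => hσg x (hle₂ hx)) (fun x hx => hσg' x (hle₂ hx))
  rw [trace_frob_pow H hℓ' hℓ'N hℓ'S A' hA' σ' hσ' j'] at e1
  rw [trace_frob_pow H hℓ hℓN hℓS A hA σ hσ j] at e2
  obtain ⟨c, hc⟩ := Ideal.mem_span_singleton'.1 e3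
  have e4 : H.π (lucasSeq (CuspForm.heckeAlgebra.T hℓ' hℓ'N hℓ'S :
        CuspForm.heckeAlgebra N 2 (↑S : Set ℕ)) (ℓ' : CuspForm.heckeAlgebra N 2 (↑S : Set ℕ)) j')
      - H.π (lucasSeq (CuspForm.heckeAlgebra.T hℓ hℓN hℓS :
        CuspForm.heckeAlgebra N 2 (↑S : Set ℕ)) (ℓ : CuspForm.heckeAlgebra N 2 (↑S : Set ℕ)) j)
      ∈ maximalIdeal T ^ n := by
    rw [← map_sub, ← hc, map_mul, map_pow, map_natCast]
    exact Ideal.mul_mem_left _ _ (Ideal.pow_mem_pow hpT n)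
  have := Ideal.add_mem _ (Ideal.add_mem _ e1 e4) e2
  convert this using 1
  abel

end main

end Fermat.Agent.GR.Adic
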