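import Mathlib
import Fermat.Agent.GR.Adic.Defs
import Fermat.Agent.GR.Adic.Core
import Fermat.Agent.GR.Adic.Saturation
import Fermat.Agent.GR.Adic.S31Formal
import Fermat.Agent.GR.Asm.Cyclo

/-!
# S31, geometric part: `Core M p` + `LevelRes N M` imply `HeckeCongruence`
-/

set_option autoImplicit false

namespace Fermat.Agent.GR.Adic

open Fermat.Agent.GR.Asm (frobenius_spec inertia_spec mem_of_pow_eq_one mul_mem_nonunits_of_mem
  eq_one_of_sub_one_mem_nonunits)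

local notation "Qbar'" => AlgebraicClosure ℚ

/-! ### Roots of unity of `p`-power order -/

theorem s31_eq_one_of_pow_pow_eq_one (A : ValuationSubring Qbar') {ℓ p : ℕ} (hp : p.Prime)
    (hℓ : ℓ.Prime) (hne : ℓ ≠ p) (hA : A.LiesOverPrime ℓ) (m : ℕ) {η : Qbar'}
    (hη : η ^ (p ^ m) = 1) (h : η - 1 ∈ A.nonunits) : η = 1 := by
  induction m generalizing η with
  | zero => simpa using hη
  | succ m ih =>
    have hmem : η ∈ A := mem_of_pow_eq_one A (pow_pos hp.pos _) hη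
    have h1 : η ^ p = 1 := by
      apply ih
      · rw [← pow_mul, ← pow_succ']; exact hη
      · have h2 : η ^ p - 1 = (η - 1) * ∑ i ∈ Finset.range p, η ^ i := by
          rw [mul_comm, geom_sum_mul]
        rw [h2]
        exact mul_mem_nonunits_of_mem A h (sum_mem fun i _ => pow_mem hmem i)
    exact eq_one_of_sub_one_mem_nonunits A hp hℓ hne hA h1 h

theorem s31_eq_of_sub_mem_nonunits (A : ValuationSubring Qbar') {ℓ p : ℕ} (hp : p.Prime)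
    (hℓ : ℓ.Prime) (hne : ℓ ≠ p) (hA : A.LiesOverPrime ℓ) (m : ℕ) {a b : Qbar'}
    (ha : a ^ (p ^ m) = 1) (hb : b ^ (p ^ m) = 1) (h : a - b ∈ A.nonunits) : a = b := by
  have hpos : 0 < p ^ m := pow_pos hp.pos _
  have hb0 : b ≠ 0 := by
    rintro rfl
    rw [zero_pow hpos.ne'] at hb
    exact zero_ne_one hb
  have hinv : b⁻¹ ∈ A := mem_of_pow_eq_one A hpos (by rw [inv_pow, hb, inv_one])
  have h2 : a * b⁻¹ = 1 := by
    apply s31_eq_one_of_pow_pow_eq_one A hp hℓ hne hA m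
    · rw [mul_pow, ha, inv_pow, hb, inv_one, one_mul]
    · have h3 : a * b⁻¹ - 1 = (a - b) * b⁻¹ := by
        rw [sub_mul, mul_inv_cancel₀ hb0]
      rw [h3]
      exact mul_mem_nonunits_of_mem A h hinv
  exact (mul_inv_eq_one₀ hb0).1 h2

theorem s31_frobenius_root (A : ValuationSubring Qbar') {ℓ p : ℕ} (hp : p.Prime)
    (hℓ : ℓ.Prime) (hne : ℓ ≠ p) (hA : A.LiesOverPrime ℓ) (σ : GQ) (hσ : A.IsFrobeniusAt σ ℓ)
    (m : ℕ) {ζ : Qbar'} (hζ : ζ ^ (p ^ m) = 1) : σ ζ = ζ ^ ℓ := by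
  have hmem : ζ ∈ A := mem_of_pow_eq_one A (pow_pos hp.pos _) hζ
  apply s31_eq_of_sub_mem_nonunits A hp hℓ hne hA m
  · rw [← map_pow, hζ, map_one]
  · rw [← pow_mul, mul_comm, pow_mul, hζ, one_pow]
  · exact (frobenius_spec A σ ℓ hσ).2 ζ hmem

theorem s31_frobenius_pow_root (A : ValuationSubring Qbar') {ℓ p : ℕ} (hp : p.Prime)
    (hℓ : ℓ.Prime) (hne : ℓ ≠ p) (hA : A.LiesOverPrime ℓ) (σ : GQ) (hσ : A.IsFrobeniusAt σ ℓ)
    (m : ℕ) {ζ : Qbar'} (hζ : ζ ^ (p ^ m) = 1) (j : ℕ) : (σ ^ j) ζ = ζ ^ (ℓ ^ j) := by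
  induction j with
  | zero => simp
  | succ j ih =>
    rw [pow_succ', AlgEquiv.mul_apply, ih, map_pow,
      s31_frobenius_root A hp hℓ hne hA σ hσ m hζ, ← pow_mul, ← pow_succ']

theorem s31_inertia_root (A : ValuationSubring Qbar') {ℓ p : ℕ} (hp : p.Prime)
    (hℓ : ℓ.Prime) (hne : ℓ ≠ p) (hA : A.LiesOverPrime ℓ) (σ : GQ)
    (hσ : σ ∈ A.inertiaSubgroupIn ℚ) (m : ℕ) {ζ : Qbar'} (hζ : ζ ^ (p ^ m) = 1) : σ ζ = ζ := by
  have hmem : ζ ∈ A := mem_of_pow_eq_one A (pow_pos hp.pos _) hζ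
  apply s31_eq_of_sub_mem_nonunits A hp hℓ hne hA m
  · rw [← map_pow, hζ, map_one]
  · exact hζ
  · exact (inertia_spec A σ hσ).2 ζ hmem

/-! ### Normal finite levels -/

/-- Every finite level is contained in a finite level stable under `G_ℚ`. -/
theorem s31_exists_normal_level (L₀ : IntermediateField ℚ Qbar') (h₀ : FiniteDimensional ℚ L₀) :
    ∃ L : IntermediateField ℚ Qbar', FiniteDimensional ℚ L ∧ L₀ ≤ L ∧
      ∀ (a : GQ), ∀ y ∈ L, a y ∈ L := by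
  have hcl : IsAlgClosure ℚ Qbar' := ⟨inferInstance, AlgebraicClosure.isAlgebraic ℚ⟩
  have hQ : Normal ℚ Qbar' := IsAlgClosure.normal ℚ Qbar'
  refine ⟨IntermediateField.normalClosure ℚ L₀ Qbar',
    normalClosure.is_finiteDimensional ℚ L₀ Qbar', IntermediateField.le_normalClosure L₀, ?_⟩
  intro a y hy
  have hn : Normal ℚ (IntermediateField.normalClosure ℚ L₀ Qbar') :=
    normalClosure.normal ℚ L₀ Qbar'
  have := (IntermediateField.normal_iff_forall_map_le'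
    (K := IntermediateField.normalClosure ℚ L₀ Qbar')).1 hn a
  exact this ⟨y, hy, rfl⟩

theorem s31_inv_agree {L : IntermediateField ℚ Qbar'} (hL : ∀ (a : GQ), ∀ y ∈ L, a y ∈ L)
    {a b : GQ} (hab : ∀ y ∈ L, a y = b y) : ∀ y ∈ L, a⁻¹ y = b⁻¹ y := by
  intro y hy
  have h1 : a⁻¹ y ∈ L := hL _ y hy
  have h2 := hab _ h1
  have h3 : a (a⁻¹ y) = y := a.apply_symm_apply y
  rw [h3] at h2
  calc a⁻¹ y = b⁻¹ (b (a⁻¹ y)) := (b.symm_apply_apply _).symm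
    _ = b⁻¹ y := by rw [← h2]

theorem s31_nsmul_eq_of_modEq {W : Type*} [AddCommGroup W] {a b M : ℕ} (h : a ≡ b [MOD M])
    {y : W} (hy : M • y = 0) : a • y = b • y := by
  have h1 : (M : ℤ) ∣ (b : ℤ) - a := (Nat.modEq_iff_dvd).1 h
  obtain ⟨k, hk⟩ := h1
  have h2 : ((b : ℤ) - a) • y = 0 := by
    rw [hk, mul_comm, mul_smul, natCast_zsmul, hy, smul_zero]
  rw [sub_smul, natCast_zsmul, natCast_zsmul, sub_eq_zero] at h2
  exact h2.symm

theorem s31_two_apply {R Z : Type*} [CommRing R] [AddCommGroup Z] [Module R Z] (z : Z) :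
    (2 : Module.End R Z) z = z + z := by
  rw [← one_add_one_eq_two]; rfl

/-- Intertwining of Lucas sequences. -/
theorem s31_lucasSeq_intertwine {R X Y : Type*} [CommRing R] [AddCommGroup X] [AddCommGroup Y]
    [Module R X] [Module R Y] (κ : X →ₗ[R] Y) {a d : Module.End R X} {a' d' : Module.End R Y}
    (ha : ∀ x, κ (a x) = a' (κ x)) (hd : ∀ x, κ (d x) = d' (κ x)) (j : ℕ) (x : X) :
    κ (lucasSeq a d j x) = lucasSeq a' d' j (κ x) := by
  induction j using Nat.strong_induction_on generalizing x with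
  | _ j ih =>
    match j with
    | 0 =>
      simp only [lucasSeq_zero]
      rw [s31_two_apply, s31_two_apply, map_add]
    | 1 => simpa using ha x
    | (i + 2) =>
      rw [lucasSeq_add_two, lucasSeq_add_two, LinearMap.sub_apply, LinearMap.sub_apply, map_sub,
        Module.End.mul_apply, Module.End.mul_apply, Module.End.mul_apply, Module.End.mul_apply,
        ha, hd, ih (i + 1) (by omega), ih i (by omega)]

/-! ### Generalities on a `Core` -/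

namespace Core

variable {M p : ℕ} [NeZero M] (C : Core M p)

theorem s31_pow_smul_kappa (k i : ℕ) (x : C.L0) : (p ^ k) • C.κ (i + k) x = C.κ i x := by
  induction k with
  | zero => simp
  | succ k ih =>
    rw [pow_succ, mul_smul, ← add_assoc, C.κ_succ, ih]

theorem s31_kappa_zero (x : C.L0) : C.κ 0 x = 0 :=
  (C.κ_ker 0 x).2 ⟨x, by simp⟩

theorem s31_pow_smul_kappa_self (m : ℕ) (x : C.L0) : (p ^ m) • C.κ m x = 0 := by
  have := C.s31_pow_smul_kappa m 0 x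
  rw [zero_add] at this
  rw [this, C.s31_kappa_zero]

/-- A common finite level for the image of `κ m`. -/
theorem s31_exists_level (m : ℕ) :
    ∃ L : IntermediateField ℚ Qbar', FiniteDimensional ℚ L ∧
      ∀ σ : GQ, FixesLevel L σ → ∀ x : C.L0, C.act σ (C.κ m x) = C.κ m x := by
  classical
  let b := Module.Free.chooseBasis ℤ C.L0
  have key : ∀ s : Finset (Module.Free.ChooseBasisIndex ℤ C.L0),
      ∃ L : IntermediateField ℚ Qbar', FiniteDimensional ℚ L ∧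
        ∀ σ : GQ, FixesLevel L σ → ∀ i ∈ s, C.act σ (C.κ m (b i)) = C.κ m (b i) := by
    intro s
    induction s using Finset.induction_on with
    | empty => exact ⟨⊥, inferInstance, fun _ _ _ h => absurd h (Finset.notMem_empty _)⟩
    | insert a s _ ih =>
      obtain ⟨L, hL, h⟩ := ih
      obtain ⟨L', hL', h'⟩ := C.smooth (C.κ m (b a))
      refine ⟨L ⊔ L', IntermediateField.finiteDimensional_sup L L', fun σ hσ i hi => ?_⟩
      rcases Finset.mem_insert.1 hi with rfl | hi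
      · exact h' σ (fun y hy => hσ y ((le_sup_right : L' ≤ L ⊔ L') hy))
      · exact h σ (fun y hy => hσ y ((le_sup_left : L ≤ L ⊔ L') hy)) i hi
  obtain ⟨L, hL, h⟩ := key Finset.univ
  refine ⟨L, hL, fun σ hσ x => ?_⟩
  have hcomp : (C.act σ) ∘ₗ (C.κ m) = C.κ m :=
    b.ext fun i => h σ hσ i (Finset.mem_univ i)
  exact congrArg (fun f : C.L0 →ₗ[ℤ] C.W => f x) hcomp

/-- The Eichler--Shimura relation for powers of a Frobenius. -/
theorem s31_lucas_apply {ℓ : ℕ} (hℓ : ℓ.Prime) (hbad : ¬ ℓ ∣ M * p) (A : ValuationSubring Qbar')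
    (hA : A.LiesOverPrime ℓ) (σ : GQ) (hσ : A.IsFrobeniusAt σ ℓ) (j : ℕ) (x : C.W) :
    lucasSeq (C.T ℓ) (ℓ : Module.End ℤ C.W) j x
      = C.act (σ ^ j) x + (ℓ ^ j) • (C.act (σ ^ j)⁻¹ x) := by
  have hℓM : ¬ ℓ ∣ M := fun h => hbad (Dvd.dvd.mul_right h p)
  have h1 : C.act σ * C.act σ⁻¹ = 1 := by rw [← map_mul, mul_inv_cancel, map_one]
  have h2 : C.act σ⁻¹ * C.act σ = 1 := by rw [← map_mul, inv_mul_cancel, map_one]
  have hcast : ∀ z : Module.End ℤ C.W, Commute (ℓ : Module.End ℤ C.W) z :=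
    fun z => Nat.cast_commute ℓ z
  have hc : Commute (C.act σ) ((ℓ : Module.End ℤ C.W) * C.act σ⁻¹) := by
    rw [Commute, SemiconjBy, ← mul_assoc, ← (hcast (C.act σ)).eq, mul_assoc, h1, mul_assoc, h2]
  have hsum : C.act σ + (ℓ : Module.End ℤ C.W) * C.act σ⁻¹ = C.T ℓ := by
    have h3 := C.frob ℓ hℓ hbad A hA σ hσ
    have h4 := congrArg (fun z => z * C.act σ⁻¹) h3
    simp only [add_mul, sub_mul, zero_mul, mul_assoc, h1, mul_one] at h4
    rw [← sub_eq_zero, ← h4]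
    abel
  have hprod : C.act σ * ((ℓ : Module.End ℤ C.W) * C.act σ⁻¹) = (ℓ : Module.End ℤ C.W) := by
    rw [← mul_assoc, ← (hcast (C.act σ)).eq, mul_assoc, h1, mul_one]
  have h5 := pow_add_pow_eq_lucasSeq hc j
  rw [hsum, hprod] at h5
  rw [← h5, ((hcast (C.act σ⁻¹))).mul_pow, LinearMap.add_apply, Module.End.mul_apply, ← map_pow,
    ← map_pow, inv_pow, ← Nat.cast_pow]
  congr 1

end Core

/-- **The Hecke congruence at level `M`.** -/
theorem Core.heckeCongr {M p : ℕ} [NeZero M] (hp : p.Prime) (C : Core M p) {q : ℕ}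
    (hq : q.Prime) (hqM : ¬ q ∣ M * p) (S' : Set ℕ) (hS' : badSet M ⊆ S') (n : ℕ) :
    ∃ L : IntermediateField ℚ Qbar', FiniteDimensional ℚ L ∧
      ∀ (ℓ : ℕ) (hℓ : ℓ.Prime) (hℓM : ¬ ℓ ∣ M) (hℓS : ℓ ∉ S')
        (ℓ' : ℕ) (hℓ' : ℓ'.Prime) (hℓ'M : ¬ ℓ' ∣ M) (hℓ'S : ℓ' ∉ S')
        (A A' P : ValuationSubring Qbar') (σ σ' g t : GQ) (j j' : ℕ),
      ℓ ≠ p → ℓ' ≠ p → A.LiesOverPrime ℓ → A.IsFrobeniusAt σ ℓ →
      A'.LiesOverPrime ℓ' → A'.IsFrobeniusAt σ' ℓ' →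
      P.LiesOverPrime q → t ∈ P.inertiaSubgroupIn ℚ →
      (∀ x ∈ L, (σ ^ j) x = g x) → (∀ x ∈ L, (σ' ^ j') x = (g * t) x) →
      lucasSeq (CuspForm.heckeAlgebra.T hℓ' hℓ'M hℓ'S : CuspForm.heckeAlgebra M 2 S')
          (ℓ' : CuspForm.heckeAlgebra M 2 S') j'
        - lucasSeq (CuspForm.heckeAlgebra.T hℓ hℓM hℓS : CuspForm.heckeAlgebra M 2 S')
          (ℓ : CuspForm.heckeAlgebra M 2 S') j
        ∈ Ideal.span {((p : CuspForm.heckeAlgebra M 2 S')) ^ n} := by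
  classical
  have hqp : q ≠ p := fun h => hqM (h ▸ Dvd.intro_left M rfl)
  -- the faithful action on `L0`
  let inc : CuspForm.heckeAlgebra M 2 S' →+* CuspForm.heckeAlgebra M 2 (badSet M) :=
    (Subalgebra.inclusion (CuspForm.heckeAlgebra_mono hS')).toRingHom
  have hinc : Function.Injective inc := Subalgebra.inclusion_injective _
  let φ : CuspForm.heckeAlgebra M 2 S' →+* Module.End ℤ C.L0 := C.ι.comp inc
  have hφinj : Function.Injective φ := C.ι_inj.comp hinc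
  have hφT : ∀ (ℓ : ℕ) (hℓ : ℓ.Prime) (hℓM : ¬ ℓ ∣ M) (hℓS : ℓ ∉ S'),
      φ (CuspForm.heckeAlgebra.T hℓ hℓM hℓS) = C.T0 ℓ := by
    intro ℓ hℓ hℓM hℓS
    rw [← C.ι_T ℓ hℓ hℓM]
    rfl
  let TT : Submodule ℤ (Module.End ℤ C.L0) := LinearMap.range φ.toAddMonoidHom.toIntLinearMap
  obtain ⟨c, hc⟩ := exists_saturation TT p
  set m := n + c with hm
  have hpos : 0 < p ^ m := pow_pos hp.pos _
  -- levels
  obtain ⟨L₁, hL₁, h₁⟩ := C.s31_exists_level m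
  have : NeZero ((p ^ m : ℕ) : Qbar') := ⟨Nat.cast_ne_zero.mpr hpos.ne'⟩
  obtain ⟨ζ, hζ⟩ := HasEnoughRootsOfUnity.exists_primitiveRoot Qbar' (p ^ m)
  have hint : IsIntegral ℚ ζ := (hζ.isIntegral hpos).tower_top
  have hL₂ : FiniteDimensional ℚ (IntermediateField.adjoin ℚ {ζ}) :=
    IntermediateField.adjoin.finiteDimensional hint
  obtain ⟨L, hL, hle, hnorm⟩ := s31_exists_normal_level (L₁ ⊔ IntermediateField.adjoin ℚ {ζ})
    (IntermediateField.finiteDimensional_sup _ _)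
  refine ⟨L, hL, ?_⟩
  intro ℓ hℓ hℓM hℓS ℓ' hℓ' hℓ'M hℓ'S A A' P σ σ' g t j j' hℓp hℓ'p hA hσ hA' hσ' hP ht hg hgt
  have hℓb : ¬ ℓ ∣ M * p := fun h =>
    (hℓ.dvd_mul.1 h).elim hℓM (fun h' => hℓp ((Nat.prime_dvd_prime_iff_eq hℓ hp).1 h'))
  have hℓ'b : ¬ ℓ' ∣ M * p := fun h =>
    (hℓ'.dvd_mul.1 h).elim hℓ'M (fun h' => hℓ'p ((Nat.prime_dvd_prime_iff_eq hℓ' hp).1 h'))
  have hζL : ζ ∈ L := hle ((le_sup_right : IntermediateField.adjoin ℚ {ζ} ≤ _)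
    (IntermediateField.mem_adjoin_simple_self ℚ ζ))
  -- the cyclotomic congruence
  have hcong : ℓ ^ j ≡ ℓ' ^ j' [MOD p ^ m] := by
    have e1 : ζ ^ (ℓ ^ j) = g ζ := by
      rw [← s31_frobenius_pow_root A hp hℓ hℓp hA σ hσ m hζ.pow_eq_one j]; exact hg ζ hζL
    have e2 : ζ ^ (ℓ' ^ j') = g ζ := by
      rw [← s31_frobenius_pow_root A' hp hℓ' hℓ'p hA' σ' hσ' m hζ.pow_eq_one j', hgt ζ hζL,
        AlgEquiv.mul_apply, s31_inertia_root P hp hq hqp hP t ht m hζ.pow_eq_one]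
    have hfin : IsOfFinOrder ζ := isOfFinOrder_iff_pow_eq_one.mpr ⟨p ^ m, hpos, hζ.pow_eq_one⟩
    have := hfin.pow_eq_pow_iff_modEq.mp (e1.trans e2.symm)
    rwa [← hζ.eq_orderOf] at this
  -- agreement on the image of `κ m`
  have hagree : ∀ a b : GQ, (∀ x ∈ L, a x = b x) →
      ∀ x : C.L0, C.act a (C.κ m x) = C.act b (C.κ m x) := by
    intro a b hab x
    have hfix : FixesLevel L₁ (b⁻¹ * a) := by
      intro y hy
      rw [AlgEquiv.mul_apply, hab y (hle ((le_sup_left : L₁ ≤ _) hy))]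
      exact b.symm_apply_apply y
    have h2 := h₁ _ hfix x
    have h3 : C.act a = C.act b * C.act (b⁻¹ * a) := by rw [← map_mul, mul_inv_cancel_left]
    rw [h3, Module.End.mul_apply, h2]
  have htriv : C.act t = 1 := C.inertia q hq hqM P hP t ht
  have htriv' : C.act t⁻¹ = 1 := by
    have : C.act t⁻¹ * C.act t = 1 := by rw [← map_mul, inv_mul_cancel, map_one]
    rwa [htriv, mul_one] at this
  -- `Δ` kills the image of `κ m`
  have hkill : ∀ x : C.L0,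
      lucasSeq (C.T ℓ') (ℓ' : Module.End ℤ C.W) j' (C.κ m x)
        = lucasSeq (C.T ℓ) (ℓ : Module.End ℤ C.W) j (C.κ m x) := by
    intro x
    rw [C.s31_lucas_apply hℓ' hℓ'b A' hA' σ' hσ' j', C.s31_lucas_apply hℓ hℓb A hA σ hσ j,
      hagree _ _ hg x, hagree _ _ hgt x, hagree _ _ (s31_inv_agree hnorm hg) x,
      hagree _ _ (s31_inv_agree hnorm hgt) x, map_mul, htriv, mul_one, mul_inv_rev, map_mul,
      htriv', one_mul]
    congr 1
    refine (s31_nsmul_eq_of_modEq hcong ?_).symm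
    rw [← map_nsmul, C.s31_pow_smul_kappa_self, map_zero]
  -- transfer to `L0`
  have hcastL0 : ∀ (k : ℕ) (x : C.L0), C.κ m ((k : Module.End ℤ C.L0) x)
      = (k : Module.End ℤ C.W) (C.κ m x) := by
    intro k x
    have e1 : ∀ (Z : Type) [AddCommGroup Z] (z : Z), (k : Module.End ℤ Z) z = k • z := by
      intro Z _ z
      rw [← Nat.cast_smul_eq_nsmul (Module.End ℤ Z) k z]; rfl
    rw [e1, e1, map_nsmul]
  have hL0 : ∀ x : C.L0, ∃ y : C.L0,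
      φ (lucasSeq (CuspForm.heckeAlgebra.T hℓ' hℓ'M hℓ'S : CuspForm.heckeAlgebra M 2 S')
          (ℓ' : CuspForm.heckeAlgebra M 2 S') j'
        - lucasSeq (CuspForm.heckeAlgebra.T hℓ hℓM hℓS : CuspForm.heckeAlgebra M 2 S')
          (ℓ : CuspForm.heckeAlgebra M 2 S') j) x = ((p : ℤ) ^ (n + c)) • y := by
    intro x
    rw [map_sub, map_lucasSeq, map_lucasSeq, hφT, hφT, map_natCast, map_natCast]
    have h6 : C.κ m ((lucasSeq (C.T0 ℓ') (ℓ' : Module.End ℤ C.L0) j'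
        - lucasSeq (C.T0 ℓ) (ℓ : Module.End ℤ C.L0) j) x) = 0 := by
      rw [LinearMap.sub_apply, map_sub,
        s31_lucasSeq_intertwine (C.κ m) (C.κ_T ℓ' hℓ' hℓ'M m) (hcastL0 ℓ') j' x,
        s31_lucasSeq_intertwine (C.κ m) (C.κ_T ℓ hℓ hℓM m) (hcastL0 ℓ) j x, hkill, sub_self]
    obtain ⟨y, hy⟩ := (C.κ_ker m _).1 h6
    refine ⟨y, ?_⟩
    rw [hy, ← hm, ← Nat.cast_pow, natCast_zsmul]
  obtain ⟨D', ⟨δ, hδ⟩, hD'⟩ := hc n _ ⟨_, rfl⟩ hL0
  have hδ' : φ δ = D' := hδ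
  rw [Ideal.mem_span_singleton']
  refine ⟨δ, ?_⟩
  apply hφinj
  have hD'' : φ (lucasSeq (CuspForm.heckeAlgebra.T hℓ' hℓ'M hℓ'S : CuspForm.heckeAlgebra M 2 S')
          (ℓ' : CuspForm.heckeAlgebra M 2 S') j'
        - lucasSeq (CuspForm.heckeAlgebra.T hℓ hℓM hℓS : CuspForm.heckeAlgebra M 2 S')
          (ℓ : CuspForm.heckeAlgebra M 2 S') j) = ((p : ℤ) ^ n) • D' := hD'
  rw [hD'', map_mul, map_pow, map_natCast, hδ', zsmul_eq_mul, Int.cast_pow, Int.cast_natCast]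
  exact ((Nat.cast_commute p D').pow_left n).eq.symm

/-- `HeckeCongruence` at level `N` from a `Core` at an auxiliary level `M` and `LevelRes`. -/
theorem heckeCongruence_of_core {p : ℕ} (hp : p.Prime) {N M : ℕ} [NeZero N] [NeZero M]
    {S : Finset ℕ} (hpS : p ∈ S) (C : Core M p) (hLR : LevelRes N M)
    {q : ℕ} (hq : q.Prime) (hqM : ¬ q ∣ M * p) :
    HeckeCongruence N S p q M.primeFactors := by
  obtain ⟨r, hr⟩ := hLR (↑S : Set ℕ) ((↑S : Set ℕ) ∪ badSet M) Set.subset_union_left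
    Set.subset_union_right
  intro n
  obtain ⟨L, hL, h⟩ := C.heckeCongr hp hq hqM ((↑S : Set ℕ) ∪ badSet M) Set.subset_union_right n
  refine ⟨L, hL, ?_⟩
  intro ℓ hℓ hℓN hℓS ℓ' hℓ' hℓ'N hℓ'S A A' P σ σ' g t j j' hℓB hℓ'B hA hσ hA' hσ' hP ht hg hgt
  have hM : ∀ ℓ : ℕ, ℓ.Prime → ℓ ∉ M.primeFactors → ¬ ℓ ∣ M := fun ℓ hℓ hB hd =>
    hB (Nat.mem_primeFactors.2 ⟨hℓ, hd, NeZero.ne M⟩)
  have hℓM := hM ℓ hℓ hℓB
  have hℓ'M := hM ℓ' hℓ' hℓ'B
  have hS' : ∀ ℓ : ℕ, ℓ ∉ (↑S : Set ℕ) → ¬ ℓ ∣ M → ℓ ∉ (↑S : Set ℕ) ∪ badSet M :=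
    fun ℓ h1 h2 h3 => h3.elim h1 (not_mem_badSet h2)
  have hne : ∀ ℓ : ℕ, ℓ ∉ (↑S : Set ℕ) → ℓ ≠ p := fun ℓ h1 h2 => h1 (h2 ▸ Finset.mem_coe.2 hpS)
  have := h ℓ hℓ hℓM (hS' ℓ hℓS hℓM) ℓ' hℓ' hℓ'M (hS' ℓ' hℓ'S hℓ'M) A A' P σ σ' g t j j'
    (hne ℓ hℓS) (hne ℓ' hℓ'S) hA hσ hA' hσ' hP ht hg hgt
  obtain ⟨c, hc⟩ := Ideal.mem_span_singleton'.1 this
  have h2 := congrArg r hc
  rw [map_mul, map_pow, map_natCast, map_sub, map_lucasSeq, map_lucasSeq, map_natCast,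
    map_natCast, hr ℓ hℓ hℓM (hS' ℓ hℓS hℓM) hℓN hℓS,
    hr ℓ' hℓ' hℓ'M (hS' ℓ' hℓ'S hℓ'M) hℓ'N hℓ'S] at h2
  exact Ideal.mem_span_singleton'.2 ⟨r c, h2⟩

/-- **S31 from weak Chebotarev, `Core M p` and `LevelRes N M`**, where `M` is any auxiliary level
with `q ∤ M p` (`M = 4N` for `q ≠ 2`, `M = 9N` for `q = 2`). -/
theorem S31_of_core (hcheb : Fermat.Agent.GR.Asm.WeakChebotarev)
    {p : ℕ} {N : ℕ} [NeZero N] {S : Finset ℕ}
    {𝒪 : Type} [CommRing 𝒪] [IsDomain 𝒪] [IsDiscreteValuationRing 𝒪]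
    [IsAdicComplete (IsLocalRing.maximalIdeal 𝒪) 𝒪]
    {θ : CuspForm.heckeAlgebra N 2 (↑S : Set ℕ) →+* IsLocalRing.ResidueField 𝒪}
    {T : Type} [CommRing T] [IsLocalRing T] [IsNoetherianRing T]
    [IsAdicComplete (IsLocalRing.maximalIdeal T) T] [Algebra 𝒪 T] [IsLocalHom (algebraMap 𝒪 T)]
    [Module.Finite 𝒪 T] [Module.Free 𝒪 T]
    (hp : p.Prime) (hp𝒪 : (p : 𝒪) ∈ IsLocalRing.maximalIdeal 𝒪) (hpS : p ∈ S)
    (H : CuspForm.HeckeGaloisRepDatum N (↑S : Set ℕ) 𝒪 θ T)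
    (q : ℕ) (hq : q.Prime) {M : ℕ} [NeZero M] (C : Core M p) (hLR : LevelRes N M)
    (hqM : ¬ q ∣ M * p) :
    H.ρ.IsUnramifiedAt q :=
  S31_of_heckeCongruence hcheb hp𝒪 H q M.primeFactors
    (heckeCongruence_of_core hp hpS C hLR hq hqM)

/-- **S31, final wiring**: from weak Chebotarev, the cores at the levels `4N`, `9N` and level
restriction. -/
theorem S31_of_cores (hcheb : Fermat.Agent.GR.Asm.WeakChebotarev)
    {p : ℕ} {N : ℕ} [NeZero N] {S : Finset ℕ}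
    {𝒪 : Type} [CommRing 𝒪] [IsDomain 𝒪] [IsDiscreteValuationRing 𝒪]
    [IsAdicComplete (IsLocalRing.maximalIdeal 𝒪) 𝒪]
    {θ : CuspForm.heckeAlgebra N 2 (↑S : Set ℕ) →+* IsLocalRing.ResidueField 𝒪}
    {T : Type} [CommRing T] [IsLocalRing T] [IsNoetherianRing T]
    [IsAdicComplete (IsLocalRing.maximalIdeal T) T] [Algebra 𝒪 T] [IsLocalHom (algebraMap 𝒪 T)]
    [Module.Finite 𝒪 T] [Module.Free 𝒪 T]
    [NeZero (4 * N)] [NeZero (9 * N)]
    (C4 : Core (4 * N) p) (C9 : Core (9 * N) p)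
    (hLR4 : LevelRes N (4 * N)) (hLR9 : LevelRes N (9 * N))
    (hp : p.Prime) (hp𝒪 : (p : 𝒪) ∈ IsLocalRing.maximalIdeal 𝒪) (hpS : p ∈ S)
    (hNS : ∀ q : ℕ, q.Prime → q ∣ N → q ∈ S)
    (H : CuspForm.HeckeGaloisRepDatum N (↑S : Set ℕ) 𝒪 θ T)
    (q : ℕ) (hq : q.Prime) (hqS : q ∉ S) :
    H.ρ.IsUnramifiedAt q := by
  have hqN : ¬ q ∣ N := fun h => hqS (hNS q hq h)
  have hqp : ¬ q ∣ p := fun h => hqS (((Nat.prime_dvd_prime_iff_eq hq hp).1 h) ▸ hpS)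
  by_cases h2 : q = 2
  · refine S31_of_core hcheb hp hp𝒪 hpS H q hq C9 hLR9 ?_
    intro h
    rcases hq.dvd_mul.1 h with h | h
    · rcases hq.dvd_mul.1 h with h | h
      · subst h2; omega
      · exact hqN h
    · exact hqp h
  · refine S31_of_core hcheb hp hp𝒪 hpS H q hq C4 hLR4 ?_
    intro h
    rcases hq.dvd_mul.1 h with h | h
    · rcases hq.dvd_mul.1 h with h | h
      · have h4 : q ∣ 2 ^ 2 := by simpa using h
        exact h2 ((Nat.prime_dvd_prime_iff_eq hq Nat.prime_two).1 (hq.dvd_of_dvd_pow h4))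
      · exact hqN h
    · exact hqp h

end Fermat.Agent.GR.Adic
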