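/-
GR/Adic/Final : S30 and S31 from the SINGLE remaining contract `GAL.KeyLemmaStatement` (block KL).
Everything else (AN + DESC, HK, ESR, CHEB, CoreBuild, Tate, RelT, AdicRep, LevelRes) is plugged in.
-/
import Mathlib
import Fermat.Agent.GR.Adic.S30Main
import Fermat.Agent.GR.Adic.S31Geom
import Fermat.Agent.GR.Adic.LevelRes
import Fermat.Agent.GR.CB.Main
import Fermat.Agent.GR.CB.Contract
import Fermat.Agent.GAL.AN.Main
import Fermat.Agent.GAL.HK.Input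
import Fermat.Agent.GAL.Cheb.Export

set_option autoImplicit false

open Polynomial CuspForm

namespace Fermat.Agent.GR.Adic

/-- weak Chebotarev in the shape of the adic layer -/
theorem weakCheb : WeakCheb := Fermat.Agent.GAL.Cheb.weakChebotarev_asm

/-- the `p`-divisible Eichler--Shimura system of level `M` (`4 ∣ M` or `9 ∣ M`) exists. -/
theorem coreStatement_of_keyLemma (hK : Fermat.Agent.GAL.KeyLemmaStatement) : CoreStatement := by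
  intro M p _ hp hM
  obtain ⟨𝒜⟩ := CB.nonempty_anFamily_of_anSystem (p := p) hp.ne_zero
    (Fermat.Agent.GAL.exists_anSystem M hM)
  exact CB.nonempty_core_gauss hp hM 𝒜 hK (Fermat.Agent.GAL.HK.hkInput M)

theorem S30_of_keyLemma (hK : Fermat.Agent.GAL.KeyLemmaStatement) :
    ∀ (p : ℕ) [Fact p.Prime] (N : ℕ) [NeZero N] (S : Finset ℕ)
      (_hpS : p ∈ S) (_hNS : ∀ q : ℕ, q.Prime → q ∣ N → q ∈ S)
      (𝒪' : Type) [CommRing 𝒪'] [IsDomain 𝒪'] [IsDiscreteValuationRing 𝒪']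
      [IsAdicComplete (IsLocalRing.maximalIdeal 𝒪') 𝒪'] [Finite (IsLocalRing.ResidueField 𝒪')]
      [CharZero 𝒪'] (_hp𝒪' : (p : 𝒪') ∈ IsLocalRing.maximalIdeal 𝒪')
      (χ : CuspForm.heckeAlgebra N 2 (↑S : Set ℕ) →+* 𝒪'),
      ∃ (𝒪'' : Type) (_ : CommRing 𝒪'') (_ : IsDomain 𝒪'') (_ : IsDiscreteValuationRing 𝒪'')
        (_ : IsAdicComplete (IsLocalRing.maximalIdeal 𝒪'') 𝒪'')
        (_ : Finite (IsLocalRing.ResidueField 𝒪'')) (_ : CharZero 𝒪'')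
        (_ : Algebra 𝒪' 𝒪'') (_ : Module.Finite 𝒪' 𝒪'') (_ : IsLocalHom (algebraMap 𝒪' 𝒪'')),
      Function.Injective (algebraMap 𝒪' 𝒪'') ∧
      ∃ ρ : GaloisRepAdic 𝒪'',
        (∀ (ℓ : ℕ) (hℓ : ℓ.Prime) (hℓN : ¬ ℓ ∣ N) (hℓS : ℓ ∉ (↑S : Set ℕ)),
          ∀ A : ValuationSubring (AlgebraicClosure ℚ), A.LiesOverPrime ℓ →
            ∀ σ : AlgebraicClosure ℚ ≃ₐ[ℚ] AlgebraicClosure ℚ, A.IsFrobeniusAt σ ℓ →
              LinearMap.charpoly (ρ.ρ σ) =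
                X ^ 2 - C (algebraMap 𝒪' 𝒪'' (χ (CuspForm.heckeAlgebra.T hℓ hℓN hℓS))) * X
                  + C ((ℓ : 𝒪''))) ∧
        (∀ q : ℕ, q.Prime → ¬ q ∣ N → q ≠ p → ρ.IsUnramifiedAt q) :=
  S30_of_core weakCheb (coreStatement_of_keyLemma hK)

theorem S31_of_keyLemma (hK : Fermat.Agent.GAL.KeyLemmaStatement)
    {p : ℕ} {N : ℕ} [NeZero N] {S : Finset ℕ}
    {𝒪 : Type} [CommRing 𝒪] [IsDomain 𝒪] [IsDiscreteValuationRing 𝒪]
    [IsAdicComplete (IsLocalRing.maximalIdeal 𝒪) 𝒪]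
    {θ : CuspForm.heckeAlgebra N 2 (↑S : Set ℕ) →+* IsLocalRing.ResidueField 𝒪}
    {T : Type} [CommRing T] [IsLocalRing T] [IsNoetherianRing T]
    [IsAdicComplete (IsLocalRing.maximalIdeal T) T] [Algebra 𝒪 T] [IsLocalHom (algebraMap 𝒪 T)]
    [Module.Finite 𝒪 T] [Module.Free 𝒪 T]
    (hp : p.Prime)
    (hp𝒪 : (p : 𝒪) ∈ IsLocalRing.maximalIdeal 𝒪) (hpS : p ∈ S)
    (hNS : ∀ q : ℕ, q.Prime → q ∣ N → q ∈ S)
    (H : CuspForm.HeckeGaloisRepDatum N (↑S : Set ℕ) 𝒪 θ T)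
    (q : ℕ) (hq : q.Prime) (hqS : q ∉ S) :
    H.ρ.IsUnramifiedAt q := by
  have h4 : NeZero (4 * N) := ⟨Nat.mul_ne_zero (by norm_num) (NeZero.ne N)⟩
  have h9 : NeZero (9 * N) := ⟨Nat.mul_ne_zero (by norm_num) (NeZero.ne N)⟩
  obtain ⟨C4⟩ := coreStatement_of_keyLemma hK (4 * N) p hp (Or.inl (Dvd.intro _ rfl))
  obtain ⟨C9⟩ := coreStatement_of_keyLemma hK (9 * N) p hp (Or.inr (Dvd.intro _ rfl))
  exact S31_of_cores Fermat.Agent.GAL.Cheb.weakChebotarev_asm C4 C9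
    (levelRes N (4 * N) (Dvd.intro_left _ rfl)) (levelRes N (9 * N) (Dvd.intro_left _ rfl))
    hp hp𝒪 hpS hNS H q hq hqS

end Fermat.Agent.GR.Adic
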