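import Mathlib
import Fermat.Agent.GR.Adic.ZpTo

/-!
# Coordinates on a `p`-divisible `p`-torsion group with finite `p`-torsion

`W ≃ (ℚ_p/ℤ_p)^r`; ring homomorphism `AddMonoid.End W →+* Matrix (Fin r) (Fin r) ℤ_[p]`.
-/

set_option autoImplicit false
set_option linter.style.haveILetI false
set_option linter.unusedSectionVars false

namespace Fermat.Agent.GR.Adic

open PadicInt

/-- `W` is `p`-power torsion, `p`-divisible, with finite `p`-torsion. -/
structure PDiv (p : ℕ) (W : Type*) [AddCommGroup W] : Prop where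
  tors : ∀ x : W, ∃ m : ℕ, p ^ m • x = 0
  div : ∀ x : W, ∃ y : W, p • y = x
  fin : {x : W | p • x = 0}.Finite

/-- Compatible bases `b · m` of the `p^m`-torsion of `W`. -/
structure Coords (p : ℕ) (W : Type*) [AddCommGroup W] (r : ℕ) where
  b : Fin r → ℕ → W
  b_zero : ∀ i, b i 0 = 0
  b_succ : ∀ i m, p • b i (m + 1) = b i m
  span : ∀ (m : ℕ) (x : W), p ^ m • x = 0 → ∃ c : Fin r → ℤ, x = ∑ i, c i • b i m
  indep : ∀ (m : ℕ) (c : Fin r → ℤ), ∑ i, c i • b i m = 0 → ∀ i, (p : ℤ) ^ m ∣ c i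
  tors : ∀ x : W, ∃ m : ℕ, p ^ m • x = 0

section Exists

variable {p : ℕ} [hp : Fact p.Prime] {W : Type*} [AddCommGroup W]

/-- auxiliary tower above an element -/
noncomputable def PDiv.tower (h : PDiv p W) (e : W) : ℕ → W
  | 0 => e
  | (m + 1) => Classical.choose (h.div (PDiv.tower h e m))

theorem PDiv.tower_succ (h : PDiv p W) (e : W) (m : ℕ) :
    p • h.tower e (m + 1) = h.tower e m :=
  Classical.choose_spec (h.div (h.tower e m))

/-- the `p`-torsion subgroup -/
def ptors (p : ℕ) (W : Type*) [AddCommGroup W] : AddSubgroup W where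
  carrier := {x | p • x = 0}
  zero_mem' := by simp
  add_mem' := fun {a b} ha hb => by
    simp only [Set.mem_ofPred_eq] at *
    rw [smul_add, ha, hb, add_zero]
  neg_mem' := fun {a} ha => by
    simp only [Set.mem_ofPred_eq] at *
    rw [smul_neg, ha, neg_zero]

/-- the `ZMod p`-module structure on the `p`-torsion (not an instance) -/
@[reducible] noncomputable def ptorsModule (p : ℕ) (W : Type*) [AddCommGroup W] :
    Module (ZMod p) (ptors p W) :=
  AddCommGroup.zmodModule (n := p) (fun x => Subtype.ext (by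
    show ((p • x : ptors p W) : W) = 0
    rw [AddSubgroup.coe_nsmul]
    exact x.2))

theorem exists_basis_of_module {V : Type*} [AddCommGroup V] [Module (ZMod p) V] [Finite V] :
    ∃ (r : ℕ) (e : Fin r → V),
      (∀ x : V, ∃ c : Fin r → ℤ, x = ∑ i, c i • e i) ∧
      (∀ c : Fin r → ℤ, ∑ i, c i • e i = 0 → ∀ i, (p : ℤ) ∣ c i) := by
  classical
  haveI : Module.Finite (ZMod p) V := Module.Finite.of_finite
  let B := Module.finBasis (ZMod p) V
  refine ⟨Module.finrank (ZMod p) V, fun i => B i, ?_, ?_⟩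
  · intro x
    refine ⟨fun i => ((B.repr x i).val : ℤ), ?_⟩
    conv_lhs => rw [← B.sum_repr x]
    refine Finset.sum_congr rfl fun i _ => ?_
    rw [← Int.cast_smul_eq_zsmul (ZMod p)]
    simp
  · intro c hc i
    have h1 : ∑ i, (c i : ZMod p) • B i = 0 := by
      simpa only [Int.cast_smul_eq_zsmul] using hc
    have h2 := (Fintype.linearIndependent_iff.mp B.linearIndependent) (fun i => (c i : ZMod p)) h1 i
    exact (ZMod.intCast_zmod_eq_zero_iff_dvd (c i) p).mp h2

/-- basis of the `p`-torsion in elementary terms -/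
theorem PDiv.exists_basis_one (h : PDiv p W) :
    ∃ (r : ℕ) (e : Fin r → W), (∀ i, p • e i = 0) ∧
      (∀ x : W, p • x = 0 → ∃ c : Fin r → ℤ, x = ∑ i, c i • e i) ∧
      (∀ c : Fin r → ℤ, ∑ i, c i • e i = 0 → ∀ i, (p : ℤ) ∣ c i) := by
  classical
  haveI : Finite (ptors p W) := h.fin.to_subtype
  obtain ⟨r, e, h1, h2⟩ := @exists_basis_of_module p _ (ptors p W) _ (ptorsModule p W) _
  refine ⟨r, fun i => (e i : W), fun i => (e i).2, ?_, ?_⟩
  · intro x hx
    obtain ⟨c, hc⟩ := h1 ⟨x, hx⟩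
    refine ⟨c, ?_⟩
    have := congrArg (fun v : ptors p W => (v : W)) hc
    simpa [AddSubgroup.val_finsetSum] using this
  · intro c hc
    apply h2 c
    apply Subtype.ext
    simpa [AddSubgroup.val_finsetSum] using hc

/-- **Existence of coordinates.** -/
theorem exists_coords (h : PDiv p W) : ∃ r : ℕ, Nonempty (Coords p W r) := by
  classical
  obtain ⟨r, e, he, hspan, hind⟩ := h.exists_basis_one
  let b : Fin r → ℕ → W := fun i m => match m with
    | 0 => 0
    | (k + 1) => h.tower (e i) k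
  have b_zero : ∀ i, b i 0 = 0 := fun i => rfl
  have b_one : ∀ i, b i 1 = e i := fun i => rfl
  have b_succ : ∀ i m, p • b i (m + 1) = b i m := by
    intro i m
    cases m with
    | zero => exact he i
    | succ k => exact h.tower_succ (e i) k
  have b_pow : ∀ i m, p ^ m • b i (m + 1) = e i := by
    intro i m
    induction m with
    | zero => simp [b_one]
    | succ k ih => rw [pow_succ, mul_smul, b_succ, ih]
  refine ⟨r, ⟨⟨b, b_zero, b_succ, ?_, ?_, h.tors⟩⟩⟩
  · intro m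
    induction m with
    | zero =>
      intro x hx
      refine ⟨0, ?_⟩
      simpa using hx
    | succ k ih =>
      intro x hx
      have h1 : p ^ k • (p • x) = 0 := by rw [← mul_smul, ← pow_succ]; exact hx
      obtain ⟨c, hc⟩ := ih (p • x) h1
      have h2 : p • (x - ∑ i, c i • b i (k + 1)) = 0 := by
        rw [smul_sub, hc, Finset.smul_sum, sub_eq_zero]
        refine Finset.sum_congr rfl fun i _ => ?_
        rw [smul_comm, b_succ]
      obtain ⟨d, hd⟩ := hspan _ h2
      refine ⟨fun i => c i + d i * (p : ℤ) ^ k, ?_⟩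
      rw [sub_eq_iff_eq_add] at hd
      rw [hd, ← Finset.sum_add_distrib]
      refine Finset.sum_congr rfl fun i _ => ?_
      rw [add_smul, add_comm, mul_smul]
      congr 2
      rw [← b_pow i k]
      rw [← Nat.cast_pow, natCast_zsmul]
  · intro m
    induction m with
    | zero => intro c _ i; simp
    | succ k ih =>
      intro c hc i
      have h1 : ∑ i, c i • e i = 0 := by
        have := congrArg (fun x => p ^ k • x) hc
        simp only [Finset.smul_sum, smul_zero] at this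
        rw [← this]
        refine Finset.sum_congr rfl fun i _ => ?_
        rw [smul_comm, b_pow]
      have h2 := hind c h1
      choose c' hc' using h2
      have h3 : ∑ i, c' i • b i k = 0 := by
        rw [← hc]
        refine Finset.sum_congr rfl fun i _ => ?_
        rw [hc' i, mul_comm, mul_smul, natCast_zsmul, b_succ]
      have h4 := ih c' h3 i
      rw [hc' i, pow_succ, mul_comm]
      exact mul_dvd_mul_left _ h4

end Exists

namespace Coords

variable {p : ℕ} [hp : Fact p.Prime] {W : Type*} [AddCommGroup W] {r : ℕ} (C : Coords p W r)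

theorem pow_smul_b (i : Fin r) (m : ℕ) : p ^ m • C.b i m = 0 := by
  induction m with
  | zero => simp [C.b_zero]
  | succ k ih => rw [pow_succ, mul_smul, C.b_succ, ih]

theorem zsmul_congr (i : Fin r) (m : ℕ) {z z' : ℤ} (h : (p : ℤ) ^ m ∣ z - z') :
    z • C.b i m = z' • C.b i m := by
  obtain ⟨d, hd⟩ := h
  have : z = z' + d * (p : ℤ) ^ m := by linarith [hd, mul_comm d ((p : ℤ) ^ m)]
  rw [this, add_smul, mul_smul, ← Nat.cast_pow, natCast_zsmul, C.pow_smul_b, smul_zero, add_zero]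

theorem toZModPow_eq_appr (x : ℤ_[p]) (m : ℕ) :
    toZModPow m x = ((x.appr m : ℤ) : ZMod (p ^ m)) := by
  rw [Int.cast_natCast]
  rfl

/-- evaluation of a `p`-adic coordinate vector at level `m` -/
noncomputable def ev (m : ℕ) (v : Fin r → ℤ_[p]) : W := ∑ i, ((v i).appr m : ℤ) • C.b i m

theorem ev_eq (m : ℕ) (v : Fin r → ℤ_[p]) (z : Fin r → ℤ)
    (h : ∀ i, toZModPow m (v i) = (z i : ZMod (p ^ m))) : C.ev m v = ∑ i, z i • C.b i m := by
  refine Finset.sum_congr rfl fun i _ => ?_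
  apply C.zsmul_congr
  have h1 := h i
  rw [toZModPow_eq_appr, eq_comm, ZMod.intCast_eq_intCast_iff_dvd_sub] at h1
  exact_mod_cast h1

theorem ev_zero (m : ℕ) : C.ev m 0 = 0 := by
  rw [C.ev_eq m 0 0 (by simp)]
  simp

theorem ev_add (m : ℕ) (v w : Fin r → ℤ_[p]) : C.ev m (v + w) = C.ev m v + C.ev m w := by
  rw [C.ev_eq m (v + w) (fun i => ((v i).appr m : ℤ) + ((w i).appr m : ℤ))]
  · simp only [add_smul, Finset.sum_add_distrib]
    rfl
  · intro i
    rw [Pi.add_apply, map_add, toZModPow_eq_appr, toZModPow_eq_appr]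
    push_cast
    rfl

/-- `ev` as an additive homomorphism -/
noncomputable def evHom (m : ℕ) : (Fin r → ℤ_[p]) →+ W where
  toFun := C.ev m
  map_zero' := C.ev_zero m
  map_add' := C.ev_add m

@[simp] theorem evHom_apply (m : ℕ) (v : Fin r → ℤ_[p]) : C.evHom m v = C.ev m v := rfl

theorem ev_sub (m : ℕ) (v w : Fin r → ℤ_[p]) : C.ev m (v - w) = C.ev m v - C.ev m w :=
  (C.evHom m).map_sub v w

theorem ev_neg (m : ℕ) (v : Fin r → ℤ_[p]) : C.ev m (-v) = - C.ev m v :=
  (C.evHom m).map_neg v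

theorem pow_smul_ev (m : ℕ) (v : Fin r → ℤ_[p]) : p ^ m • C.ev m v = 0 := by
  unfold ev
  rw [Finset.smul_sum]
  refine Finset.sum_eq_zero fun i _ => ?_
  rw [smul_comm, C.pow_smul_b, smul_zero]

theorem ev_succ (m : ℕ) (v : Fin r → ℤ_[p]) : p • C.ev (m + 1) v = C.ev m v := by
  unfold ev
  rw [Finset.smul_sum]
  refine Finset.sum_congr rfl fun i _ => ?_
  rw [smul_comm, C.b_succ]
  apply C.zsmul_congr
  have h1 := dvd_appr_sub_appr (v i) m (m + 1) (Nat.le_succ m)
  have h2 := appr_mono (v i) (Nat.le_succ m)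
  have h3 : ((p ^ m : ℕ) : ℤ) ∣ (((v i).appr (m + 1) - (v i).appr m : ℕ) : ℤ) :=
    Int.natCast_dvd_natCast.mpr h1
  rw [Nat.cast_sub h2] at h3
  exact_mod_cast h3

theorem ev_eq_zero_iff (m : ℕ) (v : Fin r → ℤ_[p]) :
    C.ev m v = 0 ↔ ∀ i, (p : ℤ_[p]) ^ m ∣ v i := by
  constructor
  · intro h i
    have h1 := C.indep m _ h i
    have h2 : toZModPow m (v i) = 0 := by
      rw [toZModPow_eq_appr, ZMod.intCast_zmod_eq_zero_iff_dvd]
      exact_mod_cast h1
    have h3 : v i ∈ RingHom.ker (toZModPow (p := p) m) := h2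
    rw [ker_toZModPow] at h3
    exact Ideal.mem_span_singleton.mp h3
  · intro h
    rw [C.ev_eq m v 0]
    · simp
    · intro i
      have h3 : v i ∈ RingHom.ker (toZModPow (p := p) m) := by
        rw [ker_toZModPow]
        exact Ideal.mem_span_singleton.mpr (h i)
      simpa using h3

theorem ev_injective {v w : Fin r → ℤ_[p]} (h : ∀ m, C.ev m v = C.ev m w) : v = w := by
  funext i
  rw [← ext_of_toZModPow]
  intro m
  have h1 : C.ev m (v - w) = 0 := by rw [C.ev_sub, h m, sub_self]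
  have h2 := (C.ev_eq_zero_iff m _).mp h1 i
  have h3 : (v - w) i ∈ RingHom.ker (toZModPow (p := p) m) := by
    rw [ker_toZModPow]
    exact Ideal.mem_span_singleton.mpr h2
  have h4 : toZModPow m (v i - w i) = 0 := h3
  rwa [map_sub, sub_eq_zero] at h4

theorem exists_vec (t : ℕ → W) (h0 : t 0 = 0) (ht : ∀ m, p • t (m + 1) = t m) :
    ∃ v : Fin r → ℤ_[p], ∀ m, C.ev m v = t m := by
  have hk : ∀ m, p ^ m • t m = 0 := by
    intro m
    induction m with
    | zero => simpa using h0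
    | succ k ih => rw [pow_succ, mul_smul, ht, ih]
  choose c hc using fun m => C.span m (t m) (hk m)
  have hcomp : ∀ i m, (p : ℤ) ^ m ∣ c (m + 1) i - c m i := by
    intro i m
    refine C.indep m (fun i => c (m + 1) i - c m i) ?_ i
    simp only [sub_smul, Finset.sum_sub_distrib]
    rw [← hc m, sub_eq_zero, ← ht m, hc (m + 1), Finset.smul_sum]
    refine Finset.sum_congr rfl fun i _ => ?_
    rw [smul_comm, C.b_succ]
  refine ⟨fun i => PadicInt.ofIntSeq (fun m => c m i)
    (isCauSeq_padicNorm_of_pow_dvd_sub _ p (hcomp i)), fun m => ?_⟩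
  rw [C.ev_eq m _ (c m), ← hc m]
  intro i
  exact toZModPow_ofIntSeq_of_pow_dvd_sub _ p (hcomp i) m

/-- every element of `W[p^m]` is a value of `ev m` -/
theorem exists_ev_eq (m : ℕ) (x : W) (hx : p ^ m • x = 0) : ∃ v : Fin r → ℤ_[p], C.ev m v = x := by
  obtain ⟨c, hc⟩ := C.span m x hx
  refine ⟨fun i => (c i : ℤ_[p]), ?_⟩
  rw [C.ev_eq m _ c (by intro i; simp), hc]

theorem ev_mulVec (m : ℕ) {s : ℕ} (M : Matrix (Fin r) (Fin s) ℤ_[p]) (v : Fin s → ℤ_[p]) :
    C.ev m (M.mulVec v) = ∑ j, ((v j).appr m : ℤ) • C.ev m (fun i => M i j) := by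
  rw [C.ev_eq m _ (fun i => ∑ j, ((M i j).appr m : ℤ) * ((v j).appr m : ℤ))]
  · unfold ev
    simp only [Finset.sum_smul, Finset.smul_sum]
    rw [Finset.sum_comm]
    refine Finset.sum_congr rfl fun j _ => Finset.sum_congr rfl fun i _ => ?_
    rw [mul_comm, mul_smul]
  · intro i
    simp only [Matrix.mulVec, dotProduct, map_sum, map_mul, toZModPow_eq_appr]
    push_cast
    rfl

/-- the standard basis vector evaluates to `b j m` -/
theorem ev_single (m : ℕ) (j : Fin r) : C.ev m (Pi.single j 1) = C.b j m := by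
  classical
  rw [C.ev_eq m _ (Pi.single j 1)]
  · rw [Finset.sum_eq_single j]
    · simp
    · intro i _ hij
      simp [Pi.single_eq_of_ne hij]
    · simp
  · intro i
    by_cases h : i = j
    · subst h; simp
    · simp [Pi.single_eq_of_ne h]

end Coords

/-- Tate sequences: `t 0 = 0`, `p • t (m+1) = t m`. -/
def IsTate (p : ℕ) {W : Type*} [AddCommGroup W] (t : ℕ → W) : Prop :=
  t 0 = 0 ∧ ∀ m, p • t (m + 1) = t m

theorem IsTate.map {p : ℕ} {W W' : Type*} [AddCommGroup W] [AddCommGroup W'] {t : ℕ → W}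
    (ht : IsTate p t) (f : W →+ W') : IsTate p (fun m => f (t m)) :=
  ⟨by simp [ht.1], fun m => by rw [← map_nsmul, ht.2]⟩

namespace Coords

variable {p : ℕ} [hp : Fact p.Prime] {W : Type*} [AddCommGroup W] {r : ℕ} (C : Coords p W r)

theorem isTate_b (j : Fin r) : IsTate p (C.b j) := ⟨C.b_zero j, C.b_succ j⟩

theorem isTate_ev (v : Fin r → ℤ_[p]) : IsTate p (fun m => C.ev m v) :=
  ⟨by simp [ev, C.b_zero], fun m => C.ev_succ m v⟩

/-- the `p`-adic coordinate vector of a Tate sequence -/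
noncomputable def vec (t : ℕ → W) (ht : IsTate p t) : Fin r → ℤ_[p] :=
  Classical.choose (C.exists_vec t ht.1 ht.2)

theorem ev_vec (t : ℕ → W) (ht : IsTate p t) (m : ℕ) : C.ev m (C.vec t ht) = t m :=
  Classical.choose_spec (C.exists_vec t ht.1 ht.2) m

theorem eq_vec (t : ℕ → W) (ht : IsTate p t) (v : Fin r → ℤ_[p]) (h : ∀ m, C.ev m v = t m) :
    v = C.vec t ht :=
  C.ev_injective fun m => by rw [h m, C.ev_vec]

theorem vec_dvd_iff (t : ℕ → W) (ht : IsTate p t) (m : ℕ) :
    (∀ i, (p : ℤ_[p]) ^ m ∣ C.vec t ht i) ↔ t m = 0 := by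
  rw [← C.ev_eq_zero_iff, C.ev_vec]

/-- the matrix of an endomorphism (as a function) -/
noncomputable def Phi0Fun (f : AddMonoid.End W) : Matrix (Fin r) (Fin r) ℤ_[p] :=
  Matrix.of fun i j => C.vec (fun m => f (C.b j m)) ((C.isTate_b j).map f) i

theorem ev_Phi0Fun_col (f : AddMonoid.End W) (m : ℕ) (j : Fin r) :
    C.ev m (fun i => C.Phi0Fun f i j) = f (C.b j m) :=
  C.ev_vec _ ((C.isTate_b j).map f) m

theorem ev_Phi0Fun_mulVec (f : AddMonoid.End W) (m : ℕ) (v : Fin r → ℤ_[p]) :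
    C.ev m ((C.Phi0Fun f).mulVec v) = f (C.ev m v) := by
  rw [C.ev_mulVec]
  simp only [C.ev_Phi0Fun_col]
  unfold ev
  rw [map_sum]
  refine Finset.sum_congr rfl fun j _ => ?_
  rw [map_zsmul]

theorem eq_Phi0Fun (M : Matrix (Fin r) (Fin r) ℤ_[p]) (f : AddMonoid.End W)
    (h : ∀ m v, C.ev m (M.mulVec v) = f (C.ev m v)) : M = C.Phi0Fun f := by
  classical
  have h1 : ∀ v, M.mulVec v = (C.Phi0Fun f).mulVec v := fun v =>
    C.ev_injective fun m => by rw [h m v, C.ev_Phi0Fun_mulVec]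
  ext i j
  have := congrFun (h1 (Pi.single j 1)) i
  simpa using this

/-- **The ring homomorphism** `End W →+* M_r(ℤ_p)`. -/
noncomputable def Phi0 : AddMonoid.End W →+* Matrix (Fin r) (Fin r) ℤ_[p] where
  toFun := C.Phi0Fun
  map_one' := (C.eq_Phi0Fun 1 1 (by intro m v; simp)).symm
  map_mul' f g := (C.eq_Phi0Fun _ _ (by
    intro m v
    rw [← Matrix.mulVec_mulVec, C.ev_Phi0Fun_mulVec, C.ev_Phi0Fun_mulVec]
    rfl)).symm
  map_zero' := (C.eq_Phi0Fun 0 0 (by intro m v; simp [C.ev_zero])).symm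
  map_add' f g := (C.eq_Phi0Fun _ _ (by
    intro m v
    rw [Matrix.add_mulVec, C.ev_add, C.ev_Phi0Fun_mulVec, C.ev_Phi0Fun_mulVec]
    rfl)).symm

theorem ev_Phi0_col (f : AddMonoid.End W) (m : ℕ) (j : Fin r) :
    C.ev m (fun i => C.Phi0 f i j) = f (C.b j m) := C.ev_Phi0Fun_col f m j

/-- SPEC of `Phi0`, explicit form. -/
theorem Phi0_spec (f : AddMonoid.End W) (m : ℕ) (j : Fin r) :
    f (C.b j m) = ∑ i, ((C.Phi0 f i j).appr m : ℤ) • C.b i m := (C.ev_Phi0_col f m j).symm

theorem ev_Phi0_mulVec (f : AddMonoid.End W) (m : ℕ) (v : Fin r → ℤ_[p]) :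
    C.ev m ((C.Phi0 f).mulVec v) = f (C.ev m v) := C.ev_Phi0Fun_mulVec f m v

theorem eq_Phi0 (M : Matrix (Fin r) (Fin r) ℤ_[p]) (f : AddMonoid.End W)
    (h : ∀ m v, C.ev m (M.mulVec v) = f (C.ev m v)) : M = C.Phi0 f := C.eq_Phi0Fun M f h

theorem Phi0_mulVec_vec (f : AddMonoid.End W) (t : ℕ → W) (ht : IsTate p t) :
    (C.Phi0 f).mulVec (C.vec t ht) = C.vec (fun m => f (t m)) (ht.map f) :=
  C.eq_vec _ _ _ fun m => by rw [C.ev_Phi0_mulVec, C.ev_vec]

/-- `f = g` on `W[p^m]` iff `Phi0 f ≡ Phi0 g mod p^m`. -/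
theorem Phi0_congr_iff (f g : AddMonoid.End W) (m : ℕ) :
    (∀ x, p ^ m • x = 0 → f x = g x) ↔ ∀ i j, (p : ℤ_[p]) ^ m ∣ (C.Phi0 f - C.Phi0 g) i j := by
  constructor
  · intro h i j
    have h1 : C.ev m ((fun i => C.Phi0 f i j) - (fun i => C.Phi0 g i j)) = 0 := by
      rw [C.ev_sub, C.ev_Phi0_col, C.ev_Phi0_col, h _ (C.pow_smul_b j m), sub_self]
    exact (C.ev_eq_zero_iff m _).mp h1 i
  · intro h x hx
    obtain ⟨c, rfl⟩ := C.span m x hx
    rw [map_sum, map_sum]
    refine Finset.sum_congr rfl fun j _ => ?_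
    rw [map_zsmul, map_zsmul]
    congr 1
    rw [← C.ev_Phi0_col, ← C.ev_Phi0_col, ← sub_eq_zero, ← C.ev_sub, C.ev_eq_zero_iff]
    intro i
    exact h i j

theorem Phi0_sub_one_dvd (f : AddMonoid.End W) (m : ℕ) (h : ∀ x, p ^ m • x = 0 → f x = x) :
    ∀ i j, (p : ℤ_[p]) ^ m ∣ (C.Phi0 f - 1) i j := by
  have := (C.Phi0_congr_iff f 1 m).mp (by intro x hx; simpa using h x hx)
  simpa using this

theorem Phi0_injective : Function.Injective C.Phi0 := by
  intro f g hfg
  ext x
  obtain ⟨m, hm⟩ := C.tors x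
  exact (C.Phi0_congr_iff f g m).mpr (by intro i j; simp [hfg]) x hm

end Coords

namespace Coords

variable {p : ℕ} [hp : Fact p.Prime] {W : Type*} [AddCommGroup W] {r : ℕ} (C : Coords p W r)
variable {O : Type*} [CommRing O] (I : Ideal O) [IsAdicComplete I O] (hpI : (p : O) ∈ I)

/-- The ring homomorphism `End W →+* M_r(O)` for an `I`-adically complete ring `O`, `p ∈ I`. -/
noncomputable def Phi : AddMonoid.End W →+* Matrix (Fin r) (Fin r) O :=
  (zpTo p I hpI).mapMatrix.comp C.Phi0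

theorem Phi_apply (f : AddMonoid.End W) (i j : Fin r) :
    C.Phi I hpI f i j = zpTo p I hpI (C.Phi0 f i j) := rfl

theorem Phi_congr (f g : AddMonoid.End W) (m : ℕ) (h : ∀ x, p ^ m • x = 0 → f x = g x) :
    ∀ i j, (p : O) ^ m ∣ (C.Phi I hpI f - C.Phi I hpI g) i j := by
  intro i j
  obtain ⟨c, hc⟩ := (C.Phi0_congr_iff f g m).mp h i j
  refine ⟨zpTo p I hpI c, ?_⟩
  rw [Matrix.sub_apply] at hc ⊢
  rw [Phi_apply, Phi_apply, ← map_sub, hc, map_mul, map_pow, map_natCast]

theorem Phi_sub_one_dvd (f : AddMonoid.End W) (m : ℕ) (h : ∀ x, p ^ m • x = 0 → f x = x) :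
    ∀ i j, (p : O) ^ m ∣ (C.Phi I hpI f - 1) i j := by
  have := C.Phi_congr I hpI f 1 m (by intro x hx; simpa using h x hx)
  simpa using this

/-- SPEC: `Phi f` is congruent mod `p^m` to the integer matrix of `f` on `W[p^m]`. -/
theorem Phi_spec (f : AddMonoid.End W) (m : ℕ) (A : Matrix (Fin r) (Fin r) ℤ)
    (hA : ∀ j, f (C.b j m) = ∑ i, A i j • C.b i m) :
    ∀ i j, (p : O) ^ m ∣ C.Phi I hpI f i j - (A i j : O) := by
  intro i j
  have h1 : C.ev m ((fun i => C.Phi0 f i j) - (fun i => ((A i j : ℤ) : ℤ_[p]))) = 0 := by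
    rw [C.ev_sub, C.ev_Phi0_col, hA j, C.ev_eq m (fun i => ((A i j : ℤ) : ℤ_[p])) (fun i => A i j)
      (by intro i; simp), sub_self]
  obtain ⟨c, hc⟩ := (C.ev_eq_zero_iff m _).mp h1 i
  refine ⟨zpTo p I hpI c, ?_⟩
  rw [Pi.sub_apply] at hc
  rw [Phi_apply, ← map_intCast (zpTo p I hpI), ← map_sub, hc, map_mul, map_pow, map_natCast]

theorem Phi_injective [CharZero O] : Function.Injective (C.Phi I hpI) := by
  intro f g hfg
  apply C.Phi0_injective
  ext i j
  apply zpTo_injective p I hpI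
  have := congrFun (congrFun hfg i) j
  simpa [Phi_apply] using this

end Coords

end Fermat.Agent.GR.Adic
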