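import Mathlib
import Fermat.Agent.GR.Adic.Coord

/-!
# The lattice `L0` inside the Tate module, in coordinates

`kappa m : L0 →+ W`, `p • kappa (m+1) x = kappa m x`, gives `K : L0 →+ (Fin r → ℤ_[p])`;
if `ker (kappa 1) = p L0` the matrix of `K` has a left inverse, so `K` stays injective after any
base change.
-/

set_option autoImplicit false
set_option linter.unusedSectionVars false

namespace Fermat.Agent.GR.Adic

open PadicInt
open scoped TensorProduct

/-- compatibility of the maps `kappa m : L0 →+ W` -/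
structure IsKappa (p : ℕ) {W L0 : Type*} [AddCommGroup W] [AddCommGroup L0]
    (kappa : ℕ → L0 →+ W) : Prop where
  zero : ∀ x, kappa 0 x = 0
  succ : ∀ m x, p • kappa (m + 1) x = kappa m x

theorem IsKappa.isTate {p : ℕ} {W L0 : Type*} [AddCommGroup W] [AddCommGroup L0]
    {kappa : ℕ → L0 →+ W} (hk : IsKappa p kappa) (x : L0) : IsTate p (fun m => kappa m x) :=
  ⟨hk.zero x, fun m => hk.succ m x⟩

namespace Coords

variable {p : ℕ} [hp : Fact p.Prime] {W : Type*} [AddCommGroup W] {r : ℕ} (C : Coords p W r)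
variable {L0 : Type*} [AddCommGroup L0] {kappa : ℕ → L0 →+ W} (hk : IsKappa p kappa)

/-- the coordinate map `L0 →+ ℤ_p^r` -/
noncomputable def K : L0 →+ (Fin r → ℤ_[p]) where
  toFun x := C.vec (fun m => kappa m x) (hk.isTate x)
  map_zero' := (C.eq_vec _ _ 0 (by intro m; simp [C.ev_zero])).symm
  map_add' x y := (C.eq_vec _ _ _ (by
    intro m; rw [C.ev_add, C.ev_vec, C.ev_vec, map_add])).symm

theorem ev_K (m : ℕ) (x : L0) : C.ev m (C.K hk x) = kappa m x := C.ev_vec _ (hk.isTate x) m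

theorem K_dvd_iff (m : ℕ) (x : L0) : (∀ i, (p : ℤ_[p]) ^ m ∣ C.K hk x i) ↔ kappa m x = 0 :=
  C.vec_dvd_iff _ (hk.isTate x) m

/-- intertwining -/
theorem Phi0_mulVec_K (f : AddMonoid.End W) (f0 : L0 → L0)
    (h : ∀ m x, f (kappa m x) = kappa m (f0 x)) (x : L0) :
    (C.Phi0 f).mulVec (C.K hk x) = C.K hk (f0 x) :=
  C.ev_injective fun m => by rw [C.ev_Phi0_mulVec, C.ev_K, C.ev_K, h]

/-- the matrix of `K` in a basis of `L0` -/
noncomputable def Kmat {r0 : ℕ} (e : Module.Basis (Fin r0) ℤ L0) : Matrix (Fin r) (Fin r0) ℤ_[p] :=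
  Matrix.of fun i j => C.K hk (e j) i

theorem K_eq_mulVec {r0 : ℕ} (e : Module.Basis (Fin r0) ℤ L0) (x : L0) :
    C.K hk x = (C.Kmat hk e).mulVec (fun j => ((e.repr x j : ℤ) : ℤ_[p])) := by
  conv_lhs => rw [← e.sum_repr x]
  rw [map_sum]
  funext i
  simp only [Finset.sum_apply, map_zsmul, Matrix.mulVec, dotProduct, Kmat,
    Matrix.of_apply]
  refine Finset.sum_congr rfl fun j _ => ?_
  rw [Pi.smul_apply, zsmul_eq_mul, mul_comm]

theorem dvd_iff_toZMod_eq_zero (y : ℤ_[p]) : (p : ℤ_[p]) ∣ y ↔ toZMod y = 0 := by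
  rw [← RingHom.mem_ker, ker_toZMod, maximalIdeal_eq_span_p, Ideal.mem_span_singleton]

theorem Kbar_injective {r0 : ℕ} (e : Module.Basis (Fin r0) ℤ L0)
    (hker : ∀ x, kappa 1 x = 0 → ∃ y, x = p • y) :
    Function.Injective ((C.Kmat hk e).map (toZMod (p := p))).mulVecLin := by
  rw [injective_iff_map_eq_zero]
  intro c hc
  set x : L0 := ∑ j, ((c j).val : ℤ) • e j with hx
  have hrepr : ∀ j, e.repr x j = ((c j).val : ℤ) := by
    intro j
    rw [hx, map_sum, Finsupp.finsetSum_apply, Finset.sum_eq_single j]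
    · simp
    · intro i _ hij
      simp [Finsupp.single_eq_of_ne hij.symm]
    · simp
  have h1 : ∀ i, (p : ℤ_[p]) ^ 1 ∣ C.K hk x i := by
    intro i
    rw [pow_one, dvd_iff_toZMod_eq_zero, C.K_eq_mulVec hk e x]
    have := congrFun hc i
    simp only [Matrix.mulVecLin_apply, Matrix.mulVec, dotProduct, Matrix.map_apply,
      Pi.zero_apply] at this
    simp only [Matrix.mulVec, dotProduct, map_sum, map_mul, hrepr]
    rw [← this]
    refine Finset.sum_congr rfl fun j _ => ?_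
    congr 1
    simp
  obtain ⟨y, hy⟩ := hker x ((C.K_dvd_iff hk 1 x).mp h1)
  funext j
  have h2 := hrepr j
  rw [hy, map_nsmul] at h2
  simp only [Finsupp.coe_smul, Pi.smul_apply, nsmul_eq_mul] at h2
  have h3 : (((c j).val : ℤ) : ZMod p) = 0 := by
    rw [← h2]; simp
  simpa using h3

/-- **Left inverse of the matrix of `K`.** -/
theorem exists_leftInverse {r0 : ℕ} (e : Module.Basis (Fin r0) ℤ L0)
    (hker : ∀ x, kappa 1 x = 0 → ∃ y, x = p • y) :
    ∃ Lm : Matrix (Fin r0) (Fin r) ℤ_[p], Lm * C.Kmat hk e = 1 := by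
  classical
  obtain ⟨g, hg⟩ := LinearMap.exists_leftInverse_of_injective _
    (LinearMap.ker_eq_bot.mpr (C.Kbar_injective hk e hker))
  set g' : Matrix (Fin r0) (Fin r) (ZMod p) := LinearMap.toMatrix' g with hg'
  have h1 : g' * (C.Kmat hk e).map (toZMod (p := p)) = 1 := by
    have := congrArg LinearMap.toMatrix' hg
    rw [LinearMap.toMatrix'_comp, ← Matrix.toLin'_apply', LinearMap.toMatrix'_toLin',
      LinearMap.toMatrix'_id] at this
    exact this
  let Lm0 : Matrix (Fin r0) (Fin r) ℤ_[p] := Matrix.of fun i j => ((g' i j).val : ℤ_[p])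
  have h2 : Lm0.map (toZMod (p := p)) = g' := by
    ext i j
    simp [Lm0]
  have h3 : (Lm0 * C.Kmat hk e).map (toZMod (p := p)) = 1 := by
    rw [Matrix.map_mul, h2, h1]
  have h4 : IsUnit (Lm0 * C.Kmat hk e).det := by
    have h5 : toZMod (Lm0 * C.Kmat hk e).det = 1 := by
      rw [RingHom.map_det, RingHom.mapMatrix_apply, h3, Matrix.det_one]
    by_contra hnu
    have h6 : (Lm0 * C.Kmat hk e).det ∈ IsLocalRing.maximalIdeal ℤ_[p] :=
      (IsLocalRing.mem_maximalIdeal _).mpr hnu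
    rw [← ker_toZMod, RingHom.mem_ker, h5] at h6
    exact one_ne_zero h6
  refine ⟨(Lm0 * C.Kmat hk e)⁻¹ * Lm0, ?_⟩
  rw [Matrix.mul_assoc, Matrix.nonsing_inv_mul _ h4]

section BaseChange

variable {E : Type*} [CommRing E] (φ : ℤ_[p] →+* E)

/-- `x ↦ φ ∘ K x` as a `ℤ`-linear map -/
noncomputable def KZ : L0 →ₗ[ℤ] (Fin r → E) :=
  (((RingHom.pi fun i => φ.comp (Pi.evalRingHom (fun _ : Fin r => ℤ_[p]) i)) :
    (Fin r → ℤ_[p]) →+* (Fin r → E)).toAddMonoidHom.comp (C.K hk)).toIntLinearMap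

theorem KZ_apply (x : L0) (i : Fin r) : C.KZ hk φ x i = φ (C.K hk x i) := rfl

/-- the base change `E ⊗[ℤ] L0 →ₗ[E] E^r` of `K` -/
noncomputable def KE : E ⊗[ℤ] L0 →ₗ[E] (Fin r → E) := (C.KZ hk φ).liftBaseChange E

theorem KE_tmul (a : E) (x : L0) : C.KE hk φ (a ⊗ₜ[ℤ] x) = a • C.KZ hk φ x := by
  simp [KE]

theorem KZ_eq_mulVec {r0 : ℕ} (e : Module.Basis (Fin r0) ℤ L0) (x : L0) :
    C.KZ hk φ x = ((C.Kmat hk e).map φ).mulVec (fun j => ((e.repr x j : ℤ) : E)) := by
  funext i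
  rw [KZ_apply, C.K_eq_mulVec hk e x]
  simp only [Matrix.mulVec, dotProduct, map_sum, map_mul, Matrix.map_apply, map_intCast]

/-- **`KE` is injective** as soon as `ker (kappa 1) = p L0`. -/
theorem KE_injective {r0 : ℕ} (e : Module.Basis (Fin r0) ℤ L0)
    (hker : ∀ x, kappa 1 x = 0 → ∃ y, x = p • y) : Function.Injective (C.KE hk φ) := by
  classical
  obtain ⟨Lm, hLm⟩ := C.exists_leftInverse hk e hker
  have hLm' : Lm.map φ * (C.Kmat hk e).map φ = 1 := by
    rw [← Matrix.map_mul, hLm]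
    ext i j
    by_cases h : i = j
    · subst h; simp
    · simp [Matrix.one_apply_ne h]
  let G : (Fin r → E) → E ⊗[ℤ] L0 := fun w => ∑ j, ((Lm.map φ).mulVec w j) ⊗ₜ[ℤ] e j
  have hG_add : ∀ w w', G (w + w') = G w + G w' := by
    intro w w'
    simp only [G, Matrix.mulVec_add, Pi.add_apply, TensorProduct.add_tmul, Finset.sum_add_distrib]
  have hG : ∀ v, G (C.KE hk φ v) = v := by
    intro v
    induction v using TensorProduct.induction_on with
    | zero => simp [G]
    | tmul a x =>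
      rw [KE_tmul, C.KZ_eq_mulVec hk φ e x]
      simp only [G, Matrix.mulVec_smul, Matrix.mulVec_mulVec, hLm', Matrix.one_mulVec,
        Pi.smul_apply, smul_eq_mul]
      conv_rhs => rw [← e.sum_repr x, TensorProduct.tmul_sum]
      refine Finset.sum_congr rfl fun j _ => ?_
      rw [TensorProduct.tmul_smul, TensorProduct.smul_tmul', zsmul_eq_mul, mul_comm]
    | add x y hx hy => rw [map_add, hG_add, hx, hy]
  exact Function.LeftInverse.injective hG

/-- **Intertwining** of `KE` with an endomorphism `f` of `W` and `f0` of `L0`. -/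
theorem KE_baseChange (f : AddMonoid.End W) (f0 : L0 →ₗ[ℤ] L0)
    (h : ∀ m x, f (kappa m x) = kappa m (f0 x)) (v : E ⊗[ℤ] L0) :
    C.KE hk φ (f0.baseChange E v) = ((C.Phi0 f).map φ).mulVec (C.KE hk φ v) := by
  induction v using TensorProduct.induction_on with
  | zero => simp
  | tmul a x =>
    rw [LinearMap.baseChange_tmul, KE_tmul, KE_tmul, Matrix.mulVec_smul]
    congr 1
    funext i
    rw [KZ_apply, ← C.Phi0_mulVec_K hk f f0 h x]
    simp only [Matrix.mulVec, dotProduct, map_sum, map_mul, Matrix.map_apply, KZ_apply]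
  | add x y hx hy => rw [map_add, map_add, map_add, Matrix.mulVec_add, hx, hy]

end BaseChange

end Coords

end Fermat.Agent.GR.Adic
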