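import Mathlib
import Fermat.Agent.GR.Adic.Core
import Fermat.Agent.GR.Adic.Saturation
import Fermat.Agent.GR.Adic.S31Formal
import Fermat.Agent.GR.Adic.S31Geom
import Fermat.Agent.Lib.FrobeniusExists

/-!
# S31 from `Core` (no finiteness of `W[p]`)

`Core M p` (at the auxiliary level `M = 4 N` or `9 N`) + level restriction + weak Chebotarev imply
the statement of S31.
-/

set_option autoImplicit false

open IsLocalRing Polynomial TensorProduct

namespace Fermat.Agent.GR.Adic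

local notation "Qbar'" => AlgebraicClosure ℚ

namespace Core

variable {M p : ℕ} [NeZero M] (C : Core M p)

theorem s31c_pow_smul_kappa (k i : ℕ) (x : C.L0) : (p ^ k) • C.κ (i + k) x = C.κ i x := by
  induction k with
  | zero => simp
  | succ k ih =>
    rw [pow_succ, mul_smul, ← add_assoc, C.κ_succ, ih]

theorem s31c_kappa_zero (x : C.L0) : C.κ 0 x = 0 :=
  (C.κ_ker 0 x).2 ⟨x, by simp⟩

theorem s31c_pow_smul_kappa_self (m : ℕ) (x : C.L0) : (p ^ m) • C.κ m x = 0 := by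
  have := C.s31c_pow_smul_kappa m 0 x
  rw [zero_add] at this
  rw [this, C.s31c_kappa_zero]

/-- A finite level fixing finitely many elements of `W`. -/
theorem s31c_exists_level (s : Set C.W) (hs : s.Finite) :
    ∃ L : IntermediateField ℚ Qbar', FiniteDimensional ℚ L ∧
      ∀ σ : GQ, FixesLevel L σ → ∀ x ∈ s, C.act σ x = x := by
  induction s, hs using Set.Finite.induction_on with
  | empty => exact ⟨⊥, inferInstance, fun _ _ _ h => h.elim⟩
  | @insert a s _ _ ih =>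
    obtain ⟨L, hL, h⟩ := ih
    obtain ⟨L', hL', h'⟩ := C.smooth a
    refine ⟨L ⊔ L', IntermediateField.finiteDimensional_sup L L', fun σ hσ x hx => ?_⟩
    rcases hx with rfl | hx
    · exact h' σ (fun y hy => hσ y ((le_sup_right : L' ≤ L ⊔ L') hy))
    · exact h σ (fun y hy => hσ y ((le_sup_left : L ≤ L ⊔ L') hy)) x hx

/-- A finite *normal* level fixing `κ m (L0)`. -/
theorem s31c_exists_normal_level (m : ℕ) :
    ∃ L : IntermediateField ℚ Qbar', FiniteDimensional ℚ L ∧ (∀ (g : GQ), ∀ x ∈ L, g x ∈ L) ∧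
      ∀ σ : GQ, FixesLevel L σ → ∀ x : C.L0, C.act σ (C.κ m x) = C.κ m x := by
  classical
  let b := Module.Free.chooseBasis ℤ C.L0
  obtain ⟨L, hL, h⟩ := C.s31c_exists_level (Set.range fun i => C.κ m (b i)) (Set.finite_range _)
  have hgal : IsGalois ℚ Qbar' := Fermat.Agent.Lib.FrobeniusExists.isGalois_algebraicClosure_rat
  let E : IntermediateField ℚ Qbar' := IntermediateField.normalClosure ℚ L Qbar'
  have hEfin : FiniteDimensional ℚ E := normalClosure.is_finiteDimensional ℚ L Qbar'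
  have hEn : Normal ℚ E := normalClosure.normal ℚ L Qbar'
  have hLE : L ≤ E := IntermediateField.le_normalClosure L
  refine ⟨E, hEfin, ?_, ?_⟩
  · intro g x hx
    have h1 := IntermediateField.normal_iff_forall_map_le'.1 hEn g
    exact h1 ⟨x, hx, rfl⟩
  · intro σ hσ x
    have hσL : FixesLevel L σ := fun y hy => hσ y (hLE hy)
    have h2 : (C.act σ).comp (C.κ m) = C.κ m := by
      refine b.ext fun i => ?_
      exact h σ hσL _ ⟨i, rfl⟩
    exact congrArg (fun f : C.L0 →ₗ[ℤ] C.W => f x) h2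

theorem s31c_act_mul_inv (σ : GQ) : C.act σ * C.act σ⁻¹ = 1 := by
  rw [← map_mul, mul_inv_cancel, map_one]

theorem s31c_act_inv_mul (σ : GQ) : C.act σ⁻¹ * C.act σ = 1 := by
  rw [← map_mul, inv_mul_cancel, map_one]

/-- The Eichler--Shimura relation for powers of a Frobenius. -/
theorem s31c_lucas {ℓ : ℕ} (hℓ : ℓ.Prime) (hbad : ¬ ℓ ∣ M * p) (A : ValuationSubring Qbar')
    (hA : A.LiesOverPrime ℓ) (σ : GQ) (hσ : A.IsFrobeniusAt σ ℓ) (j : ℕ) :
    lucasSeq (C.T ℓ) (ℓ : Module.End ℤ C.W) j =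
      C.act (σ ^ j) + (ℓ : Module.End ℤ C.W) ^ j * C.act (σ ^ j)⁻¹ := by
  have h1 := C.s31c_act_mul_inv σ
  have hc : Commute (C.act σ) ((ℓ : Module.End ℤ C.W) * C.act σ⁻¹) := by
    have hn : Commute (C.act σ) (ℓ : Module.End ℤ C.W) := (Nat.cast_commute ℓ _).symm
    have hi : Commute (C.act σ) (C.act σ⁻¹) := by
      rw [Commute, SemiconjBy, C.s31c_act_mul_inv, C.s31c_act_inv_mul]
    exact hn.mul_right hi
  have hsum : C.act σ + (ℓ : Module.End ℤ C.W) * C.act σ⁻¹ = C.T ℓ := by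
    have h2 := C.frob ℓ hℓ hbad A hA σ hσ
    have h3 := congrArg (fun f : Module.End ℤ C.W => f * C.act σ⁻¹) h2
    simp only [add_mul, sub_mul, zero_mul, mul_assoc, h1, mul_one] at h3
    rw [← sub_eq_zero, ← h3]
    abel
  have hprod : C.act σ * ((ℓ : Module.End ℤ C.W) * C.act σ⁻¹) = (ℓ : Module.End ℤ C.W) := by
    rw [← mul_assoc, ((Nat.cast_commute ℓ (C.act σ)).symm).eq, mul_assoc, h1, mul_one]
  have h4 := pow_add_pow_eq_lucasSeq hc j
  rw [hsum, hprod] at h4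
  have hn' : Commute (ℓ : Module.End ℤ C.W) (C.act σ⁻¹) := Nat.cast_commute ℓ _
  rw [← h4, hn'.mul_pow, map_pow, ← inv_pow, map_pow]

/-- `κ m` intertwines the Lucas polynomials in `T0 ℓ` and `T ℓ`. -/
theorem s31c_kappa_lucas {ℓ : ℕ} (hℓ : ℓ.Prime) (hℓM : ¬ ℓ ∣ M) (m j : ℕ) (x : C.L0) :
    C.κ m (lucasSeq (C.T0 ℓ) (ℓ : Module.End ℤ C.L0) j x) =
      lucasSeq (C.T ℓ) (ℓ : Module.End ℤ C.W) j (C.κ m x) := by
  have hnat : ∀ (y : C.L0), C.κ m ((ℓ : Module.End ℤ C.L0) y) =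
      (ℓ : Module.End ℤ C.W) (C.κ m y) := by
    intro y
    rw [Module.End.natCast_apply, Module.End.natCast_apply, map_nsmul]
  induction j using Nat.strong_induction_on generalizing x with
  | _ j ih =>
    match j with
    | 0 =>
      simp only [lucasSeq_zero]
      have e1 : (2 : Module.End ℤ C.L0) x = 2 • x := by
        exact Module.End.natCast_apply (R := ℤ) (M := C.L0) 2 x
      have e2 : (2 : Module.End ℤ C.W) (C.κ m x) = 2 • C.κ m x := by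
        exact Module.End.natCast_apply (R := ℤ) (M := C.W) 2 (C.κ m x)
      rw [e1, e2, map_nsmul]
    | 1 =>
      simp only [lucasSeq_one]
      exact C.κ_T ℓ hℓ hℓM m x
    | (j + 2) =>
      rw [lucasSeq_add_two, lucasSeq_add_two, LinearMap.sub_apply, LinearMap.sub_apply, map_sub,
        Module.End.mul_apply, Module.End.mul_apply, Module.End.mul_apply, Module.End.mul_apply,
        C.κ_T ℓ hℓ hℓM, hnat, ih (j + 1) (by omega), ih j (by omega)]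

include C in
/-- **The Hecke congruence at level `M`.** -/
theorem s31c_heckeCongr (hp : p.Prime) (S' : Set ℕ) (hS' : badSet M ⊆ S')
    {q : ℕ} (hq : q.Prime) (hqM : ¬ q ∣ M * p) (n : ℕ) :
    ∃ L : IntermediateField ℚ Qbar', FiniteDimensional ℚ L ∧
      ∀ (ℓ : ℕ) (hℓ : ℓ.Prime) (hℓM : ¬ ℓ ∣ M) (hℓS : ℓ ∉ S')
        (ℓ' : ℕ) (hℓ' : ℓ'.Prime) (hℓ'M : ¬ ℓ' ∣ M) (hℓ'S : ℓ' ∉ S'),
      ℓ ≠ p → ℓ' ≠ p →
      ∀ (A A' P : ValuationSubring Qbar') (σ σ' g t : GQ) (j j' : ℕ),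
      A.LiesOverPrime ℓ → A.IsFrobeniusAt σ ℓ →
      A'.LiesOverPrime ℓ' → A'.IsFrobeniusAt σ' ℓ' →
      P.LiesOverPrime q → t ∈ P.inertiaSubgroupIn ℚ →
      (∀ x ∈ L, (σ ^ j) x = g x) → (∀ x ∈ L, (σ' ^ j') x = (g * t) x) →
      lucasSeq (CuspForm.heckeAlgebra.T hℓ' hℓ'M hℓ'S : CuspForm.heckeAlgebra M 2 S')
          (ℓ' : CuspForm.heckeAlgebra M 2 S') j'
        - lucasSeq (CuspForm.heckeAlgebra.T hℓ hℓM hℓS : CuspForm.heckeAlgebra M 2 S')
          (ℓ : CuspForm.heckeAlgebra M 2 S') j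
        ∈ Ideal.span {(p : CuspForm.heckeAlgebra M 2 S') ^ n} := by
  classical
  have hqp : q ≠ p := fun h => hqM (h ▸ Dvd.intro_left M rfl)
  -- the faithful action on `L0`
  let inc : CuspForm.heckeAlgebra M 2 S' →+* CuspForm.heckeAlgebra M 2 (badSet M) :=
    (Subalgebra.inclusion (CuspForm.heckeAlgebra_mono hS')).toRingHom
  have hinc : Function.Injective inc := Subalgebra.inclusion_injective _
  let φ : CuspForm.heckeAlgebra M 2 S' →+* Module.End ℤ C.L0 := C.ι.comp inc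
  have hφinj : Function.Injective φ := C.ι_inj.comp hinc
  have hφT : ∀ (ℓ : ℕ) (hℓ : ℓ.Prime) (hℓM : ¬ ℓ ∣ M) (hℓS : ℓ ∉ S'),
      φ (CuspForm.heckeAlgebra.T hℓ hℓM hℓS) = C.T0 ℓ := by
    intro ℓ hℓ hℓM hℓS
    rw [← C.ι_T ℓ hℓ hℓM]
    rfl
  -- saturation
  let TT : Submodule ℤ (Module.End ℤ C.L0) := LinearMap.range φ.toAddMonoidHom.toIntLinearMap
  obtain ⟨c, hc⟩ := exists_saturation TT p
  set m := n + c with hm
  have hpos : 0 < p ^ m := pow_pos hp.pos _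
  -- levels
  obtain ⟨L₁, hL₁, hnorm, h₁⟩ := C.s31c_exists_normal_level m
  have : NeZero ((p ^ m : ℕ) : Qbar') := ⟨Nat.cast_ne_zero.mpr hpos.ne'⟩
  obtain ⟨ζ, hζ⟩ := HasEnoughRootsOfUnity.exists_primitiveRoot Qbar' (p ^ m)
  have hint : IsIntegral ℚ ζ := (hζ.isIntegral hpos).tower_top
  have hL₂ : FiniteDimensional ℚ (IntermediateField.adjoin ℚ {ζ}) :=
    IntermediateField.adjoin.finiteDimensional hint
  refine ⟨L₁ ⊔ IntermediateField.adjoin ℚ {ζ}, IntermediateField.finiteDimensional_sup _ _, ?_⟩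
  intro ℓ hℓ hℓM hℓS ℓ' hℓ' hℓ'M hℓ'S hℓp hℓ'p A A' P σ σ' g t j j' hA hσ hA' hσ' hP ht hg hgt
  have hℓb : ¬ ℓ ∣ M * p := fun h =>
    (hℓ.dvd_mul.1 h).elim hℓM (fun h' => hℓp ((Nat.prime_dvd_prime_iff_eq hℓ hp).1 h'))
  have hℓ'b : ¬ ℓ' ∣ M * p := fun h =>
    (hℓ'.dvd_mul.1 h).elim hℓ'M (fun h' => hℓ'p ((Nat.prime_dvd_prime_iff_eq hℓ' hp).1 h'))
  have hle₁ : L₁ ≤ L₁ ⊔ IntermediateField.adjoin ℚ {ζ} := le_sup_left
  have hζL : ζ ∈ L₁ ⊔ IntermediateField.adjoin ℚ {ζ} :=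
    (le_sup_right : IntermediateField.adjoin ℚ {ζ} ≤ _) (IntermediateField.mem_adjoin_simple_self ℚ ζ)
  -- the cyclotomic congruence
  have hcong : ℓ ^ j ≡ ℓ' ^ j' [MOD p ^ m] := by
    have e1 : ζ ^ (ℓ ^ j) = g ζ := by
      rw [← s31_frobenius_pow_root A hp hℓ hℓp hA σ hσ m hζ.pow_eq_one j]; exact hg ζ hζL
    have e2 : ζ ^ (ℓ' ^ j') = g ζ := by
      rw [← s31_frobenius_pow_root A' hp hℓ' hℓ'p hA' σ' hσ' m hζ.pow_eq_one j', hgt ζ hζL,
        AlgEquiv.mul_apply, s31_inertia_root P hp hq hqp hP t ht m hζ.pow_eq_one]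
    have hfin : IsOfFinOrder ζ := isOfFinOrder_iff_pow_eq_one.mpr ⟨p ^ m, hpos, hζ.pow_eq_one⟩
    have := hfin.pow_eq_pow_iff_modEq.mp (e1.trans e2.symm)
    rwa [← hζ.eq_orderOf] at this
  -- agreement on `κ m (L0)`
  have hagree : ∀ a b : GQ, (∀ x ∈ L₁, a x = b x) →
      ∀ x : C.L0, C.act a (C.κ m x) = C.act b (C.κ m x) := by
    intro a b hab x
    have hfix : FixesLevel L₁ (b⁻¹ * a) := by
      intro y hy
      rw [AlgEquiv.mul_apply, hab y hy]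
      exact b.symm_apply_apply y
    have h2 := h₁ _ hfix x
    rw [map_mul, Module.End.mul_apply] at h2
    have h3 := congrArg (C.act b) h2
    rw [← Module.End.mul_apply, C.s31c_act_mul_inv, Module.End.one_apply] at h3
    exact h3
  have hagree' : ∀ a b : GQ, (∀ x ∈ L₁, a x = b x) →
      ∀ x : C.L0, C.act a⁻¹ (C.κ m x) = C.act b⁻¹ (C.κ m x) := by
    intro a b hab x
    have hfix : FixesLevel L₁ (a * b⁻¹) := by
      intro y hy
      rw [AlgEquiv.mul_apply, hab _ (hnorm b⁻¹ y hy)]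
      exact b.apply_symm_apply y
    have h2 := h₁ _ hfix x
    rw [map_mul, Module.End.mul_apply] at h2
    have h3 := congrArg (C.act a⁻¹) h2
    rw [← Module.End.mul_apply, C.s31c_act_inv_mul, Module.End.one_apply] at h3
    exact h3.symm
  have htriv : C.act t = 1 := C.inertia q hq hqM P hP t ht
  have htriv' : C.act t⁻¹ = 1 := by
    have := C.s31c_act_inv_mul t
    rwa [htriv, mul_one] at this
  -- `Δ` kills `κ m (L0)`
  have hkill : ∀ x : C.L0,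
      lucasSeq (C.T ℓ') (ℓ' : Module.End ℤ C.W) j' (C.κ m x) =
        lucasSeq (C.T ℓ) (ℓ : Module.End ℤ C.W) j (C.κ m x) := by
    intro x
    rw [C.s31c_lucas hℓ' hℓ'b A' hA' σ' hσ' j', C.s31c_lucas hℓ hℓb A hA σ hσ j,
      LinearMap.add_apply, LinearMap.add_apply, Module.End.mul_apply, Module.End.mul_apply,
      hagree _ _ (fun y hy => hg y (hle₁ hy)) x, hagree _ _ (fun y hy => hgt y (hle₁ hy)) x,
      hagree' _ _ (fun y hy => hg y (hle₁ hy)) x, hagree' _ _ (fun y hy => hgt y (hle₁ hy)) x,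
      map_mul, htriv, mul_one, mul_inv_rev, map_mul, htriv', one_mul,
      ← Nat.cast_pow, ← Nat.cast_pow, Module.End.natCast_apply, Module.End.natCast_apply]
    congr 1
    refine (s31_nsmul_eq_of_modEq hcong ?_).symm
    rw [← map_nsmul, C.s31c_pow_smul_kappa_self, map_zero]
  -- transfer to `L0`
  set Δ : CuspForm.heckeAlgebra M 2 S' :=
    lucasSeq (CuspForm.heckeAlgebra.T hℓ' hℓ'M hℓ'S : CuspForm.heckeAlgebra M 2 S')
        (ℓ' : CuspForm.heckeAlgebra M 2 S') j'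
      - lucasSeq (CuspForm.heckeAlgebra.T hℓ hℓM hℓS : CuspForm.heckeAlgebra M 2 S')
        (ℓ : CuspForm.heckeAlgebra M 2 S') j with hΔ
  have hφΔ : φ Δ = lucasSeq (C.T0 ℓ') (ℓ' : Module.End ℤ C.L0) j'
      - lucasSeq (C.T0 ℓ) (ℓ : Module.End ℤ C.L0) j := by
    rw [hΔ, map_sub, map_lucasSeq, map_lucasSeq, map_natCast, map_natCast, hφT, hφT]
  have hL0 : ∀ x : C.L0, ∃ y : C.L0, φ Δ x = ((p : ℤ) ^ (n + c)) • y := by
    intro x
    have h6 : C.κ m (φ Δ x) = 0 := by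
      rw [hφΔ, LinearMap.sub_apply, map_sub, C.s31c_kappa_lucas hℓ' hℓ'M,
        C.s31c_kappa_lucas hℓ hℓM, hkill, sub_self]
    obtain ⟨y, hy⟩ := (C.κ_ker m _).1 h6
    refine ⟨y, ?_⟩
    rw [hy, ← hm, ← Nat.cast_pow, natCast_zsmul]
  obtain ⟨D', ⟨δ, hδ⟩, hD'⟩ := hc n _ ⟨Δ, rfl⟩ hL0
  have hδ' : φ δ = D' := hδ
  have hD'' : φ Δ = ((p : ℤ) ^ n) • D' := hD'
  rw [Ideal.mem_span_singleton']
  refine ⟨δ, hφinj ?_⟩
  rw [hD'', ← hδ', map_mul, map_pow, map_natCast, zsmul_eq_mul]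
  push_cast
  exact (((Nat.cast_commute p (φ δ)).pow_left n).eq).symm

end Core

/-- `HeckeCongruence` at level `N` from `Core` at an auxiliary level `M` and level restriction. -/
theorem s31c_heckeCongruence_of_core {p : ℕ} (hp : p.Prime) {N M : ℕ} [NeZero N] [NeZero M]
    {S B : Finset ℕ} (C : Core M p) (hLR : LevelRes N M) (hpS : p ∈ S)
    (hB : ∀ ℓ : ℕ, ℓ.Prime → ¬ ℓ ∣ N → ℓ ∉ B → ¬ ℓ ∣ M)
    {q : ℕ} (hq : q.Prime) (hqM : ¬ q ∣ M * p) : HeckeCongruence N S p q B := by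
  intro n
  obtain ⟨r, hr⟩ := hLR (↑S : Set ℕ) ((↑S : Set ℕ) ∪ badSet M) Set.subset_union_left
    Set.subset_union_right
  obtain ⟨L, hL, h⟩ := C.s31c_heckeCongr hp ((↑S : Set ℕ) ∪ badSet M) Set.subset_union_right
    hq hqM n
  refine ⟨L, hL, ?_⟩
  intro ℓ hℓ hℓN hℓS ℓ' hℓ' hℓ'N hℓ'S A A' P σ σ' g t j j' hℓB hℓ'B hA hσ hA' hσ' hP ht hg hgt
  have hℓM := hB ℓ hℓ hℓN hℓB
  have hℓ'M := hB ℓ' hℓ' hℓ'N hℓ'B
  have hℓS' : ℓ ∉ (↑S : Set ℕ) ∪ badSet M := fun h => h.elim hℓS (not_mem_badSet hℓM)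
  have hℓ'S' : ℓ' ∉ (↑S : Set ℕ) ∪ badSet M := fun h => h.elim hℓ'S (not_mem_badSet hℓ'M)
  have hℓp : ℓ ≠ p := fun h => hℓS (by rw [h]; exact_mod_cast hpS)
  have hℓ'p : ℓ' ≠ p := fun h => hℓ'S (by rw [h]; exact_mod_cast hpS)
  have h1 := h ℓ hℓ hℓM hℓS' ℓ' hℓ' hℓ'M hℓ'S' hℓp hℓ'p A A' P σ σ' g t j j'
    hA hσ hA' hσ' hP ht hg hgt
  obtain ⟨c, hc⟩ := Ideal.mem_span_singleton'.1 h1
  have h2 := congrArg r hc
  rw [map_mul, map_pow, map_natCast, map_sub, map_lucasSeq, map_lucasSeq, map_natCast,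
    map_natCast, hr ℓ hℓ hℓM hℓS' hℓN hℓS, hr ℓ' hℓ' hℓ'M hℓ'S' hℓ'N hℓ'S] at h2
  exact Ideal.mem_span_singleton'.2 ⟨r c, h2⟩

/-- **S31 from weak Chebotarev, `Core` at the admissible levels and level restriction.** -/
theorem s31c_S31_of_core (hcheb : Fermat.Agent.GR.Asm.WeakChebotarev)
    (hcore : ∀ (M p : ℕ) [NeZero M], p.Prime → (4 ∣ M ∨ 9 ∣ M) → Nonempty (Core M p))
    (hLR : ∀ (N M : ℕ) [NeZero N] [NeZero M], N ∣ M → LevelRes N M)
    {p : ℕ} {N : ℕ} [NeZero N] {S : Finset ℕ}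
    {𝒪 : Type} [CommRing 𝒪] [IsDomain 𝒪] [IsDiscreteValuationRing 𝒪]
    [IsAdicComplete (IsLocalRing.maximalIdeal 𝒪) 𝒪]
    {θ : CuspForm.heckeAlgebra N 2 (↑S : Set ℕ) →+* IsLocalRing.ResidueField 𝒪}
    {T : Type} [CommRing T] [IsLocalRing T] [IsNoetherianRing T]
    [IsAdicComplete (IsLocalRing.maximalIdeal T) T] [Algebra 𝒪 T] [IsLocalHom (algebraMap 𝒪 T)]
    [Module.Finite 𝒪 T] [Module.Free 𝒪 T]
    (hp : p.Prime)
    (hp𝒪 : (p : 𝒪) ∈ IsLocalRing.maximalIdeal 𝒪) (hpS : p ∈ S)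
    (hNS : ∀ q : ℕ, q.Prime → q ∣ N → q ∈ S)
    (H : CuspForm.HeckeGaloisRepDatum N (↑S : Set ℕ) 𝒪 θ T)
    (q : ℕ) (hq : q.Prime) (hqS : q ∉ S) :
    H.ρ.IsUnramifiedAt q := by
  have hqN : ¬ q ∣ N := fun h => hqS (hNS q hq h)
  have hqp : ¬ q ∣ p := fun h => hqS (((Nat.prime_dvd_prime_iff_eq hq hp).1 h) ▸ hpS)
  -- a general step, for `M = a ^ 2 * N` with `a ∈ {2, 3}` a prime different from `q`
  have key : ∀ a : ℕ, a.Prime → a ∈ ({2, 3} : Finset ℕ) → (4 ∣ a ^ 2 * N ∨ 9 ∣ a ^ 2 * N) →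
      q ≠ a → H.ρ.IsUnramifiedAt q := by
    intro a ha haB hadm hqa
    have : NeZero (a ^ 2 * N) := ⟨Nat.mul_ne_zero (pow_ne_zero 2 ha.ne_zero) (NeZero.ne N)⟩
    obtain ⟨C⟩ := hcore (a ^ 2 * N) p hp hadm
    refine S31_of_heckeCongruence hcheb hp𝒪 H q ({2, 3} : Finset ℕ)
      (s31c_heckeCongruence_of_core hp C (hLR N (a ^ 2 * N) (Dvd.intro_left _ rfl)) hpS ?_ hq ?_)
    · intro ℓ hℓ hℓN hℓB h
      rcases hℓ.dvd_mul.1 h with h' | h'
      · have := (Nat.prime_dvd_prime_iff_eq hℓ ha).1 (hℓ.dvd_of_dvd_pow h')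
        exact hℓB (this ▸ haB)
      · exact hℓN h'
    · intro h
      rcases hq.dvd_mul.1 h with h' | h'
      · rcases hq.dvd_mul.1 h' with h'' | h''
        · exact hqa ((Nat.prime_dvd_prime_iff_eq hq ha).1 (hq.dvd_of_dvd_pow h''))
        · exact hqN h''
      · exact hqp h'
  by_cases hq2 : q = 2
  · exact key 3 Nat.prime_three (by simp) (Or.inr (Dvd.intro N (by norm_num))) (by omega)
  · exact key 2 Nat.prime_two (by simp) (Or.inl (Dvd.intro N (by norm_num))) hq2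

end Fermat.Agent.GR.Adic
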